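/-
MLT (project S59) / Top (lead): **an element with determinant `-1` which is not an involution**.

`mlttb_exists_neg_nontriv` : let `E` be a two-dimensional residual representation whose determinant takes
the values `±1` (`1 ≠ -1`), with an element of determinant `-1`, and which stays irreducible over every
extension field on every subgroup of index `2` (the hypothesis `tw` of S56).  Then there is `σ` with
`det E(σ) = -1` and `E(σ)² ≠ 1`.  (Otherwise the kernel `H` of the determinant would act through a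
commutative group — conjugation by an element of determinant `-1` inverts it — and `E|_H` would have an
invariant line over the algebraic closure.)
-/
import Mathlib
import Fermat.Prelude.Def_GaloisRep_Residual

set_option autoImplicit false
set_option linter.style.haveILetI false
set_option linter.unusedSectionVars false
set_option linter.unusedVariables false

open scoped TensorProduct

namespace Fermat.Agent.MLT

local notation "GQ" => (AlgebraicClosure ℚ ≃ₐ[ℚ] AlgebraicClosure ℚ)

/-- a commutative family of endomorphisms of a plane over an algebraically closed field has a common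
invariant line -/
theorem mlttb_exists_invariant_line {K U : Type*} [Field K] [IsAlgClosed K] [AddCommGroup U]
    [Module K U] [Module.Finite K U] (hU : Module.finrank K U = 2)
    (S : Set (Module.End K U)) (hS : ∀ f ∈ S, ∀ g ∈ S, f * g = g * f) :
    ∃ V : Submodule K U, V ≠ ⊥ ∧ V ≠ ⊤ ∧ ∀ f ∈ S, ∀ x ∈ V, f x ∈ V := by
  classical
  haveI : Nontrivial U := Module.nontrivial_of_finrank_pos (R := K) (by rw [hU]; norm_num)
  by_cases hsc : ∀ f ∈ S, ∃ μ : K, f = μ • (1 : Module.End K U)
  · obtain ⟨v, hv⟩ := exists_ne (0 : U)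
    refine ⟨K ∙ v, ?_, ?_, ?_⟩
    · rw [Ne, Submodule.span_singleton_eq_bot]
      exact hv
    · intro htop
      have h1 : Module.finrank K (K ∙ v) = 1 := finrank_span_singleton hv
      rw [htop, finrank_top, hU] at h1
      norm_num at h1
    · intro f hf x hx
      obtain ⟨μ, rfl⟩ := hsc f hf
      rw [LinearMap.smul_apply, Module.End.one_apply]
      exact Submodule.smul_mem _ _ hx
  · push_neg at hsc
    obtain ⟨f, hfS, hf⟩ := hsc
    obtain ⟨μ, hμ⟩ := Module.End.exists_eigenvalue f
    refine ⟨Module.End.eigenspace f μ, hμ, ?_, ?_⟩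
    · intro htop
      apply hf μ
      apply LinearMap.ext
      intro x
      have hx : x ∈ Module.End.eigenspace f μ := by rw [htop]; exact Submodule.mem_top
      rw [Module.End.mem_eigenspace_iff] at hx
      rw [hx, LinearMap.smul_apply, Module.End.one_apply]
    · intro g hg x hx
      rw [Module.End.mem_eigenspace_iff] at hx ⊢
      have h1 : f (g x) = g (f x) := by
        have := LinearMap.congr_fun (hS f hfS g hg) x
        rwa [Module.End.mul_apply, Module.End.mul_apply] at this
      rw [h1, hx, map_smul]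

/-- **an element with determinant `-1` which is not an involution** -/
theorem mlttb_exists_neg_nontriv {k : Type} [Field k] (E : ResidualGaloisRep k)
    (h2 : (2 : k) ≠ 0)
    (hdet : ∀ σ : GQ, LinearMap.det (E.ρ σ) = 1 ∨ LinearMap.det (E.ρ σ) = -1)
    (hneg : ∃ c : GQ, LinearMap.det (E.ρ c) = -1)
    (htw : ∀ (K : Type) [Field K] [Algebra k K] (G : Subgroup GQ), G.index = 2 →
      ∀ V : Submodule K (E.baseChange K).V,
        (∀ s ∈ G, ∀ x ∈ V, (E.baseChange K).ρ s x ∈ V) → V = ⊥ ∨ V = ⊤) :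
    ∃ σ : GQ, LinearMap.det (E.ρ σ) = -1 ∧ E.ρ σ * E.ρ σ ≠ 1 := by
  classical
  by_contra hcon
  push_neg at hcon
  obtain ⟨c, hc⟩ := hneg
  have h11 : (1 : k) ≠ -1 := by
    intro h
    apply h2
    have : (2 : k) = 1 + 1 := by norm_num
    rw [this]
    nth_rewrite 2 [h]
    ring
  -- the kernel of the determinant
  set dt : GQ →* k := (LinearMap.det : Module.End k E.V →* k).comp E.ρ with hdt
  have hdt_apply : ∀ σ, dt σ = LinearMap.det (E.ρ σ) := fun σ => rfl
  set G : Subgroup GQ := MonoidHom.ker dt with hG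
  have hmemG : ∀ σ, σ ∈ G ↔ LinearMap.det (E.ρ σ) = 1 := fun σ => by
    rw [hG, MonoidHom.mem_ker, hdt_apply]
  have hidx : G.index = 2 := by
    rw [Subgroup.index_eq_two_iff]
    refine ⟨c, fun b => ?_⟩
    rw [hmemG, hmemG, map_mul, map_mul, hc]
    rcases hdet b with hb | hb
    · rw [hb]
      refine Or.inr ⟨rfl, ?_⟩
      rw [one_mul]
      exact fun h => h11 h.symm
    · rw [hb]
      refine Or.inl ⟨by ring, ?_⟩
      exact fun h => h11 h.symm
  -- conjugation by `c` inverts `G`
  have hC : E.ρ c * E.ρ c = 1 := hcon c hc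
  have hinv : ∀ s ∈ G, E.ρ s⁻¹ = E.ρ c * E.ρ s * E.ρ c := by
    intro s hs
    have h1 : LinearMap.det (E.ρ (c * s)) = -1 := by
      rw [map_mul, map_mul, hc, (hmemG s).1 hs, mul_one]
    have h3 := hcon (c * s) h1
    rw [map_mul] at h3
    -- `(C S)(C S) = 1`, `S S⁻¹ = 1`
    have h4 : E.ρ s * E.ρ s⁻¹ = 1 := by rw [← map_mul, mul_inv_cancel, map_one]
    have h5 : E.ρ s⁻¹ * E.ρ s = 1 := by rw [← map_mul, inv_mul_cancel, map_one]
    calc E.ρ s⁻¹ = (E.ρ c * E.ρ s) * (E.ρ c * E.ρ s) * E.ρ s⁻¹ := by rw [h3, one_mul]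
      _ = E.ρ c * E.ρ s * E.ρ c * (E.ρ s * E.ρ s⁻¹) := by simp only [mul_assoc]
      _ = E.ρ c * E.ρ s * E.ρ c := by rw [h4, mul_one]
  have hinvG : ∀ s ∈ G, s⁻¹ ∈ G := fun s hs => G.inv_mem hs
  have hcomm' : ∀ s ∈ G, ∀ t ∈ G, E.ρ t⁻¹ * E.ρ s⁻¹ = E.ρ s⁻¹ * E.ρ t⁻¹ := by
    intro s hs t ht
    have h1 : E.ρ (s * t)⁻¹ = E.ρ s⁻¹ * E.ρ t⁻¹ := by
      rw [hinv (s * t) (G.mul_mem hs ht), hinv s hs, hinv t ht, map_mul]
      calc E.ρ c * (E.ρ s * E.ρ t) * E.ρ c
          = E.ρ c * E.ρ s * (1 : Module.End k E.V) * E.ρ t * E.ρ c := by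
            simp only [mul_assoc, one_mul]
        _ = E.ρ c * E.ρ s * E.ρ c * (E.ρ c * E.ρ t * E.ρ c) := by
            rw [← hC]; simp only [mul_assoc]
    rw [← h1, mul_inv_rev, map_mul]
  have hcomm : ∀ s ∈ G, ∀ t ∈ G, E.ρ s * E.ρ t = E.ρ t * E.ρ s := by
    intro s hs t ht
    have := hcomm' t⁻¹ (hinvG t ht) s⁻¹ (hinvG s hs)
    rwa [inv_inv, inv_inv] at this
  -- the invariant line over the algebraic closure
  set K := AlgebraicClosure k with hK
  have hfr : Module.finrank K (E.baseChange K).V = 2 := (E.baseChange K).finrank_eq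
  obtain ⟨V, hV0, hV1, hVs⟩ := mlttb_exists_invariant_line hfr
    {f | ∃ s ∈ G, f = (E.baseChange K).ρ s} (by
      rintro f ⟨s, hs, rfl⟩ g ⟨t, ht, rfl⟩
      rw [← map_mul, ← map_mul]
      show ((E.ρ (s * t)).baseChange K) = ((E.ρ (t * s)).baseChange K)
      rw [map_mul, map_mul, hcomm s hs t ht])
  rcases htw K G hidx V (fun s hs x hx => hVs _ ⟨s, hs, rfl⟩ x hx) with h | h
  · exact hV0 h
  · exact hV1 h

end Fermat.Agent.MLT
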