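/-
MLT (project S59) / Top (lead): **existence of the auxiliary prime for `p = 3`** (`MltIAuxExists`).

`mlttb_aux_exists` : for a semistable `W` with `W[3]` irreducible and a finite set `T` of numbers there is
a prime `r ∉ T`, `r ≡ 2 mod 3`, of good reduction for `W`, with `a_r(W) ≢ 0 mod 3`
(then `a_r² ≢ (1 + r)² ≡ 0 mod 3`, and `ρbar(Frob_r)` has the eigenvalues `α, α³` of order `8`).

Proof: `mlttb_exists_neg_nontriv` (from `hTW`) gives `σ` with `det ρbar(σ) = -1`, `ρbar(σ)² ≠ 1`; the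
Frobenius density theorem gives a prime `r` with `ρbar(Frob_r) = ρbar(σ)^a`, `a` prime to the (even) order of
`σ` on the splitting field; then `det = (-1)^a = -1` and `tr = 0` would force `ρbar(σ)^(2a) = 1`, hence
`ρbar(σ)² = 1`.
-/
import Mathlib
import Fermat.Agent.Lib.MLT.Top.AuxNeg
import Fermat.Agent.Lib.MLT.Res.CongAll
import Fermat.Agent.Lib.MLT.Res.SL1f
import Fermat.Agent.Lib.FrobDensity.Main

set_option autoImplicit false
set_option linter.style.haveILetI false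
set_option linter.unusedSectionVars false
set_option linter.unusedVariables false

open Polynomial WeierstrassCurve Fermat.Agent.S58 Fermat.Agent.Ihara
open scoped TensorProduct

namespace Fermat.Agent.MLT

local notation "Qb" => AlgebraicClosure ℚ
local notation "GQ" => (AlgebraicClosure ℚ ≃ₐ[ℚ] AlgebraicClosure ℚ)

/-- Cayley–Hamilton in dimension two -/
theorem mlttb_cayley_two {F V : Type*} [Field F] [AddCommGroup V] [Module F V]
    [Module.Finite F V] (hV : Module.finrank F V = 2) (f : Module.End F V) :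
    f * f = LinearMap.trace F V f • f - LinearMap.det f • (1 : Module.End F V) := by
  have h1 := LinearMap.aeval_self_charpoly f
  rw [mltr_charpoly_eq hV f] at h1
  simp only [map_add, map_sub, map_mul, map_pow, aeval_X, aeval_C] at h1
  rw [pow_two, Algebra.algebraMap_eq_smul_one, Algebra.algebraMap_eq_smul_one] at h1
  rw [smul_mul_assoc, one_mul] at h1
  rw [← sub_eq_zero, ← h1]
  abel

/-- the group theory: powers of an element with `g ^ n = 1`, `det g = -1`, `g² ≠ 1` -/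
theorem mlttb_pow_trace_ne_zero {F V : Type*} [Field F] [AddCommGroup V] [Module F V]
    [Module.Finite F V] (hV : Module.finrank F V = 2) (h2 : (2 : F) ≠ 0) (g : Module.End F V)
    (hdet : LinearMap.det g = -1) (hg2 : g * g ≠ 1) {n a : ℕ} (hn0 : 0 < n)
    (hn : g ^ n = 1) (ha : a.Coprime n) :
    LinearMap.det (g ^ a) = -1 ∧ LinearMap.trace F V (g ^ a) ≠ 0 := by
  have h11 : (1 : F) ≠ -1 := by
    intro h
    apply h2
    have : (2 : F) = 1 + 1 := by norm_num
    rw [this]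
    nth_rewrite 2 [h]
    ring
  -- `n` is even
  have hneven : Even n := by
    by_contra hodd
    rw [Nat.not_even_iff_odd] at hodd
    have h1 := congrArg LinearMap.det hn
    rw [map_pow, hdet, hodd.neg_one_pow, map_one] at h1
    exact h11 h1.symm
  have hn1 : 1 < n := by
    rcases hneven with ⟨m, hm⟩
    omega
  have haodd : Odd a := by
    by_contra heven
    rw [Nat.not_odd_iff_even] at heven
    have h2n : 2 ∣ n := even_iff_two_dvd.1 hneven
    have h2a : 2 ∣ a := even_iff_two_dvd.1 heven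
    have := Nat.dvd_gcd h2a h2n
    rw [ha] at this
    norm_num at this
  refine ⟨by rw [map_pow, hdet, haodd.neg_one_pow], fun htr => ?_⟩
  have hdeta : LinearMap.det (g ^ a) = -1 := by rw [map_pow, hdet, haodd.neg_one_pow]
  have h3 : g ^ a * g ^ a = 1 := by
    rw [mlttb_cayley_two hV (g ^ a), htr, hdeta, zero_smul, zero_sub, neg_smul, neg_neg, one_smul]
  obtain ⟨u, -, hu⟩ := Nat.exists_mul_mod_eq_one_of_coprime ha hn1
  -- `a u = q n + 1`
  have h4 : a * u = n * (a * u / n) + 1 := by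
    have := Nat.div_add_mod (a * u) n
    rw [hu] at this
    exact this.symm
  apply hg2
  have h5 : (g ^ a * g ^ a) ^ u = 1 := by rw [h3, one_pow]
  rw [← pow_add, ← pow_mul] at h5
  have h6 : (a + a) * u = n * (2 * (a * u / n)) + 2 := by
    calc (a + a) * u = 2 * (a * u) := by ring
      _ = 2 * (n * (a * u / n) + 1) := by rw [← h4]
      _ = n * (2 * (a * u / n)) + 2 := by ring
  rw [h6, pow_add, pow_mul, hn, one_pow, one_mul, pow_two] at h5
  exact h5

theorem mlttb_zmod3_two_ne : (2 : ZMod 3) ≠ 0 := by decide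

theorem mlttb_zmod3_cases : ∀ d : ZMod 3, d ≠ 0 → d = 1 ∨ d = -1 := by decide

theorem mlttb_zmod3_neg_one : (-1 : ZMod 3) = ((2 : ℕ) : ZMod 3) := by decide

/-- **existence of the auxiliary prime for `p = 3`** -/
theorem mlttb_aux_exists [Fact (Nat.Prime 3)] (W : WeierstrassCurve ℤ) (hΔ : W.Δ ≠ 0)
    (hss : W.IsSemistableModel) (hirr : W.ModRepIsIrreducible 3) (T : Finset ℕ) :
    ∃ r : ℕ, r.Prime ∧ r ∉ T ∧ r % 3 = 2 ∧ ¬ (r : ℤ) ∣ W.Δ ∧ ¬ (3 : ℤ) ∣ W.apOfModel r := by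
  classical
  haveI := Fermat.Agent.Lib.Helper6.isGalois_rat_algebraicClosure
  have h3 : (3 : ℕ) ≠ 2 := by norm_num
  set E := mltrRep W 3 (ZMod 3) hΔ with hE
  have h2 : (2 : ZMod 3) ≠ 0 := mlttb_zmod3_two_ne
  have hfr : Module.finrank (ZMod 3) E.V = 2 := E.finrank_eq
  -- the determinant takes the values `±1`
  have hdet : ∀ σ : GQ, LinearMap.det (E.ρ σ) = 1 ∨ LinearMap.det (E.ρ σ) = -1 := by
    intro σ
    have h1 : LinearMap.det (E.ρ σ) * LinearMap.det (E.ρ σ⁻¹) = 1 := by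
      rw [← map_mul, ← map_mul, mul_inv_cancel, map_one, map_one]
    have h0 : LinearMap.det (E.ρ σ) ≠ 0 := left_ne_zero_of_mul_eq_one h1
    exact mlttb_zmod3_cases _ h0
  obtain ⟨c, hc, hc1⟩ := s58d_exists_involution
  have hneg : ∃ c : GQ, LinearMap.det (E.ρ c) = -1 := by
    refine ⟨c, ?_⟩
    have h6 : LinearMap.det (E.ρ c) =
        algebraMap (ZMod 3) (ZMod 3) (LinearMap.det ((mltrE W 3 hΔ).ρ c)) :=
      LinearMap.det_baseChange ((mltrE W 3 hΔ).ρ c)
    rw [h6, mltr_det_involution W 3 hΔ h3 c hc hc1, map_neg, map_one]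
  have htw := mltr_hTW W 3 (ZMod 3) (Or.inl rfl) hΔ hss hirr (fun h => by norm_num at h)
  obtain ⟨σ, hσdet, hσ2⟩ := mlttb_exists_neg_nontriv E h2 hdet hneg htw
  -- the splitting field
  obtain ⟨F₀, hF₀, hF₀ρ⟩ := E.factorsThroughFiniteLevel
  haveI := hF₀
  set L : IntermediateField ℚ Qb := IntermediateField.normalClosure ℚ F₀ Qb with hL
  haveI : FiniteDimensional ℚ L := normalClosure.is_finiteDimensional ℚ F₀ Qb
  haveI : Normal ℚ L := normalClosure.normal ℚ F₀ Qb
  have hF₀L : F₀ ≤ L := IntermediateField.le_normalClosure F₀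
  have hLρ : ∀ τ₁ τ₂ : GQ, (∀ x ∈ L, τ₁ x = τ₂ x) → E.ρ τ₁ = E.ρ τ₂ := by
    intro τ₁ τ₂ h12
    have hs : E.ρ (τ₂⁻¹ * τ₁) = 1 := by
      apply hF₀ρ
      intro x hx
      rw [AlgEquiv.mul_apply, h12 x (hF₀L hx)]
      exact τ₂.symm_apply_apply x
    have h4 : τ₁ = τ₂ * (τ₂⁻¹ * τ₁) := by rw [mul_inv_cancel_left]
    rw [h4, map_mul, hs, mul_one]
  set Tb : Finset ℕ := insert 3 (T ∪ W.Δ.natAbs.primeFactors) with hTb
  obtain ⟨l, hl, hlT, P, φ, hPl, hφ, -, a, ha, hφa⟩ :=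
    Fermat.Agent.FrobDensity.exists_frobenius_generating L σ Tb
  rw [hTb, Finset.mem_insert, Finset.mem_union, not_or, not_or] at hlT
  obtain ⟨hl3, hlT', hlΔ⟩ := hlT
  have hgood : ¬ (l : ℤ) ∣ W.Δ := by
    intro h
    refine hlΔ (Nat.mem_primeFactors.mpr ⟨hl, Int.natCast_dvd.1 h, ?_⟩)
    rwa [Ne, Int.natAbs_eq_zero]
  -- the order of `σ` on `L`
  set r₀ := AlgEquiv.restrictNormalHom (F := ℚ) (K₁ := Qb) L σ with hr₀
  set n := orderOf r₀ with hn
  have hn0 : 0 < n := orderOf_pos r₀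
  have hgn : E.ρ σ ^ n = 1 := by
    rw [← map_pow, ← map_one E.ρ]
    apply hLρ
    intro x hx
    have h4 : algebraMap ↥L Qb ((AlgEquiv.restrictNormalHom (F := ℚ) (K₁ := Qb) ↥L (σ ^ n))
        ⟨x, hx⟩) = (σ ^ n) (algebraMap ↥L Qb ⟨x, hx⟩) :=
      AlgEquiv.restrictNormal_commutes (σ ^ n) ↥L ⟨x, hx⟩
    rw [map_pow, ← hr₀, hn, pow_orderOf_eq_one] at h4
    exact h4.symm
  have hφρ : E.ρ φ = E.ρ σ ^ a := by
    rw [← map_pow]
    exact hLρ φ (σ ^ a) hφa
  obtain ⟨hd, ht⟩ := mlttb_pow_trace_ne_zero hfr h2 (E.ρ σ) hσdet hσ2 hn0 hgn ha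
  rw [← hφρ] at hd ht
  refine ⟨l, hl, hlT', ?_, hgood, ?_⟩
  · have h5 := mltr_det_frob W 3 hΔ (ZMod 3) hl hl3 P hPl φ hφ
    rw [← hE, hd] at h5
    have h6 : ((l : ℕ) : ZMod 3) = ((2 : ℕ) : ZMod 3) := by
      rw [← h5]
      exact mlttb_zmod3_neg_one
    have h7 := (ZMod.natCast_eq_natCast_iff' l 2 3).1 h6
    omega
  · intro hdvd
    apply ht
    have h5 := mltr_charpoly_frob W 3 (ZMod 3) hΔ hl hgood hl3 P hPl φ hφ
    have h6 := mltr_trace_of_charpoly E φ _ _ h5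
    have h7 : ((W.apOfModel l : ℤ) : ZMod 3) = 0 :=
      (ZMod.intCast_zmod_eq_zero_iff_dvd _ 3).2 hdvd
    rw [h7] at h6
    exact h6

end Fermat.Agent.MLT
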