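/-
MLT (project S59) / Top (lead): **eigenclasses in the `θ`-part, and the transfer to the level with an
auxiliary prime**.

* `mlttb_mem_part_of_eigen` : an eigenclass with eigenvalues `θ ℓ` (`ℓ ∈ Ps`) lies in the `θ`-part;
* `mlttb_aux_step` : from an eigenclass `x` of level `N` (`T_c x = (α + β) x`) to an eigenclass `y` of level
  `N c` in the `θ`-part (`U_c ≡ α`), with the same eigenvalues away from `c` (`ih4_tw_step`).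
-/
import Mathlib
import Fermat.Agent.Lib.Ihara.H4.TwBetti

set_option autoImplicit false
set_option linter.style.haveILetI false
set_option linter.unusedSectionVars false
set_option linter.unusedVariables false

open IsLocalRing Fermat.Agent.Ihara

namespace Fermat.Agent.MLT

variable (𝒪 : Type) [CommRing 𝒪] [IsDomain 𝒪] [CharZero 𝒪] [IsLocalRing 𝒪] [IsNoetherianRing 𝒪]
  [IsAdicComplete (maximalIdeal 𝒪) 𝒪]

/-- an eigenclass with the eigenvalues `θ ℓ` (`ℓ ∈ Ps`) lies in the `θ`-part -/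
theorem mlttb_mem_part_of_eigen {N : ℕ} [NeZero N] (Ps : Set ℕ) (θ : ℕ → 𝒪) (x : Ih4H 𝒪 𝒪 N)
    (hx : ∀ ℓ ∈ Ps, ih4Op 𝒪 N ℓ x = θ ℓ • x) : x ∈ ih4Part 𝒪 N Ps θ := by
  rw [ih4_mem_part]
  intro ℓ hℓ
  rw [ih4p_mem_nil1]
  intro n
  refine ⟨1, ?_⟩
  rw [pow_one, LinearMap.sub_apply, Module.algebraMap_end_apply, hx ℓ hℓ, sub_self]
  exact Submodule.zero_mem _

/-- **the transfer to the level with an auxiliary prime `c`** -/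
theorem mlttb_aux_step (N c : ℕ) [NeZero N] [hc : Fact c.Prime] (hcN : ¬ c ∣ N) [NeZero (N * c)]
    (Ps : Set ℕ) (hcPs : c ∈ Ps) (θ : ℕ → 𝒪) (b₀ : 𝒪) (hprod : θ c * b₀ = ((c : ℕ) : 𝒪))
    (ha₀ : IsUnit (θ c)) (hab : IsUnit (θ c - b₀)) (ha : IsUnit (1 - θ c ^ 2))
    (x : Ih4H 𝒪 𝒪 N) (hx0 : x ≠ 0)
    (hx : ∀ ℓ ∈ Ps, ℓ ≠ c → ih4Op 𝒪 N ℓ x = θ ℓ • x)
    (hxc : ih4Op 𝒪 N c x = (θ c + b₀) • x)
    (S : Set ℕ) (hcS : c ∈ S) (a : ℕ → 𝒪)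
    (hxa : ∀ ℓ : ℕ, ℓ.Prime → ℓ ∉ S → ih4Op 𝒪 N ℓ x = a ℓ • x) :
    ∃ y : Ih4H 𝒪 𝒪 (N * c), y ≠ 0 ∧ y ∈ ih4Part 𝒪 (N * c) Ps θ ∧
      ∀ ℓ : ℕ, ℓ.Prime → ℓ ∉ S → ih4Op 𝒪 (N * c) ℓ y = a ℓ • y := by
  classical
  obtain ⟨Φ, hΦ⟩ := ih4_tw_step 𝒪 N c hcN Ps hcPs θ b₀ hprod ha₀ hab ha
  have hxmem : x ∈ ih4Part 𝒪 N Ps (Function.update θ c (θ c + b₀)) := by
    apply mlttb_mem_part_of_eigen
    intro ℓ hℓ
    by_cases hℓc : ℓ = c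
    · subst hℓc
      rw [Function.update_self]
      exact hxc
    · rw [Function.update_of_ne hℓc]
      exact hx ℓ hℓ hℓc
  set y := Φ.symm ⟨x, hxmem⟩ with hy
  have hΦy : Φ y = ⟨x, hxmem⟩ := Φ.apply_symm_apply _
  refine ⟨(y : Ih4H 𝒪 𝒪 (N * c)), ?_, y.2, ?_⟩
  · intro h0
    have h1 : y = 0 := Subtype.ext h0
    rw [h1, map_zero] at hΦy
    apply hx0
    have := congrArg Subtype.val hΦy
    exact this.symm
  · intro ℓ hℓ hℓS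
    have hℓc : ℓ ≠ c := fun h => hℓS (h ▸ hcS)
    set y' : ↥(ih4Part 𝒪 (N * c) Ps θ) :=
      ⟨ih4Op 𝒪 (N * c) ℓ (y : Ih4H 𝒪 𝒪 (N * c)), ih4Op_mem_part 𝒪 ℓ y.2⟩ with hy'
    have h1 := hΦ ℓ hℓc y y' rfl
    rw [hΦy] at h1
    have h2 : Φ y' = Φ (a ℓ • y) := by
      apply Subtype.ext
      rw [h1, map_smul, hΦy]
      exact hxa ℓ hℓ hℓS
    have h3 := Φ.injective h2
    have := congrArg Subtype.val h3
    exact this

end Fermat.Agent.MLT
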