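/-
MLT (project S59) / Top (lead): **the base datum `mlttbB` and its validity**.

`mlttbB p ρbar flat M N0 aux t lamc : MltBase 𝒪` : `Smin = {p} ∪ primes(M)`, level `N0`
(`= M` or `M · c` for the auxiliary prime `c`), `cut = ({p} if ord) ∪ aux`, `S0 = Smin ∪ cut`.

`mlttb_valid` : `(mlttbB …).Valid` for `ρbar = κ ⊗ W[p]` from the arithmetic of `W` (package [R]) and the
hypotheses on `t`, `lamc`, `aux` which the construction of `Top/Base.lean` provides.
-/
import Mathlib
import Fermat.Agent.Lib.MLT.Min.Defs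
import Fermat.Agent.Lib.MLT.Res.SL1f
import Fermat.Agent.Lib.MLT.Res.CongAll

set_option autoImplicit false
set_option linter.style.haveILetI false
set_option linter.unusedSectionVars false
set_option linter.unusedVariables false

open IsLocalRing Polynomial Fermat.Agent.TW Fermat.Agent.Ihara WeierstrassCurve

namespace Fermat.Agent.MLT

local notation "Qb" => AlgebraicClosure ℚ
local notation "GQ" => (AlgebraicClosure ℚ ≃ₐ[ℚ] AlgebraicClosure ℚ)

section Def

variable {𝒪 : Type} [CommRing 𝒪] [IsLocalRing 𝒪]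

/-- **the base datum** -/
noncomputable def mlttbB (p : ℕ) (ρbar : ResidualGaloisRep (ResidueField 𝒪)) (flat : Bool)
    (M N0 : ℕ) (aux : Finset ℕ) (t lamc : ℕ → 𝒪) : MltBase 𝒪 where
  p := p
  ρbar := ρbar
  flat := flat
  Smin := insert p M.primeFactors
  N0 := N0
  S0 := insert p M.primeFactors ∪ ((if flat = true then ∅ else {p}) ∪ aux)
  t := t
  cut := (if flat = true then ∅ else {p}) ∪ aux
  lam := lamc

theorem mlttbB_S0 (p : ℕ) (ρbar : ResidualGaloisRep (ResidueField 𝒪)) (flat : Bool)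
    (M N0 : ℕ) (aux : Finset ℕ) (t lamc : ℕ → 𝒪) :
    (mlttbB p ρbar flat M N0 aux t lamc).S0 =
      (mlttbB p ρbar flat M N0 aux t lamc).Smin ∪ (mlttbB p ρbar flat M N0 aux t lamc).cut := rfl

end Def

section Valid

variable {𝒪 : Type} [CommRing 𝒪] [IsDomain 𝒪] [IsDiscreteValuationRing 𝒪] [CharZero 𝒪]
  [IsAdicComplete (maximalIdeal 𝒪) 𝒪] [Finite (ResidueField 𝒪)]

/-- **validity of the base datum** -/
theorem mlttb_valid (p : ℕ) [Fact p.Prime] (hp : p = 3 ∨ p = 5)
    (hp𝒪 : (p : 𝒪) ∈ maximalIdeal 𝒪) (ι : ZMod p →+* ResidueField 𝒪)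
    (W : WeierstrassCurve ℤ) (hΔ : W.Δ ≠ 0) (hss : W.IsSemistableModel)
    (hirr : W.ModRepIsIrreducible p) (hloc : p = 5 → MltrLocalAtP W p)
    (hsq : ∀ a : ℤ, IsSquare ((a : ResidueField 𝒪)))
    (M : ℕ) (hM : 0 < M) (hMsq : Squarefree M)
    (hMiff : ∀ q : ℕ, q.Prime → q ≠ p → (q ∣ M ↔ ¬ (mltrE W p hΔ).IsUnramifiedAt q))
    (flat : Bool) (hflatM : flat = true → ¬ p ∣ M) (hordM : flat = false → p ∣ M)
    (N0 : ℕ) (aux : Finset ℕ) (t lamc : ℕ → 𝒪)
    (hN0 : (aux = ∅ ∧ N0 = M) ∨ ∃ c, aux = {c} ∧ N0 = M * c)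
    (haux : ∀ c ∈ aux, c.Prime ∧ c ≠ p ∧ ¬ c ∣ M ∧ IsUnit (lamc c) ∧
      ∃ b : 𝒪, lamc c * b = (c : 𝒪) ∧ IsUnit (lamc c - b) ∧ IsUnit (lamc c - (c : 𝒪) * b) ∧
        IsUnit (b - (c : 𝒪) * lamc c) ∧
        ∀ P : ValuationSubring Qb, P.LiesOverPrime c → ∀ σ : GQ, P.IsFrobeniusAt σ c →
          LinearMap.charpoly (((mltrE W p hΔ).baseChangeAlong ι).ρ σ) =
            (X - C (residue 𝒪 (lamc c))) * (X - C (residue 𝒪 b)))
    (h3 : p = 3 → ∃ r : ℕ, r.Prime ∧ r ∣ N0 ∧ r % 3 = 2)
    (hlamp : flat = false → IsUnit (lamc p))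
    (hfrob : ∀ ℓ : ℕ, ℓ.Prime → ℓ ≠ p → ¬ ℓ ∣ M → ℓ ∉ aux →
      ∀ P : ValuationSubring Qb, P.LiesOverPrime ℓ → ∀ σ : GQ, P.IsFrobeniusAt σ ℓ →
        LinearMap.charpoly (((mltrE W p hΔ).baseChangeAlong ι).ρ σ) =
          X ^ 2 - C (residue 𝒪 (t ℓ)) * X + C ((ℓ : ResidueField 𝒪)))
    (hX : mltX p flat (GaloisRepAdic.ofResidualGaloisRep ((mltrE W p hΔ).baseChangeAlong ι)))
    (hmod : ∀ [NeZero ((mlttbB p ((mltrE W p hΔ).baseChangeAlong ι) flat M N0 aux t lamc).level ∅)],
      (mlttbB p ((mltrE W p hΔ).baseChangeAlong ι) flat M N0 aux t lamc).H ∅ ≠ ⊥) :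
    (mlttbB p ((mltrE W p hΔ).baseChangeAlong ι) flat M N0 aux t lamc).Valid := by
  classical
  have hpp : p.Prime := Fact.out
  have hp2 : p ≠ 2 := by rcases hp with rfl | rfl <;> norm_num
  letI : Algebra (ZMod p) (ResidueField 𝒪) := ι.toAlgebra
  have hρ : (mltrE W p hΔ).baseChangeAlong ι = mltrRep W p (ResidueField 𝒪) hΔ := rfl
  have hsq' : ∀ a : ZMod p, IsSquare (algebraMap (ZMod p) (ResidueField 𝒪) a) := by
    intro a
    have h1 := hsq (a.val : ℤ)
    have h2 : algebraMap (ZMod p) (ResidueField 𝒪) a = (((a.val : ℕ) : ℤ) : ResidueField 𝒪) := by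
      conv_lhs => rw [← ZMod.natCast_zmod_val a]
      rw [map_natCast, Int.cast_natCast]
    rw [h2]
    exact h1
  have hM0 : M ≠ 0 := hM.ne'
  have hmemM : ∀ q : ℕ, q ∈ M.primeFactors ↔ q.Prime ∧ q ∣ M := fun q => by
    rw [Nat.mem_primeFactors]
    exact ⟨fun h => ⟨h.1, h.2.1⟩, fun h => ⟨h.1, h.2, hM0⟩⟩
  -- unramifiedness over `κ` and over `𝔽_p`
  have hunr : ∀ q : ℕ, ((mltrE W p hΔ).baseChangeAlong ι).IsUnramifiedAt q ↔
      (mltrE W p hΔ).IsUnramifiedAt q := by
    intro q
    constructor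
    · intro h A hA σ hσ
      exact (ihr_baseChange_ρ_eq_one_iff (mltrE W p hΔ) (ResidueField 𝒪) σ).1 (h A hA σ hσ)
    · intro h A hA σ hσ
      exact (ihr_baseChange_ρ_eq_one_iff (mltrE W p hΔ) (ResidueField 𝒪) σ).2 (h A hA σ hσ)
  have hpaux : p ∉ aux := fun h => (haux p h).2.1 rfl
  refine
    { prime := hpp
      odd := hp2
      mem := hp𝒪
      absIrr := mltr_habs W p (ResidueField 𝒪) hΔ hp2 hirr
      det := mltr_hdet W p (ResidueField 𝒪) hΔ
      split := fun σ => mltr_hsplit W p (ResidueField 𝒪) hΔ hp2 hsq' σ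
      tw := mltr_hTW W p (ResidueField 𝒪) hp hΔ hss hirr hloc
      p_mem_Smin := Finset.mem_insert_self _ _
      Smin_sub := Finset.subset_union_left
      S0_prime := ?S0_prime
      Smin_iff := ?Smin_iff
      N0_sqfree := ?N0_sqfree
      N0_dvd_iff := ?N0_dvd_iff
      N0_sub := ?N0_sub
      cut_sub := ?cut_sub
      p_mem_cut_iff := ?p_mem_cut_iff
      cut_unit := ?cut_unit
      cut_aux := ?cut_aux
      no_torsion := h3
      frob := ?frob
      bar := ?bar
      modular := hmod }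
  case S0_prime =>
    intro q hq
    change q ∈ insert p M.primeFactors ∪ ((if flat = true then ∅ else {p}) ∪ aux) at hq
    rw [Finset.mem_union, Finset.mem_insert, Finset.mem_union] at hq
    rcases hq with (rfl | hq) | hq | hq
    · exact hpp
    · exact ((hmemM q).1 hq).1
    · split_ifs at hq with hf
      · exact absurd hq (Finset.notMem_empty q)
      · rw [Finset.mem_singleton] at hq
        rw [hq]; exact hpp
    · exact (haux q hq).1
  case Smin_iff =>
    intro q hq hqp
    change q ∈ insert p M.primeFactors ↔ ¬ ((mltrE W p hΔ).baseChangeAlong ι).IsUnramifiedAt q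
    rw [hunr q, ← hMiff q hq hqp, Finset.mem_insert, hmemM]
    constructor
    · rintro (h | h)
      · exact absurd h hqp
      · exact h.2
    · exact fun h => Or.inr ⟨hq, h⟩
  case N0_sqfree =>
    change Squarefree N0
    rcases hN0 with ⟨-, rfl⟩ | ⟨c, hc, rfl⟩
    · exact hMsq
    · have hcaux : c ∈ aux := by rw [hc]; exact Finset.mem_singleton_self c
      obtain ⟨hcp, -, hcM, -⟩ := haux c hcaux
      have hcop : Nat.Coprime M c := ((Nat.Prime.coprime_iff_not_dvd hcp).mpr hcM).symm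
      exact (Nat.squarefree_mul hcop).mpr ⟨hMsq, hcp.prime.squarefree⟩
  case N0_dvd_iff =>
    intro q hq
    change q ∣ N0 ↔ ((q ∈ insert p M.primeFactors ∧ q ≠ p) ∨ (q = p ∧ flat = false) ∨
      q ∈ (if flat = true then ∅ else {p}) ∪ aux)
    have hqM : q ∣ M ↔ ((q ∈ insert p M.primeFactors ∧ q ≠ p) ∨ (q = p ∧ flat = false)) := by
      rw [Finset.mem_insert, hmemM]
      constructor
      · intro h
        by_cases hqp : q = p
        · subst hqp
          right
          refine ⟨rfl, ?_⟩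
          cases hf : flat
          · rfl
          · exact absurd h (hflatM hf)
        · exact Or.inl ⟨Or.inr ⟨hq, h⟩, hqp⟩
      · rintro (⟨h | h, hqp⟩ | ⟨rfl, hf⟩)
        · exact absurd h hqp
        · exact h.2
        · exact hordM hf
    have hcut : q ∈ (if flat = true then ∅ else {p}) ∪ aux ↔ ((q = p ∧ flat = false) ∨ q ∈ aux) := by
      rw [Finset.mem_union]
      cases hf : flat
      · simp
      · simp
    rw [hcut]
    rcases hN0 with ⟨hauxe, rfl⟩ | ⟨c, hc, rfl⟩
    · rw [hqM, hauxe]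
      simp only [Finset.notMem_empty, or_false]
      constructor
      · rintro (h | h)
        · exact Or.inl h
        · exact Or.inr (Or.inl h)
      · rintro (h | h | h)
        · exact Or.inl h
        · exact Or.inr h
        · exact Or.inr h
    · have hcaux : c ∈ aux := by rw [hc]; exact Finset.mem_singleton_self c
      obtain ⟨hcp, -, hcM, -⟩ := haux c hcaux
      rw [Nat.Prime.dvd_mul hq, hqM, hc, Finset.mem_singleton, Nat.prime_dvd_prime_iff_eq hq hcp]
      constructor
      · rintro ((h | h) | h)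
        · exact Or.inl h
        · exact Or.inr (Or.inl h)
        · exact Or.inr (Or.inr (Or.inr h))
      · rintro (h | h | h | h)
        · exact Or.inl (Or.inl h)
        · exact Or.inl (Or.inr h)
        · exact Or.inl (Or.inr h)
        · exact Or.inr h
  case N0_sub =>
    intro q hq hqN
    change q ∣ N0 at hqN
    change q ∈ insert p M.primeFactors ∪ ((if flat = true then ∅ else {p}) ∪ aux)
    rcases hN0 with ⟨-, rfl⟩ | ⟨c, hc, rfl⟩
    · exact Finset.mem_union_left _ (Finset.mem_insert_of_mem ((hmemM q).2 ⟨hq, hqN⟩))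
    · have hcaux : c ∈ aux := by rw [hc]; exact Finset.mem_singleton_self c
      obtain ⟨hcp, -, hcM, -⟩ := haux c hcaux
      rcases (Nat.Prime.dvd_mul hq).1 hqN with h | h
      · exact Finset.mem_union_left _ (Finset.mem_insert_of_mem ((hmemM q).2 ⟨hq, h⟩))
      · rw [(Nat.prime_dvd_prime_iff_eq hq hcp).1 h]
        exact Finset.mem_union_right _ (Finset.mem_union_right _ hcaux)
  case cut_sub =>
    intro c hc
    change c ∈ (if flat = true then ∅ else {p}) ∪ aux at hc
    refine ⟨?_, Finset.mem_union_right _ hc⟩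
    rw [Finset.mem_union] at hc
    rcases hc with hc | hc
    · split_ifs at hc with hf
      · exact absurd hc (Finset.notMem_empty c)
      · rw [Finset.mem_singleton] at hc
        rw [hc]; exact hpp
    · exact (haux c hc).1
  case p_mem_cut_iff =>
    change p ∈ (if flat = true then ∅ else {p}) ∪ aux ↔ flat = false
    rw [Finset.mem_union]
    cases hf : flat
    · simp
    · simp [hpaux]
  case cut_unit =>
    intro c hc
    change c ∈ (if flat = true then ∅ else {p}) ∪ aux at hc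
    change IsUnit (lamc c)
    rw [Finset.mem_union] at hc
    rcases hc with hc | hc
    · split_ifs at hc with hf
      · exact absurd hc (Finset.notMem_empty c)
      · rw [Finset.mem_singleton] at hc
        rw [hc]
        apply hlamp
        cases hf' : flat
        · rfl
        · exact absurd hf' hf
    · exact (haux c hc).2.2.2.1
  case cut_aux =>
    intro c hc hcp
    change c ∈ (if flat = true then ∅ else {p}) ∪ aux at hc
    change c ≠ p at hcp
    have hcaux : c ∈ aux := by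
      rw [Finset.mem_union] at hc
      rcases hc with hc | hc
      · split_ifs at hc with hf
        · exact absurd hc (Finset.notMem_empty c)
        · rw [Finset.mem_singleton] at hc
          exact absurd hc hcp
      · exact hc
    obtain ⟨hcprime, -, hcM, -, b, hb⟩ := haux c hcaux
    refine ⟨?_, b, hb⟩
    change c ∉ insert p M.primeFactors
    rw [Finset.mem_insert, hmemM]
    rintro (h | h)
    · exact hcp h
    · exact hcM h.2
  case frob =>
    intro ℓ hℓ hℓS P hP σ hσ
    change ℓ ∉ insert p M.primeFactors ∪ ((if flat = true then ∅ else {p}) ∪ aux) at hℓS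
    rw [Finset.mem_union, Finset.mem_insert, Finset.mem_union, hmemM, not_or, not_or, not_or]
      at hℓS
    exact hfrob ℓ hℓ hℓS.1.1 (fun h => hℓS.1.2 ⟨hℓ, h⟩) hℓS.2.2 P hP σ hσ
  case bar =>
    change twCond 𝒪 (mltX p flat) p (insert p M.primeFactors) (insert p M.primeFactors ∪ ∅)
      (GaloisRepAdic.ofResidualGaloisRep ((mltrE W p hΔ).baseChangeAlong ι))
    refine ⟨⟨mltr_hdet W p (ResidueField 𝒪) hΔ, hX, fun q hq hqS => ?_⟩, fun q hqS hq hqp => ?_⟩
    · rw [Finset.union_empty, Finset.mem_insert, hmemM, not_or] at hqS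
      have h1 : (mltrE W p hΔ).IsUnramifiedAt q := by
        by_contra hram
        exact hqS.2 ⟨hq, (hMiff q hq hqS.1).2 hram⟩
      exact (hunr q).2 h1
    · exact mltr_unipotent W p (ResidueField 𝒪) hΔ hp2 hq hqp (hss q hq)

end Valid

end Fermat.Agent.MLT
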