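/-
MLT (project S59) / Top (lead): **the roots of `X² - a X + d` in a complete local ring** (Hensel).

* `mlttb_hensel_roots` : residual roots `α₀ ≠ β₀` of `X² - a X + d` lift to `α, β` with `α + β = a`,
  `α β = d`;
* `mlttb_roots_three` : in residue characteristic `3`, for `d ≡ -1`, `a ≢ 0` and `-1` a square in the residue
  field, the lifts satisfy all the unit conditions of the auxiliary prime (`cut_aux`, `ih4_tw_step`).
-/
import Mathlib
import Fermat.Agent.Lib.Ihara.Rb.TwTheta

set_option autoImplicit false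
set_option linter.style.haveILetI false
set_option linter.unusedSectionVars false
set_option linter.unusedVariables false

open IsLocalRing Polynomial Fermat.Agent.Ihara

namespace Fermat.Agent.MLT

variable {𝒪 : Type} [CommRing 𝒪] [IsLocalRing 𝒪] [IsAdicComplete (maximalIdeal 𝒪) 𝒪]

/-- **Hensel for a quadratic polynomial with distinct residual roots** -/
theorem mlttb_hensel_roots (a d : 𝒪) (α₀ β₀ : ResidueField 𝒪) (hsum : α₀ + β₀ = residue 𝒪 a)
    (hprod : α₀ * β₀ = residue 𝒪 d) (hne : α₀ ≠ β₀) :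
    ∃ α β : 𝒪, α + β = a ∧ α * β = d ∧ residue 𝒪 α = α₀ ∧ residue 𝒪 β = β₀ := by
  haveI := ihr_henselian_of_complete 𝒪
  obtain ⟨x₀, hx₀⟩ := residue_surjective α₀
  set f : 𝒪[X] := X ^ 2 - C a * X + C d with hf
  have hmonic : f.Monic := by
    rw [hf]
    have h1 : (X ^ 2 - C a * X + C d : 𝒪[X]) = X ^ 2 - (C a * X - C d) := by ring
    rw [h1]
    apply monic_X_pow_sub
    have h2 : (C a * X - C d : 𝒪[X]).degree ≤ 1 := by
      refine (degree_sub_le _ _).trans (max_le ?_ ?_)
      · exact (degree_C_mul_X_le a)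
      · exact (degree_C_le).trans (by norm_num)
    exact lt_of_le_of_lt h2 (by norm_num)
  have hev : f.eval x₀ ∈ maximalIdeal 𝒪 := by
    rw [← residue_eq_zero_iff, hf]
    simp only [eval_add, eval_sub, eval_pow, eval_X, eval_mul, eval_C, map_add, map_sub, map_pow,
      map_mul, hx₀, ← hsum, ← hprod]
    ring
  have hder : IsUnit (f.derivative.eval x₀) := by
    rw [← isUnit_map_iff (residue 𝒪), hf]
    simp only [derivative_add, derivative_sub, derivative_X_pow, derivative_mul, derivative_C,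
      derivative_X, eval_add, eval_sub, eval_mul, eval_C, eval_X, eval_pow, map_add, map_sub,
      map_mul, map_pow, hx₀, ← hsum]
    have h1 : α₀ - β₀ ≠ 0 := sub_ne_zero.2 hne
    refine isUnit_iff_ne_zero.2 ?_
    convert h1 using 1
    have h2 : residue 𝒪 (2 : 𝒪) = 2 := map_ofNat _ 2
    simp
    rw [h2]
    ring
  obtain ⟨α, hα, hαx⟩ := HenselianLocalRing.is_henselian f hmonic x₀ hev hder
  have hresα : residue 𝒪 α = α₀ := by
    rw [← hx₀, ← sub_eq_zero, ← map_sub]
    exact (residue_eq_zero_iff _).2 hαx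
  have hroot : α ^ 2 - a * α + d = 0 := by
    have := hα
    rw [IsRoot.def, hf] at this
    simpa using this
  refine ⟨α, a - α, by ring, ?_, hresα, ?_⟩
  · have : α * (a - α) = d - (α ^ 2 - a * α + d) := by ring
    rw [this, hroot, sub_zero]
  · rw [map_sub, hresα, ← hsum]
    ring

/-- **the roots at the auxiliary prime, residue characteristic `3`** -/
theorem mlttb_roots_three (h3 : (3 : 𝒪) ∈ maximalIdeal 𝒪) (a : 𝒪) (c : ℕ) (hc : c % 3 = 2)
    (haa : residue 𝒪 a ^ 2 = 1) (hsq : ∃ s : ResidueField 𝒪, s * s = -1) :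
    ∃ α β : 𝒪, α + β = a ∧ α * β = (c : 𝒪) ∧ IsUnit α ∧ IsUnit (α - β) ∧
      IsUnit (α - (c : 𝒪) * β) ∧ IsUnit (β - (c : 𝒪) * α) ∧ IsUnit (1 - α ^ 2) := by
  obtain ⟨s, hs⟩ := hsq
  have h3κ : (3 : ResidueField 𝒪) = 0 := by
    have := (residue_eq_zero_iff (3 : 𝒪)).2 h3
    rwa [map_ofNat] at this
  have hcκ : residue 𝒪 (c : 𝒪) = -1 := by
    have h1 : c = 3 * (c / 3) + 2 := by omega
    rw [map_natCast]
    conv_lhs => rw [h1]
    push_cast
    linear_combination (((c / 3 : ℕ) : ResidueField 𝒪) + 1) * h3κ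
  set ā := residue 𝒪 a with hā
  have hs0 : s ≠ 0 := by
    rintro rfl
    rw [mul_zero] at hs
    have h1 : (1 : ResidueField 𝒪) = 0 := by linear_combination hs
    exact one_ne_zero h1
  have hā0 : ā ≠ 0 := by
    intro h
    rw [h] at haa
    norm_num at haa
  obtain ⟨α, β, hsum, hprod, hα, hβ⟩ := mlttb_hensel_roots a (c : 𝒪) (-(ā + s)) (-(ā - s))
    (by linear_combination (-ā) * h3κ)
    (by rw [hcκ]; linear_combination haa - hs + h3κ)
    (by
      intro h
      apply hs0
      have h1 : (2 : ResidueField 𝒪) * s = 0 := by linear_combination -h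
      linear_combination s * h3κ - h1)
  have hunit : ∀ x : 𝒪, residue 𝒪 x ≠ 0 → IsUnit x := fun x hx => by
    by_contra hnu
    exact hx ((residue_eq_zero_iff x).2 ((mem_maximalIdeal x).2 hnu))
  have hαβ : IsUnit (β - (c : 𝒪) * α) := by
    apply hunit
    rw [map_sub, map_mul, hcκ, hα, hβ]
    intro h
    apply hā0
    linear_combination h + ā * h3κ
  refine ⟨α, β, hsum, hprod, ?_, ?_, ?_, hαβ, ?_⟩
  · apply hunit
    intro h
    have h1 := congrArg (residue 𝒪) hprod
    rw [map_mul, h, zero_mul, hcκ] at h1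
    have h2 : (1 : ResidueField 𝒪) = 0 := by linear_combination h1
    exact one_ne_zero h2
  · apply hunit
    rw [map_sub, hα, hβ]
    intro h
    apply hs0
    linear_combination h + s * h3κ
  · apply hunit
    rw [map_sub, map_mul, hcκ, hα, hβ]
    intro h
    apply hā0
    linear_combination h + ā * h3κ
  · have h1 : β - (c : 𝒪) * α = β * (1 - α ^ 2) := by
      rw [← hprod]; ring
    rw [h1] at hαβ
    exact isUnit_of_mul_isUnit_right hαβ

end Fermat.Agent.MLT
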