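/-
MLT (project S59) / Top (lead): **a Betti eigenclass for an `𝒪`-valued point of the full Hecke algebra**.

`mlttb_exists_eigen` : for `lam : 𝕋(N) →+* 𝒪` (`𝒪` a complete DVR of characteristic `0` with `p ∈ 𝔪`) there is
`x ≠ 0` in `Hom_par(Γ₀(N), 𝒪)` with `t x = lam t • x` for every `t ∈ 𝕋(N)` (from the rank-2 eigen-lattice
`alpp_finrank` in `𝒪 ⊗ Hom_par(Γ₀(N), ℤ_p)` and the base change isomorphism `ihnBase`).
-/
import Mathlib
import Fermat.Agent.Lib.Alpha.S32.Point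
import Fermat.Agent.Lib.Ihara.Nf.Base
import Fermat.Agent.Lib.Ihara.H4.HeckeAct
import Fermat.Agent.Lib.T1.Asm.PadicAlgebra

set_option autoImplicit false
set_option linter.style.haveILetI false
set_option linter.unusedSectionVars false
set_option linter.unusedVariables false

open scoped TensorProduct
open IsLocalRing CongruenceSubgroup Fermat.Agent.T1 Fermat.Agent.Ihara Fermat.Agent.Alpha
  ModularCurve ModularCurve.Period

namespace Fermat.Agent.MLT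

section

variable (p : ℕ) [Fact p.Prime] (N : ℕ) [NeZero N]
  {𝒪 : Type} [CommRing 𝒪] [IsDomain 𝒪] [CharZero 𝒪] [Algebra ℤ_[p] 𝒪]

/-- the base change isomorphism intertwines the two Hecke actions -/
theorem mlttb_base_hecke (t : CuspForm.heckeAlgebra N 2 (∅ : Set ℕ))
    (y : 𝒪 ⊗[ℤ_[p]] ↥(parabolicHoms ℤ_[p] (Gamma0 N) ℤ_[p])) :
    ihnBase N ℤ_[p] 𝒪 ((tdmHeckeP p N t).baseChange 𝒪 y)
      = ih4Hecke0 𝒪 N t (ihnBase N ℤ_[p] 𝒪 y) := by
  induction y using TensorProduct.induction_on with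
  | zero => simp
  | add y z hy hz => rw [map_add, map_add, hy, hz, map_add, map_add]
  | tmul a φ =>
    rw [LinearMap.baseChange_tmul, ihnBase_apply, ihnBase_apply, ihnBaseMap_tmul, ihnBaseMap_tmul,
      map_smul]
    congr 1
    obtain ⟨z, rfl⟩ := (tdmBC N ℤ_[p]).surjective φ
    induction z using TensorProduct.induction_on with
    | zero => simp
    | add y z hy hz => rw [map_add, map_add, map_add, hy, hz, map_add, map_add]
    | tmul c l =>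
      rw [← tdmHeckeP_he, LinearMap.baseChange_tmul, tdmBC_tmul, tdmBC_tmul, map_smul, map_smul,
        ihnCastP_tdmCastL, ihnCastP_tdmCastL, algebra_compatible_smul 𝒪 c, algebra_compatible_smul 𝒪 c,
        map_smul]
      congr 1
      rw [ih4Hecke0_apply]
      have h1 : (tdmBC N 𝒪).symm (tdmCastL N 𝒪 l) = (1 : 𝒪) ⊗ₜ[ℤ] l := by
        rw [LinearEquiv.symm_apply_eq, tdmBC_tmul, one_smul]
      rw [h1, LinearMap.baseChange_tmul, tdmBC_tmul, one_smul]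

end

/-- **a Betti eigenclass for an `𝒪`-valued point of the full Hecke algebra** -/
theorem mlttb_exists_eigen (p : ℕ) [Fact p.Prime] (N : ℕ) [NeZero N]
    {𝒪 : Type} [CommRing 𝒪] [IsDomain 𝒪] [IsDiscreteValuationRing 𝒪] [CharZero 𝒪]
    [IsAdicComplete (maximalIdeal 𝒪) 𝒪] (hp𝒪 : (p : 𝒪) ∈ maximalIdeal 𝒪)
    (lam : CuspForm.heckeAlgebra N 2 (∅ : Set ℕ) →+* 𝒪) :
    ∃ x : Ih4H 𝒪 𝒪 N, x ≠ 0 ∧ ∀ t, ih4Hecke0 𝒪 N t x = lam t • x := by
  letI : Algebra ℤ_[p] 𝒪 := tePadicAlgebra p 𝒪 hp𝒪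
  have h2 : Module.finrank 𝒪 ↥(teEigen (tdmHeckeP p N) lam) = 2 := alpp_finrank p N lam
  haveI : Nontrivial ↥(teEigen (tdmHeckeP p N) lam) :=
    Module.nontrivial_of_finrank_pos (R := 𝒪) (by rw [h2]; norm_num)
  obtain ⟨y, hy⟩ := exists_ne (0 : ↥(teEigen (tdmHeckeP p N) lam))
  refine ⟨ihnBase N ℤ_[p] 𝒪 y.1, fun h => hy ?_, fun t => ?_⟩
  · apply Subtype.ext
    have := (ihnBase N ℤ_[p] 𝒪).injective (h.trans (map_zero _).symm)
    exact this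
  · rw [← mlttb_base_hecke, (mem_teEigen (tdmHeckeP p N) lam).1 y.2 t, map_smul]

/-- the eigen-equations in terms of `ih4Op` -/
theorem mlttb_exists_eigen_op (p : ℕ) [Fact p.Prime] (N : ℕ) [NeZero N]
    {𝒪 : Type} [CommRing 𝒪] [IsDomain 𝒪] [IsDiscreteValuationRing 𝒪] [CharZero 𝒪]
    [IsAdicComplete (maximalIdeal 𝒪) 𝒪] (hp𝒪 : (p : 𝒪) ∈ maximalIdeal 𝒪)
    (lam : CuspForm.heckeAlgebra N 2 (∅ : Set ℕ) →+* 𝒪) :
    ∃ x : Ih4H 𝒪 𝒪 N, x ≠ 0 ∧
      (∀ (ℓ : ℕ) (hℓ : ℓ.Prime) (hℓN : ¬ ℓ ∣ N),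
        ih4Op 𝒪 N ℓ x = lam (CuspForm.heckeAlgebra.T hℓ hℓN (Set.notMem_empty ℓ)) • x) ∧
      (∀ (q : ℕ) (hq : q.Prime) (hqN : q ∣ N),
        ih4Op 𝒪 N q x = lam (CuspForm.heckeAlgebra.U hq hqN (Set.notMem_empty q)) • x) := by
  obtain ⟨x, hx, h⟩ := mlttb_exists_eigen p N hp𝒪 lam
  refine ⟨x, hx, fun ℓ hℓ hℓN => ?_, fun q hq hqN => ?_⟩
  · rw [← h, ih4Hecke0_T]
  · rw [← h, ih4Hecke0_U]

end Fermat.Agent.MLT
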