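/-
MLT (project S59) / Top (lead): **the coefficient ring of the base datum**.

`mlttb_exists_O` : for a normalised eigenform `f` of level `N` and a maximal ideal `𝔪 ∋ p` of `ℤ̄` there is a
complete discrete valuation ring `𝒪` of characteristic zero with finite residue field, `p ∈ 𝔪_𝒪`, in whose
residue field every integer is a square, together with an `𝒪`-valued point `lam` of the FULL Hecke algebra of
level `N` (all `T_ℓ`, `U_q`) lifting the eigencharacter of `f`: `χ_f(t) ∈ 𝔪 ↔ lam t ∈ 𝔪_𝒪`.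
(`𝒪` = completion of the ring of integers of `ℚ(χ_f(𝕋), √e)` at the prime below `𝔪`.)
-/
import Mathlib
import Fermat.Agent.Lib.Ihara.O.Main
import Fermat.Agent.Lib.T1.Asm.Res.EigenChar

set_option autoImplicit false
set_option linter.style.haveILetI false
set_option linter.unusedSectionVars false
set_option linter.unusedVariables false

open IsLocalRing NumberField CongruenceSubgroup Fermat.Agent.T1 Fermat.Agent.Ihara

namespace Fermat.Agent.MLT

/-- **the coefficient ring with a point of the full Hecke algebra** -/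
theorem mlttb_exists_O (p : ℕ) [Fact p.Prime] (hp2 : p ≠ 2) {N : ℕ} [NeZero N]
    {f : CuspForm (Gamma0 N) 2} (hf : f.IsNormalizedEigenform)
    {𝔪 : Ideal (integralClosure ℤ ℂ)} (h𝔪 : 𝔪.IsMaximal)
    (hp𝔪 : (p : integralClosure ℤ ℂ) ∈ 𝔪) :
    ∃ (𝒪 : Type) (_ : CommRing 𝒪) (_ : IsDomain 𝒪) (_ : IsDiscreteValuationRing 𝒪)
      (_ : IsAdicComplete (maximalIdeal 𝒪) 𝒪) (_ : Finite (ResidueField 𝒪)) (_ : CharZero 𝒪)
      (lam : CuspForm.heckeAlgebra N 2 (∅ : Set ℕ) →+* 𝒪),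
      (p : 𝒪) ∈ maximalIdeal 𝒪 ∧ (∀ a : ℤ, IsSquare ((a : ResidueField 𝒪))) ∧
      ∀ t, (terEigenChar hf ∅ t ∈ 𝔪 ↔ lam t ∈ maximalIdeal 𝒪) := by
  classical
  have hp : p.Prime := Fact.out
  haveI : NeZero p := ⟨hp.ne_zero⟩
  set χ := terEigenChar hf (∅ : Set ℕ) with hχ
  -- a non-residue
  have hchar : ringChar (ZMod p) ≠ 2 := by rwa [ZMod.ringChar_zmod_n]
  obtain ⟨ε, hε⟩ := FiniteField.exists_nonsquare hchar
  obtain ⟨e, he⟩ : ∃ e : ℤ, (e : ZMod p) = ε := ⟨ε.val, by simp⟩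
  obtain ⟨s, hs⟩ := IsAlgClosed.exists_eq_mul_self ((e : ℤ) : ℂ)
  have hsint : IsIntegral ℤ s :=
    ⟨Polynomial.X ^ 2 - Polynomial.C e, Polynomial.monic_X_pow_sub_C e two_ne_zero, by
      rw [Polynomial.eval₂_sub, Polynomial.eval₂_pow, Polynomial.eval₂_X, Polynomial.eval₂_C,
        pow_two, ← hs]
      simp⟩
  -- generators of the Hecke algebra
  haveI : Module.Finite ℤ (CuspForm.heckeAlgebra N 2 (∅ : Set ℕ)) :=
    Fermat.Agent.S22Lib.moduleFinite_heckeAlgebra N 2 ∅
  obtain ⟨G, hG⟩ := (Module.Finite.fg_top (R := ℤ) (M := CuspForm.heckeAlgebra N 2 (∅ : Set ℕ)))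
  set SG : Set ℂ := ((fun g => ((χ g : integralClosure ℤ ℂ) : ℂ)) '' (G : Set _)) ∪ {s} with hSG
  have hSGint : ∀ x ∈ SG, IsIntegral ℚ x := by
    rintro x (⟨g, -, rfl⟩ | hx)
    · exact ((χ g).2 : IsIntegral ℤ ((χ g : integralClosure ℤ ℂ) : ℂ)).tower_top
    · rw [Set.mem_singleton_iff] at hx
      rw [hx]
      exact hsint.tower_top
  have hSGfin : SG.Finite := (G.finite_toSet.image _).union (Set.finite_singleton s)
  let K : IntermediateField ℚ ℂ := IntermediateField.adjoin ℚ SG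
  haveI hfd : FiniteDimensional ℚ K := by
    haveI : Finite SG := hSGfin
    exact IntermediateField.finiteDimensional_adjoin (fun x hx => hSGint x hx)
  haveI : NumberField ↥K := { to_charZero := inferInstance, to_finiteDimensional := hfd }
  have hsK : s ∈ K := IntermediateField.subset_adjoin ℚ _ (Or.inr rfl)
  have hχK : ∀ t, ((χ t : integralClosure ℤ ℂ) : ℂ) ∈ K := by
    intro t
    have ht : t ∈ Submodule.span ℤ (G : Set (CuspForm.heckeAlgebra N 2 (∅ : Set ℕ))) := by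
      rw [hG]; exact Submodule.mem_top
    induction ht using Submodule.span_induction with
    | mem x hx => exact IntermediateField.subset_adjoin ℚ _ (Or.inl ⟨x, hx, rfl⟩)
    | zero => rw [map_zero]; exact K.zero_mem
    | add x y _ _ hx hy =>
      rw [map_add]
      exact K.add_mem hx hy
    | smul a x _ hx =>
      rw [zsmul_eq_mul, map_mul, map_intCast]
      exact K.mul_mem (K.intCast_mem a) hx
  -- the character with values in the ring of integers
  let χK : CuspForm.heckeAlgebra N 2 (∅ : Set ℕ) →+* ↥K :=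
    ((algebraMap (integralClosure ℤ ℂ) ℂ).comp χ).codRestrict K.toSubring (fun t => hχK t)
  have hχKint : ∀ t, IsIntegral ℤ (χK t) := by
    intro t
    rw [← isIntegral_algebraMap_iff (algebraMap ↥K ℂ).injective]
    exact (χ t).2
  let χB : CuspForm.heckeAlgebra N 2 (∅ : Set ℕ) →+* 𝓞 ↥K :=
    (χK.codRestrict (integralClosure ℤ ↥K).toSubring (fun t => hχKint t) :
      CuspForm.heckeAlgebra N 2 (∅ : Set ℕ) →+* ↥(integralClosure ℤ ↥K).toSubring)
  let sB : 𝓞 ↥K := ⟨⟨s, hsK⟩, by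
    show IsIntegral ℤ (⟨s, hsK⟩ : ↥K)
    rw [← isIntegral_algebraMap_iff (algebraMap ↥K ℂ).injective]
    exact hsint⟩
  have hsB : sB * sB = (e : 𝓞 ↥K) := by
    apply RingOfIntegers.ext
    apply Subtype.ext
    show s * s = _
    rw [← hs]
    simp
  -- the residue map
  haveI := h𝔪
  letI : Field (integralClosure ℤ ℂ ⧸ 𝔪) := Ideal.Quotient.field 𝔪
  haveI : CharP (integralClosure ℤ ℂ ⧸ 𝔪) p := by
    rw [CharP.charP_iff_prime_eq_zero hp, ← map_natCast (Ideal.Quotient.mk 𝔪)]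
    exact Ideal.Quotient.eq_zero_iff_mem.mpr hp𝔪
  let jB : 𝓞 ↥K →+* integralClosure ℤ ℂ := RingOfIntegers.mapRingHom (K.val : ↥K →+* ℂ)
  have hjB : ∀ t, jB (χB t) = χ t := by
    intro t
    apply Subtype.ext
    rfl
  obtain ⟨𝒪, i1, i2, i3, i4, i5, i6, j, ι, hp𝒪, hι⟩ :=
    Fermat.Agent.T1.ter_exists_dvr_of_dedekind (B := 𝓞 ↥K)
      (fun I hI => Ideal.finiteQuotientOfFreeOfNeBot I hI) hp ((Ideal.Quotient.mk 𝔪).comp jB)
  refine ⟨𝒪, i1, i2, i3, i4, i5, i6, j.comp χB, hp𝒪, ?_, ?_⟩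
  · -- squares
    intro a
    letI : Algebra (ZMod p) (ResidueField 𝒪) := by
      haveI : CharP (ResidueField 𝒪) p := by
        refine (CharP.charP_iff_prime_eq_zero hp).2 ?_
        rw [← map_natCast (residue 𝒪)]
        exact (residue_eq_zero_iff _).2 hp𝒪
      exact ZMod.algebra (ResidueField 𝒪) p
    have hεk : IsSquare (algebraMap (ZMod p) (ResidueField 𝒪) ε) := by
      refine ⟨residue 𝒪 (j sB), ?_⟩
      rw [← map_mul, ← map_mul, hsB, map_intCast, map_intCast, ← he, map_intCast]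
    have := iho_isSquare_of_nonresidue hp2 (algebraMap (ZMod p) (ResidueField 𝒪)) ε hε hεk
      (a : ZMod p)
    rwa [map_intCast] at this
  · intro t
    have h1 : ι (residue 𝒪 (j (χB t))) = Ideal.Quotient.mk 𝔪 (χ t) := by
      rw [hι, RingHom.comp_apply, hjB]
    rw [RingHom.comp_apply, ← residue_eq_zero_iff, ← Ideal.Quotient.eq_zero_iff_mem, ← h1]
    exact map_eq_zero_iff ι ι.injective

end Fermat.Agent.MLT
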