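/-
MLT (project S59) / Top (lead): **Frobenius polynomials of `κ ⊗ W[p]` in terms of an `𝒪`-valued point of the
Hecke algebra**, and small tools for `Top/Base.lean`.

* `mlttb_eigenChar_U`  : the eigencharacter of a normalised eigenform takes `U_q` to `a_q`;
* `mlttb_frob_of_lam`  : `charpoly ρbar(Frob_ℓ) = X² - res(lam T_ℓ) X + ℓ` for `ℓ ∤ M p`;
* `mlttb_unit_of_lam`  : `χ_f(t) ∉ 𝔪 ⇒ lam t` is a unit;
* `mlttb_cast`         : transport of an eigenclass along an equality of levels.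
-/
import Mathlib
import Fermat.Agent.Lib.MLT.Res.CongAll
import Fermat.Agent.Lib.MLT.Top.BaseO
import Fermat.Agent.Lib.Ihara.H4.TwBetti

set_option autoImplicit false
set_option linter.style.haveILetI false
set_option linter.unusedSectionVars false
set_option linter.unusedVariables false

open IsLocalRing Polynomial CuspForm ModularFormClass Fermat.Agent.T1 Fermat.Agent.Ihara
  Fermat.Agent.Lib.Helper8 WeierstrassCurve CongruenceSubgroup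

namespace Fermat.Agent.MLT

local notation "Qb" => AlgebraicClosure ℚ
local notation "GQ" => (AlgebraicClosure ℚ ≃ₐ[ℚ] AlgebraicClosure ℚ)

/-- the eigencharacter takes `U_q` to `a_q` -/
theorem mlttb_eigenChar_U {N : ℕ} [NeZero N] {g : CuspForm (Gamma0 N) 2}
    (hg : g.IsNormalizedEigenform) (S : Set ℕ) {q : ℕ} (hq : q.Prime) (hqN : q ∣ N) (hqS : q ∉ S) :
    ((terEigenChar hg S (heckeAlgebra.U hq hqN hqS) : integralClosure ℤ ℂ) : ℂ) = qCoeff ⇑g q := by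
  show qCoeff ⇑(heckeULin 2 hqN g) 1 = _
  rw [ter_heckeULin_eigen hg hq hqN, h8_qCoeff_smul, hg.qCoeff_one, mul_one]

section

variable {𝒪 : Type} [CommRing 𝒪] [IsDomain 𝒪] [IsDiscreteValuationRing 𝒪]

/-- a Hecke operator whose eigenvalue is a unit at `𝔪` goes to a unit of `𝒪` -/
theorem mlttb_unit_of_lam {N : ℕ} [NeZero N] {f : CuspForm (Gamma0 N) 2}
    (hf : f.IsNormalizedEigenform) {𝔪 : Ideal (integralClosure ℤ ℂ)}
    (lam : heckeAlgebra N 2 (∅ : Set ℕ) →+* 𝒪)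
    (hiff : ∀ t, (terEigenChar hf ∅ t ∈ 𝔪 ↔ lam t ∈ maximalIdeal 𝒪))
    (t : heckeAlgebra N 2 (∅ : Set ℕ)) (ht : terEigenChar hf ∅ t ∉ 𝔪) : IsUnit (lam t) := by
  by_contra h
  exact ht ((hiff t).2 ((mem_maximalIdeal _).2 h))

variable (W : WeierstrassCurve ℤ) (p : ℕ) [Fact p.Prime]

/-- **the Frobenius polynomials of `κ ⊗ W[p]`** in terms of `lam` -/
theorem mlttb_frob_of_lam (hΔ : W.Δ ≠ 0) {M : ℕ} [NeZero M] {f : CuspForm (Gamma0 M) 2}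
    (hf : f.IsNormalizedEigenform) {𝔪 : Ideal (integralClosure ℤ ℂ)} (h𝔪 : 𝔪.IsMaximal)
    (hp𝔪 : (p : integralClosure ℤ ℂ) ∈ 𝔪)
    (hcong : ∀ ℓ : ℕ, ℓ.Prime → W.IsGoodPrimeFor ℓ → ¬ ℓ ∣ M → ℓ ≠ p →
      ∃ a : integralClosure ℤ ℂ, (a : ℂ) = qCoeff f ℓ ∧
        a - ((W.apOfModel ℓ : ℤ) : integralClosure ℤ ℂ) ∈ 𝔪)
    (lam : heckeAlgebra M 2 (∅ : Set ℕ) →+* 𝒪)
    (hiff : ∀ t, (terEigenChar hf ∅ t ∈ 𝔪 ↔ lam t ∈ maximalIdeal 𝒪))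
    (ι : ZMod p →+* ResidueField 𝒪)
    {ℓ : ℕ} (hℓ : ℓ.Prime) (hℓM : ¬ ℓ ∣ M) (hℓp : ℓ ≠ p)
    (P : ValuationSubring Qb) (hP : P.LiesOverPrime ℓ) (σ : GQ) (hσ : P.IsFrobeniusAt σ ℓ) :
    LinearMap.charpoly (((mltrE W p hΔ).baseChangeAlong ι).ρ σ) =
      X ^ 2 - C (residue 𝒪 (lam (heckeAlgebra.T hℓ hℓM (Set.notMem_empty ℓ)))) * X
        + C ((ℓ : ResidueField 𝒪)) := by
  letI : Algebra (ZMod p) (ResidueField 𝒪) := ι.toAlgebra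
  have h1 := mltr_charpoly_frob_tr W p hΔ (ResidueField 𝒪) hℓ hℓp P hP σ hσ
  have hρ : (mltrE W p hΔ).baseChangeAlong ι = mltrRep W p (ResidueField 𝒪) hΔ := rfl
  rw [hρ, h1]
  congr 3
  -- the congruence
  obtain ⟨a', ha', t, ht, hat⟩ := mltr_cong_all W p hf hΔ h𝔪 hp𝔪 ∅
    (fun r hr hgood hrM hrp _ => hcong r hr hgood hrM hrp) ℓ hℓ hℓM hℓp P hP σ hσ
  have hχ : terEigenChar hf ∅ (heckeAlgebra.T hℓ hℓM (Set.notMem_empty ℓ)) = a' :=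
    Subtype.ext ((terEigenChar_T hf ∅ hℓ hℓM (Set.notMem_empty ℓ)).trans ha'.symm)
  have h2 : terEigenChar hf ∅ (heckeAlgebra.T hℓ hℓM (Set.notMem_empty ℓ) -
      ((t : ℤ) : heckeAlgebra M 2 (∅ : Set ℕ))) ∈ 𝔪 := by
    rw [map_sub, map_intCast, hχ]
    exact hat
  have h3 := (hiff _).1 h2
  rw [map_sub, map_intCast, ← residue_eq_zero_iff, map_sub, sub_eq_zero, map_intCast] at h3
  rw [h3, ← ht, map_intCast]

end

section Cast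

variable (𝒪 : Type) [CommRing 𝒪] [IsDomain 𝒪] [CharZero 𝒪] [IsLocalRing 𝒪] [IsNoetherianRing 𝒪]
  [IsAdicComplete (maximalIdeal 𝒪) 𝒪]

/-- transport of an eigenclass of the `θ`-part along an equality of levels -/
theorem mlttb_cast {N N' : ℕ} [i : NeZero N] [i' : NeZero N'] (h : N = N') (Ps : Set ℕ)
    (θ : ℕ → 𝒪) (x : Ih4H 𝒪 𝒪 N) (hx0 : x ≠ 0) (hx : x ∈ ih4Part 𝒪 N Ps θ) (S : Set ℕ)
    (a : ℕ → 𝒪) (hxa : ∀ ℓ : ℕ, ℓ.Prime → ℓ ∉ S → ih4Op 𝒪 N ℓ x = a ℓ • x) :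
    ∃ y : Ih4H 𝒪 𝒪 N', y ≠ 0 ∧ y ∈ ih4Part 𝒪 N' Ps θ ∧
      ∀ ℓ : ℕ, ℓ.Prime → ℓ ∉ S → ih4Op 𝒪 N' ℓ y = a ℓ • y := by
  subst h
  obtain rfl : i = i' := Subsingleton.elim _ _
  exact ⟨x, hx0, hx, hxa⟩

end Cast

end Fermat.Agent.MLT
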