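/-
MLT (project S59) / Top (lead): **the coefficient ring, the eigenvalues and the Betti eigenclass of the
minimal level** (first half of the base contract).

`mlttb_setup` : from residual modularity of level `M` (flat: any eigenform; ord: a `U_p`-ordinary one) a
complete DVR `𝒪`, `ι : 𝔽_p → κ`, eigenvalues `a ℓ ∈ 𝒪` (`ℓ ∤ M`), `up ∈ 𝒪ˣ` (ord), the Frobenius
polynomials of `κ ⊗ W[p]` and a non-zero eigenclass `x ∈ Hom_par(Γ₀(M), 𝒪)`.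
-/
import Mathlib
import Fermat.Agent.Lib.MLT.Top.BaseFrob
import Fermat.Agent.Lib.MLT.Top.BaseEig
import Fermat.Agent.Lib.MLT.Contracts.AtPH

set_option autoImplicit false
set_option linter.style.haveILetI false
set_option linter.unusedSectionVars false
set_option linter.unusedVariables false

open IsLocalRing Polynomial CuspForm ModularFormClass Fermat.Agent.T1 Fermat.Agent.Ihara
  WeierstrassCurve CongruenceSubgroup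

namespace Fermat.Agent.MLT

local notation "Qb" => AlgebraicClosure ℚ
local notation "GQ" => (AlgebraicClosure ℚ ≃ₐ[ℚ] AlgebraicClosure ℚ)

/-- **the coefficient ring, the eigenvalues and the eigenclass of the minimal level** -/
theorem mlttb_setup (p : ℕ) [Fact p.Prime] (hp2 : p ≠ 2) (W : WeierstrassCurve ℤ) (hΔ : W.Δ ≠ 0)
    (M : ℕ) [NeZero M] (flat : Bool)
    (hflat : flat = true → W.IsResiduallyModularOfLevel p M)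
    (hord : flat = false → p ∣ M ∧ mltpIsOrdResiduallyModularOfLevel W p M) :
    ∃ (𝒪 : Type) (_ : CommRing 𝒪) (_ : IsDomain 𝒪) (_ : IsDiscreteValuationRing 𝒪)
      (_ : IsAdicComplete (maximalIdeal 𝒪) 𝒪) (_ : Finite (ResidueField 𝒪)) (_ : CharZero 𝒪)
      (ι : ZMod p →+* ResidueField 𝒪) (a : ℕ → 𝒪) (up : 𝒪) (x : Ih4H 𝒪 𝒪 M)
      (f : CuspForm (Gamma0 M) 2),
      (p : 𝒪) ∈ maximalIdeal 𝒪 ∧ (∀ n : ℤ, IsSquare ((n : ResidueField 𝒪))) ∧ f ≠ 0 ∧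
      (∀ ℓ : ℕ, ℓ.Prime → ¬ ℓ ∣ M → ℓ ≠ p →
        ∀ P : ValuationSubring Qb, P.LiesOverPrime ℓ → ∀ σ : GQ, P.IsFrobeniusAt σ ℓ →
          LinearMap.charpoly (((mltrE W p hΔ).baseChangeAlong ι).ρ σ) =
            X ^ 2 - C (residue 𝒪 (a ℓ)) * X + C ((ℓ : ResidueField 𝒪))) ∧
      x ≠ 0 ∧ (∀ ℓ : ℕ, ℓ.Prime → ¬ ℓ ∣ M → ih4Op 𝒪 M ℓ x = a ℓ • x) ∧
      (flat = false → IsUnit up ∧ ih4Op 𝒪 M p x = up • x) := by
  classical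
  have hpp : p.Prime := Fact.out
  -- the modular data
  obtain ⟨f, 𝔪, hf, h𝔪, hp𝔪, hcong, hu⟩ : ∃ (f : CuspForm (Gamma0 M) 2)
      (𝔪 : Ideal (integralClosure ℤ ℂ)), f.IsNormalizedEigenform ∧ 𝔪.IsMaximal ∧
      (p : integralClosure ℤ ℂ) ∈ 𝔪 ∧
      (∀ ℓ : ℕ, ℓ.Prime → W.IsGoodPrimeFor ℓ → ¬ ℓ ∣ M → ℓ ≠ p →
        ∃ a : integralClosure ℤ ℂ, (a : ℂ) = qCoeff f ℓ ∧
          a - ((W.apOfModel ℓ : ℤ) : integralClosure ℤ ℂ) ∈ 𝔪) ∧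
      (flat = false → p ∣ M ∧ ∃ u : integralClosure ℤ ℂ, (u : ℂ) = qCoeff f p ∧ u ∉ 𝔪) := by
    cases hfl : flat
    · obtain ⟨hpM, f, 𝔪, hf, h𝔪, hp𝔪, hcong, hu⟩ := hord hfl
      exact ⟨f, 𝔪, hf, h𝔪, hp𝔪, hcong, fun _ => ⟨hpM, hu⟩⟩
    · obtain ⟨f, 𝔪, hf, h𝔪, hp𝔪, hcong⟩ := hflat hfl
      exact ⟨f, 𝔪, hf, h𝔪, hp𝔪, hcong, fun h => Bool.noConfusion h⟩
  obtain ⟨𝒪, i1, i2, i3, i4, i5, i6, lam, hp𝒪, hsq, hiff⟩ := mlttb_exists_O p hp2 hf h𝔪 hp𝔪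
  -- `ι`
  haveI : CharP (ResidueField 𝒪) p := by
    refine (CharP.charP_iff_prime_eq_zero hpp).2 ?_
    rw [← map_natCast (residue 𝒪)]
    exact (residue_eq_zero_iff _).2 hp𝒪
  let ι : ZMod p →+* ResidueField 𝒪 := ZMod.castHom (dvd_refl p) (ResidueField 𝒪)
  -- the eigenvalues
  let a : ℕ → 𝒪 := fun ℓ => if h : ℓ.Prime ∧ ¬ ℓ ∣ M then
    lam (heckeAlgebra.T h.1 h.2 (Set.notMem_empty ℓ)) else 0
  have ha : ∀ (ℓ : ℕ) (hℓ : ℓ.Prime) (hℓM : ¬ ℓ ∣ M),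
      a ℓ = lam (heckeAlgebra.T hℓ hℓM (Set.notMem_empty ℓ)) :=
    fun ℓ hℓ hℓM => dif_pos ⟨hℓ, hℓM⟩
  let up : 𝒪 := if h : p ∣ M then lam (heckeAlgebra.U hpp h (Set.notMem_empty p)) else 1
  have hup : ∀ h : p ∣ M, up = lam (heckeAlgebra.U hpp h (Set.notMem_empty p)) :=
    fun h => dif_pos h
  obtain ⟨x, hx0, hxT, hxU⟩ := mlttb_exists_eigen_op p M hp𝒪 lam
  refine ⟨𝒪, i1, i2, i3, i4, i5, i6, ι, a, up, x, f, hp𝒪, hsq, hf.ne_zero, ?_, hx0, ?_, ?_⟩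
  · intro ℓ hℓ hℓM hℓp P hP σ hσ
    rw [ha ℓ hℓ hℓM]
    exact mlttb_frob_of_lam W p hΔ hf h𝔪 hp𝔪 hcong lam hiff ι hℓ hℓM hℓp P hP σ hσ
  · intro ℓ hℓ hℓM
    rw [ha ℓ hℓ hℓM]
    exact hxT ℓ hℓ hℓM
  · intro hfl
    obtain ⟨hpM, u, hu, hu𝔪⟩ := hu hfl
    rw [hup hpM]
    refine ⟨mlttb_unit_of_lam hf lam hiff _ ?_, hxU p hpp hpM⟩
    have h1 : terEigenChar hf ∅ (heckeAlgebra.U hpp hpM (Set.notMem_empty p)) = u :=
      Subtype.ext ((mlttb_eigenChar_U hf ∅ hpp hpM (Set.notMem_empty p)).trans hu.symm)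
    rw [h1]
    exact hu𝔪

end Fermat.Agent.MLT
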