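/-
MLT (project S59) / Top (lead): **a squarefree level carrying a non-zero cusp form of weight 2 is `≥ 6`**
(in fact `≥ 11`): `genusFormula M = 0` for `M ∈ {1, 2, 3, 5}` and `dim S₂(Γ₀(M)) = genusFormula M`.
-/
import Mathlib
import Fermat.Agent.Lib.ES.DimLower
import Fermat.Agent.Lib.Igusa.PsiStep

set_option autoImplicit false
set_option linter.style.haveILetI false
set_option linter.unusedSectionVars false
set_option linter.unusedVariables false

open ModularCurve CongruenceSubgroup

namespace Fermat.Agent.MLT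

theorem mlttb_nuTwo (N : ℕ) [NeZero N] :
    nuTwo N = (Finset.univ.filter fun x : ZMod N => x ^ 2 + 1 = 0).card := by
  unfold nuTwo
  rw [Nat.card_eq_fintype_card, Fintype.card_subtype]

theorem mlttb_nuThree (N : ℕ) [NeZero N] :
    nuThree N = (Finset.univ.filter fun x : ZMod N => x ^ 2 + x + 1 = 0).card := by
  unfold nuThree
  rw [Nat.card_eq_fintype_card, Fintype.card_subtype]

theorem mlttb_genus_one : genusFormula 1 = 0 := by
  have h1 : dedekindPsi 1 = 1 := dedekindPsi_one
  have h2 : nuTwo 1 = 1 := by rw [mlttb_nuTwo]; decide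
  have h3 : nuThree 1 = 1 := by rw [mlttb_nuThree]; decide
  have h4 : cuspCount 1 = 1 := by decide
  unfold genusFormula
  rw [h1, h2, h3, h4]
  norm_num

theorem mlttb_genus_two : genusFormula 2 = 0 := by
  have h1 : dedekindPsi 2 = 3 := Fermat.Agent.Igusa.igPsi_prime Nat.prime_two
  have h2 : nuTwo 2 = 1 := by rw [mlttb_nuTwo]; decide
  have h3 : nuThree 2 = 0 := by rw [mlttb_nuThree]; decide
  have h4 : cuspCount 2 = 2 := by decide
  unfold genusFormula
  rw [h1, h2, h3, h4]
  norm_num

theorem mlttb_genus_three : genusFormula 3 = 0 := by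
  have h1 : dedekindPsi 3 = 4 := Fermat.Agent.Igusa.igPsi_prime Nat.prime_three
  have h2 : nuTwo 3 = 0 := by rw [mlttb_nuTwo]; decide
  have h3 : nuThree 3 = 1 := by rw [mlttb_nuThree]; decide
  have h4 : cuspCount 3 = 2 := by decide
  unfold genusFormula
  rw [h1, h2, h3, h4]
  norm_num

theorem mlttb_genus_five : genusFormula 5 = 0 := by
  have h1 : dedekindPsi 5 = 6 := Fermat.Agent.Igusa.igPsi_prime Nat.prime_five
  have h2 : nuTwo 5 = 2 := by rw [mlttb_nuTwo]; decide
  have h3 : nuThree 5 = 0 := by rw [mlttb_nuThree]; decide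
  have h4 : cuspCount 5 = 2 := by decide
  unfold genusFormula
  rw [h1, h2, h3, h4]
  norm_num

/-- no cusp forms of weight `2` when the genus formula vanishes -/
theorem mlttb_cuspForm_eq_zero (N : ℕ) [NeZero N] (h : genusFormula N = 0)
    (f : CuspForm (Gamma0 N) 2) : f = 0 := by
  have h1 := Fermat.Agent.ES.finrank_cuspForm_eq_of_le N
    (Fermat.Agent.ES.genusFormula_le_finrank_cuspForm N)
  rw [h] at h1
  have h2 : Module.finrank ℂ (CuspForm (Gamma0 N) 2) = 0 := by exact_mod_cast h1
  haveI : FiniteDimensional ℂ (CuspForm (Gamma0 N) 2) :=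
    Fermat.Agent.ES.finiteDimensional_cuspForm_Gamma0_two N
  haveI := Module.finrank_zero_iff.1 h2
  exact Subsingleton.elim _ _

/-- **a squarefree level with a non-zero cusp form of weight `2` is `≥ 6`** -/
theorem mlttb_six_le {M : ℕ} [NeZero M] (hsq : Squarefree M) (f : CuspForm (Gamma0 M) 2)
    (hf : f ≠ 0) : 6 ≤ M := by
  by_contra hlt
  have hM0 : M ≠ 0 := NeZero.ne M
  have hM : M = 1 ∨ M = 2 ∨ M = 3 ∨ M = 4 ∨ M = 5 := by omega
  rcases hM with rfl | rfl | rfl | rfl | rfl
  · exact hf (mlttb_cuspForm_eq_zero 1 mlttb_genus_one f)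
  · exact hf (mlttb_cuspForm_eq_zero 2 mlttb_genus_two f)
  · exact hf (mlttb_cuspForm_eq_zero 3 mlttb_genus_three f)
  · have : ¬ Squarefree 4 := by decide
    exact this hsq
  · exact hf (mlttb_cuspForm_eq_zero 5 mlttb_genus_five f)

end Fermat.Agent.MLT
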