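/-
MLT (project S59) / Top (lead): **THE BASE CONTRACT**: the base datum `B` of a semistable `W` at its minimal
level `M`, with an eigensystem of the base level.

`mlttb_base` : in continuation-passing style, from residual modularity of the minimal level `M` (flat: `p ∤ M`;
ord: `p ∣ M`, `U_p`-ordinary) and the local condition `X` at `p` for `κ ⊗ W[p]`:
a complete DVR `𝒪`, `ι : 𝔽_p → κ`, a VALID base datum `B` with `B.p = p`, `B.flat = flat`,
`B.ρbar = κ ⊗ W[p]`, `S0 = Smin ∪ cut`, the cut primes `≠ p` good for `W`, and `X_∅(B.t) ≠ 0`.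
For `p = 3` an auxiliary prime `c ≡ 2 mod 3` (`c ∤ M p Δ`, `3 ∤ a_c(W)`) enters the level and the cut.
-/
import Mathlib
import Fermat.Agent.Lib.MLT.Top.BaseSetup
import Fermat.Agent.Lib.MLT.Top.BaseDat
import Fermat.Agent.Lib.MLT.Top.BaseAux
import Fermat.Agent.Lib.MLT.Top.BaseHensel
import Fermat.Agent.Lib.MLT.Top.AuxExists
import Fermat.Agent.Lib.MLT.Top.SmallLevel
import Fermat.Agent.Lib.MLT.Contracts.Step

set_option autoImplicit false
set_option linter.style.haveILetI false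
set_option linter.unusedSectionVars false
set_option linter.unusedVariables false

open IsLocalRing Polynomial Fermat.Agent.TW Fermat.Agent.Ihara WeierstrassCurve

namespace Fermat.Agent.MLT

local notation "Qb" => AlgebraicClosure ℚ
local notation "GQ" => (AlgebraicClosure ℚ ≃ₐ[ℚ] AlgebraicClosure ℚ)

section

variable {𝒪 : Type} [CommRing 𝒪] [IsDomain 𝒪] [IsDiscreteValuationRing 𝒪] [CharZero 𝒪]
  [IsAdicComplete (maximalIdeal 𝒪) 𝒪] [Finite (ResidueField 𝒪)]

/-- an eigenclass of level `M` has the eigenvalues `θ_∅` at the primes of `Ps_∅` outside `aux` -/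
theorem mlttb_eigen_theta (p : ℕ) (ρbar : ResidualGaloisRep (ResidueField 𝒪)) (flat : Bool)
    (M N0 : ℕ) [NeZero M] (aux : Finset ℕ) (t lamc : ℕ → 𝒪) (x : Ih4H 𝒪 𝒪 M)
    (hxT : ∀ ℓ : ℕ, ℓ.Prime → ¬ ℓ ∣ M → ih4Op 𝒪 M ℓ x = t ℓ • x)
    (hxp : flat = false → ih4Op 𝒪 M p x = lamc p • x)
    (ℓ : ℕ) (hℓ : ℓ ∈ (mlttbB p ρbar flat M N0 aux t lamc).Ps ∅) (hℓaux : ℓ ∉ aux) :
    ih4Op 𝒪 M ℓ x = (mlttbB p ρbar flat M N0 aux t lamc).theta ∅ ℓ • x := by
  classical
  have hM0 : M ≠ 0 := NeZero.ne M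
  rcases hℓ with ⟨hℓp, hℓbad⟩ | hℓ | hℓ
  · have hℓS0 : ℓ ∉ (mlttbB p ρbar flat M N0 aux t lamc).S0 := fun h =>
      hℓbad (Finset.mem_union_left _ h)
    have hℓcut : ℓ ∉ (mlttbB p ρbar flat M N0 aux t lamc).cut := fun h =>
      hℓS0 (Finset.mem_union_right _ h)
    have hℓM : ¬ ℓ ∣ M := fun h => hℓS0 (Finset.mem_union_left _
      (Finset.mem_insert_of_mem (Nat.mem_primeFactors.2 ⟨hℓp, h, hM0⟩)))
    rw [(mlttbB p ρbar flat M N0 aux t lamc).theta_of_good ∅ (Finset.notMem_empty ℓ) hℓcut]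
    exact hxT ℓ hℓp hℓM
  · exact absurd hℓ (Finset.notMem_empty ℓ)
  · rw [(mlttbB p ρbar flat M N0 aux t lamc).theta_of_cut ∅ (Finset.notMem_empty ℓ) hℓ]
    change ℓ ∈ (if flat = true then ∅ else {p}) ∪ aux at hℓ
    rw [Finset.mem_union] at hℓ
    rcases hℓ with hℓ | hℓ
    · split_ifs at hℓ with hf
      · exact absurd hℓ (Finset.notMem_empty ℓ)
      · rw [Finset.mem_singleton] at hℓ
        subst hℓ
        refine hxp ?_
        cases hf' : flat
        · rfl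
        · exact absurd hf' hf
    · exact absurd hℓ hℓaux

end

/-- **THE BASE CONTRACT** -/
theorem mlttb_base (p : ℕ) [Fact p.Prime] (hp : p = 3 ∨ p = 5)
    (W : WeierstrassCurve ℤ) (hΔ : W.Δ ≠ 0) (hss : W.IsSemistableModel)
    (hirr : W.ModRepIsIrreducible p) (hloc : p = 5 → MltrLocalAtP W p)
    (M : ℕ) (flat : Bool) (hM : 0 < M) (hMsq : Squarefree M)
    (hMiff : ∀ q : ℕ, q.Prime → q ≠ p → (q ∣ M ↔ ¬ (mltrE W p hΔ).IsUnramifiedAt q))
    (hflat : flat = true → ¬ p ∣ M ∧ W.IsResiduallyModularOfLevel p M)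
    (hord : flat = false → p ∣ M ∧ mltpIsOrdResiduallyModularOfLevel W p M)
    (hX : ∀ (𝒪 : Type) [CommRing 𝒪] [IsDomain 𝒪] [IsDiscreteValuationRing 𝒪] [CharZero 𝒪]
      [IsAdicComplete (maximalIdeal 𝒪) 𝒪] [Finite (ResidueField 𝒪)]
      (ι : ZMod p →+* ResidueField 𝒪), (p : 𝒪) ∈ maximalIdeal 𝒪 →
      mltX p flat (GaloisRepAdic.ofResidualGaloisRep ((mltrE W p hΔ).baseChangeAlong ι)))
    (C : Prop)
    (hC : ∀ (𝒪 : Type) [CommRing 𝒪] [IsDomain 𝒪] [IsDiscreteValuationRing 𝒪] [CharZero 𝒪]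
      [IsAdicComplete (maximalIdeal 𝒪) 𝒪] [Finite (ResidueField 𝒪)]
      (B : MltBase 𝒪) (ι : ZMod p →+* ResidueField 𝒪),
      B.Valid → B.p = p → B.flat = flat →
      B.ρbar = (mltrE W p hΔ).baseChangeAlong ι →
      B.S0 = B.Smin ∪ B.cut →
      (∀ c ∈ B.cut, c ≠ p → ¬ (c : ℤ) ∣ W.Δ) →
      (∀ [NeZero (B.level ∅)], mltcEig B ∅ B.t ≠ ⊥) → C) : C := by
  classical
  have hpp : p.Prime := Fact.out
  have hp2 : p ≠ 2 := by rcases hp with rfl | rfl <;> norm_num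
  haveI : NeZero M := ⟨hM.ne'⟩
  obtain ⟨𝒪, i1, i2, i3, i4, i5, i6, ι, a, up, x, f, hp𝒪, hsq, hf0, hfrob, hx0, hxT, hxp⟩ :=
    mlttb_setup p hp2 W hΔ M flat (fun h => (hflat h).2) hord
  have hflatM : flat = true → ¬ p ∣ M := fun h => (hflat h).1
  have hordM : flat = false → p ∣ M := fun h => (hord h).1
  by_cases hp3 : p = 3
  · -- `p = 3`: an auxiliary prime
    subst hp3
    obtain ⟨c, hcp, hcT, hc3, hcΔ, hcW⟩ := mlttb_aux_exists W hΔ hss hirr (insert 3 M.primeFactors)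
    haveI : Fact c.Prime := ⟨hcp⟩
    have hc3' : c ≠ 3 := fun h => hcT (h ▸ Finset.mem_insert_self _ _)
    have hcM : ¬ c ∣ M := fun h => hcT (Finset.mem_insert_of_mem
      (Nat.mem_primeFactors.2 ⟨hcp, h, hM.ne'⟩))
    -- the trace of Frobenius at `c`
    obtain ⟨P, σ, hP, hσ⟩ := Fermat.Agent.Lib.Helper6.exists_frobenius c hcp
    letI : Algebra (ZMod 3) (ResidueField 𝒪) := ι.toAlgebra
    have hres : residue 𝒪 (a c) = ((W.apOfModel c : ℤ) : ResidueField 𝒪) := by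
      have h1 := hfrob c hcp hcM hc3' P hP σ hσ
      have h2 := mltr_charpoly_frob W 3 (k := ResidueField 𝒪) hΔ hcp hcΔ hc3' P hP σ hσ
      have hρ : (mltrE W 3 hΔ).baseChangeAlong ι = mltrRep W 3 (ResidueField 𝒪) hΔ := rfl
      rw [hρ, h2] at h1
      have h3 := congrArg (fun q : (ResidueField 𝒪)[X] => q.coeff 1) h1
      simp only [coeff_add, coeff_sub, coeff_X_pow, coeff_C_mul, coeff_X_one, coeff_C] at h3
      norm_num at h3
      exact h3.symm
    have h3κ : (3 : ResidueField 𝒪) = 0 := by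
      have := (residue_eq_zero_iff ((3 : ℕ) : 𝒪)).2 hp𝒪
      rwa [map_natCast, Nat.cast_ofNat] at this
    have haa : residue 𝒪 (a c) ^ 2 = 1 := by
      rw [hres]
      -- `n² ≡ 1 mod 3` for `3 ∤ n`
      have h1 : (W.apOfModel c : ℤ) % 3 = 1 ∨ (W.apOfModel c : ℤ) % 3 = 2 := by
        have : (W.apOfModel c : ℤ) % 3 ≠ 0 := fun h => hcW (Int.dvd_of_emod_eq_zero h)
        omega
      obtain ⟨k, hk⟩ : ∃ k : ℤ, (W.apOfModel c : ℤ) ^ 2 = 3 * k + 1 := by
        obtain ⟨q, hq⟩ : ∃ q : ℤ, (W.apOfModel c : ℤ) = 3 * q + 1 ∨ (W.apOfModel c : ℤ) = 3 * q + 2 :=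
          ⟨(W.apOfModel c : ℤ) / 3, by omega⟩
        rcases hq with hq | hq
        · exact ⟨3 * q ^ 2 + 2 * q, by rw [hq]; ring⟩
        · exact ⟨3 * q ^ 2 + 4 * q + 1, by rw [hq]; ring⟩
      have h2 : (((W.apOfModel c : ℤ) ^ 2 : ℤ) : ResidueField 𝒪) = 1 := by
        rw [hk]; push_cast; rw [h3κ]; ring
      rw [← h2]; push_cast; ring
    have hsqm : ∃ s : ResidueField 𝒪, s * s = -1 := by
      obtain ⟨s, hs⟩ := hsq (-1)
      exact ⟨s, by rw [← hs]; push_cast; ring⟩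
    have h3𝒪 : (3 : 𝒪) ∈ maximalIdeal 𝒪 := by
      have := hp𝒪
      rwa [Nat.cast_ofNat] at this
    obtain ⟨α, β, hsum, hprod, hα, hαβ, hαcβ, hβcα, hα2⟩ :=
      mlttb_roots_three h3𝒪 (a c) c hc3 haa hsqm
    -- the data
    set lamc : ℕ → 𝒪 := fun ℓ => if ℓ = 3 then up else α with hlamc
    have hlamc3 : lamc 3 = up := if_pos rfl
    have hlamcc : lamc c = α := if_neg hc3'
    set B : MltBase 𝒪 := mlttbB 3 ((mltrE W 3 hΔ).baseChangeAlong ι) flat M (M * c) {c} a lamc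
      with hBdef
    haveI : NeZero (M * c) := ⟨Nat.mul_ne_zero hM.ne' hcp.ne_zero⟩
    -- the eigenclass of level `M c`
    have hcPs : c ∈ B.Ps ∅ := Or.inr (Or.inr (Finset.mem_union_right _ (Finset.mem_singleton_self c)))
    have hθc : B.theta ∅ c = α := by
      rw [B.theta_of_cut ∅ (Finset.notMem_empty c)
        (Finset.mem_union_right _ (Finset.mem_singleton_self c))]
      exact hlamcc
    obtain ⟨y, hy0, hymem, hya⟩ := mlttb_aux_step 𝒪 M c hcM (B.Ps ∅) hcPs (B.theta ∅) β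
      (by rw [hθc]; exact hprod) (by rw [hθc]; exact hα) (by rw [hθc]; exact hαβ)
      (by rw [hθc]; exact hα2) x hx0
      (fun ℓ hℓ hℓc => mlttb_eigen_theta 3 _ flat M (M * c) {c} a lamc x hxT
        (fun h => by rw [hlamc3]; exact (hxp h).2) ℓ hℓ
        (fun h => hℓc (Finset.mem_singleton.1 h)))
      (by rw [hθc, hsum]; exact hxT c hcp hcM)
      ({ℓ | ℓ ∣ M} ∪ {c}) (Or.inr rfl) a
      (fun ℓ hℓ hℓS => hxT ℓ hℓ (fun h => hℓS (Or.inl h)))
    -- validity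
    have hB : B.Valid := by
      refine mlttb_valid 3 hp hp𝒪 ι W hΔ hss hirr hloc hsq M hM hMsq hMiff flat hflatM hordM
        (M * c) {c} a lamc (Or.inr ⟨c, rfl, rfl⟩)
        ?_ (fun _ => ⟨c, hcp, Dvd.intro_left M rfl, hc3⟩)
        (fun h => by rw [hlamc3]; exact (hxp h).1) ?_ (hX 𝒪 ι hp𝒪) ?_
      · intro c' hc'
        rw [Finset.mem_singleton] at hc'
        subst hc'
        refine ⟨hcp, hc3', hcM, by rw [hlamcc]; exact hα, β, by rw [hlamcc]; exact hprod,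
          by rw [hlamcc]; exact hαβ, by rw [hlamcc]; exact hαcβ, by rw [hlamcc]; exact hβcα, ?_⟩
        intro P' hP' σ' hσ'
        rw [hfrob c' hcp hcM hc3' P' hP' σ' hσ', hlamcc, ← hsum, ← map_natCast (residue 𝒪), ← hprod]
        simp only [map_add, map_mul]
        ring
      · intro ℓ hℓ hℓp hℓM hℓaux P' hP' σ' hσ'
        exact hfrob ℓ hℓ hℓM hℓp P' hP' σ' hσ'
      · intro inst
        obtain ⟨z, hz0, hzmem, -⟩ := mlttb_cast 𝒪 (show M * c = B.level ∅ from (B.level_empty).symm) (B.Ps ∅) (B.theta ∅) y hy0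
          hymem ({ℓ | ℓ ∣ M} ∪ {c}) a hya
        intro hbot
        apply hz0
        have : z ∈ B.H ∅ := hzmem
        rw [hbot, Submodule.mem_bot] at this
        exact this
    refine hC 𝒪 B ι hB rfl rfl rfl (mlttbB_S0 _ _ _ _ _ _ _ _) ?_ ?_
    · intro c' hc' hc'p
      change c' ∈ (if flat = true then ∅ else {3}) ∪ {c} at hc'
      rw [Finset.mem_union] at hc'
      rcases hc' with hc' | hc'
      · split_ifs at hc' with hf
        · exact absurd hc' (Finset.notMem_empty c')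
        · exact absurd (Finset.mem_singleton.1 hc') hc'p
      · rw [Finset.mem_singleton.1 hc']
        exact hcΔ
    · intro inst
      obtain ⟨z, hz0, hzmem, hza⟩ := mlttb_cast 𝒪 (show M * c = B.level ∅ from (B.level_empty).symm) (B.Ps ∅) (B.theta ∅) y hy0
        hymem ({ℓ | ℓ ∣ M} ∪ {c}) a hya
      intro hbot
      apply hz0
      have hz : (⟨z, hzmem⟩ : ↥(B.H ∅)) ∈ mltcEig B ∅ B.t := by
        intro ℓ hℓ hℓbad
        refine hza ℓ hℓ ?_
        rintro (h | h)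
        · exact hℓbad (Finset.mem_union_left _ (Finset.mem_union_left _
            (Finset.mem_insert_of_mem (Nat.mem_primeFactors.2 ⟨hℓ, h, hM.ne'⟩))))
        · exact hℓbad (Finset.mem_union_left _ (Finset.mem_union_right _
            (Finset.mem_union_right _ (Finset.mem_singleton.2 h))))
      rw [hbot, Submodule.mem_bot] at hz
      exact congrArg Subtype.val hz
  · -- `p = 5`: no auxiliary prime
    have hp5 : p = 5 := hp.resolve_left hp3
    set lamc : ℕ → 𝒪 := fun _ => up with hlamc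
    set B : MltBase 𝒪 := mlttbB p ((mltrE W p hΔ).baseChangeAlong ι) flat M M ∅ a lamc with hBdef
    have hxmem : x ∈ ih4Part 𝒪 M (B.Ps ∅) (B.theta ∅) :=
      mlttb_mem_part_of_eigen 𝒪 (B.Ps ∅) (B.theta ∅) x (fun ℓ hℓ =>
        mlttb_eigen_theta p _ flat M M ∅ a lamc x hxT (fun h => (hxp h).2) ℓ hℓ
          (Finset.notMem_empty ℓ))
    have hB : B.Valid := by
      refine mlttb_valid p hp hp𝒪 ι W hΔ hss hirr hloc hsq M hM hMsq hMiff flat hflatM hordM
        M ∅ a lamc (Or.inl ⟨rfl, rfl⟩) (fun c hc => absurd hc (Finset.notMem_empty c))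
        (fun h => absurd h hp3) (fun h => (hxp h).1) ?_ (hX 𝒪 ι hp𝒪) ?_
      · intro ℓ hℓ hℓp hℓM hℓaux P' hP' σ' hσ'
        exact hfrob ℓ hℓ hℓM hℓp P' hP' σ' hσ'
      · intro inst
        obtain ⟨z, hz0, hzmem, -⟩ := mlttb_cast 𝒪 (show M = B.level ∅ from (B.level_empty).symm) (B.Ps ∅) (B.theta ∅) x hx0
          hxmem {ℓ | ℓ ∣ M} a (fun ℓ hℓ hℓS => hxT ℓ hℓ hℓS)
        intro hbot
        apply hz0
        have : z ∈ B.H ∅ := hzmem
        rw [hbot, Submodule.mem_bot] at this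
        exact this
    refine hC 𝒪 B ι hB rfl rfl rfl (mlttbB_S0 _ _ _ _ _ _ _ _) ?_ ?_
    · intro c' hc' hc'p
      change c' ∈ (if flat = true then ∅ else {p}) ∪ ∅ at hc'
      rw [Finset.union_empty] at hc'
      split_ifs at hc' with hf
      · exact absurd hc' (Finset.notMem_empty c')
      · exact absurd (Finset.mem_singleton.1 hc') hc'p
    · intro inst
      obtain ⟨z, hz0, hzmem, hza⟩ := mlttb_cast 𝒪 (show M = B.level ∅ from (B.level_empty).symm) (B.Ps ∅) (B.theta ∅) x hx0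
        hxmem {ℓ | ℓ ∣ M} a (fun ℓ hℓ hℓS => hxT ℓ hℓ hℓS)
      intro hbot
      apply hz0
      have hz : (⟨z, hzmem⟩ : ↥(B.H ∅)) ∈ mltcEig B ∅ B.t := by
        intro ℓ hℓ hℓbad
        refine hza ℓ hℓ ?_
        intro h
        exact hℓbad (Finset.mem_union_left _ (Finset.mem_union_left _
          (Finset.mem_insert_of_mem (Nat.mem_primeFactors.2 ⟨hℓ, h, hM.ne'⟩))))
      rw [hbot, Submodule.mem_bot] at hz
      exact congrArg Subtype.val hz

end Fermat.Agent.MLT
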