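/-
MLT (project S59) / Top (lead): **assembly of the stream [L1]** (level lowering at the unramified primes
`q ≠ p`, `q ∥ M`), in the primed literal `MltL1At' p` of helper3 (`p` in the level only when `W[p]` is not
finite at `p`).

* `mltt_ihTW`, `mltt_iResOrd`, `mltt_iFOS` : the named inputs of case (C) (`hTW` from [R] + helper5's
  `mltpg_localAtP`; ordinary residual from helper5's `mltpg_resOrd`; first order strict from helper7);
* `mltt_L1_of_two : p ∈ {3, 5} → MltL1MazurTwo p → MltL1At' p` (helper3's `mltl1_at'_of_two` + helper9's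
  `mlti_ihara'_all`);
* `mltt_mazurTwo_five : MltL1MazurTwo 5` (helper3's `mltl1_mazurTwo_of_cmp` + helper5's `mltl9_cmp_nine`);
* `mltt_L1_five : MltL1At' 5`;  `mltt_L1_three : MltL1MazurTwo 3 → MltL1At' 3`.
So the only open input of [L1] is `MltL1MazurTwo 3` (the `p = 3` circular core).
-/
import Mathlib
import Fermat.Agent.Lib.MLT.L1.DefsP
import Fermat.Agent.Lib.MLT.L1.C.TopO
import Fermat.Agent.Lib.MLT.L1.Two.Wire
import Fermat.Agent.Lib.MLT.L1.Nine.Main
import Fermat.Agent.Lib.MLT.Res.SL1f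
import Fermat.Agent.Lib.MLT.AtPG.LocalAtP
import Fermat.Agent.Lib.MLT.AtPG.ResOrd
import Fermat.Agent.Lib.MLT.Ord.C.FirstOrder

set_option autoImplicit false
set_option linter.unusedSectionVars false
set_option linter.unusedVariables false
set_option linter.style.haveILetI false

open WeierstrassCurve Fermat.Agent.Ihara Fermat.Agent.TW

namespace Fermat.Agent.MLT

local notation "Qb" => AlgebraicClosure ℚ
local notation "GQ" => (AlgebraicClosure ℚ ≃ₐ[ℚ] AlgebraicClosure ℚ)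

/-- **`hTW` for `W[p]`, `p ∈ {3, 5}`** -/
theorem mltt_ihTW (p : ℕ) [Fact p.Prime] (hp : p = 3 ∨ p = 5) : MltIhTW p := by
  intro W hΔ hss hirr k _ _
  have hpp : p.Prime := Fact.out
  have hp2 : p ≠ 2 := by rcases hp with rfl | rfl <;> norm_num
  exact mltr_hTW W p k hp hΔ hss hirr
    (fun _ => mltpg_localAtP W hΔ hpp hp2 (fun h => hss p hpp h))

/-- **`W[p] ⊗ k` is ordinary at a multiplicative odd prime `p`** -/
theorem mltt_iResOrd (p : ℕ) [Fact p.Prime] (hp2 : p ≠ 2) : MltIResOrd p := by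
  intro W hΔ hss hbad k _ _
  exact mltpg_resOrd W hΔ hp2 hss hbad (mltr_card W p hΔ) (mltr_level W p hΔ) k

/-- **the case-C hypothesis of the ordinary Taylor–Wiles primes** -/
theorem mltt_iFOS (p : ℕ) [Fact p.Prime] (hp2 : p ≠ 2) : MltIFirstOrderStrict p :=
  mlto_firstOrderStrict p hp2

/-- **[L1] for `p ∈ {3, 5}` from Mazur's principle at `q = 2`** -/
theorem mltt_L1_of_two (p : ℕ) [Fact p.Prime] (hp : p = 3 ∨ p = 5) (h2 : MltL1MazurTwo p) :
    MltL1At' p := by
  have hp2 : p ≠ 2 := by rcases hp with rfl | rfl <;> norm_num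
  exact mltl1_at'_of_two p hp2 h2
    (mlti_ihara'_all p hp2 (mltt_ihTW p hp) (mltl1_mazur_of_two p hp2 h2) (mltt_iFOS p hp2)
      (mltt_iResOrd p hp2))

/-- **Mazur's principle at `q = 2` for `p = 5`** -/
theorem mltt_mazurTwo_five [Fact (Nat.Prime 5)] : MltL1MazurTwo 5 :=
  mltl1_mazurTwo_of_cmp 5 (le_refl 5) (fun 𝔓 M _ h𝔓 h2M W hΔ hW2 hirr =>
    mltl9_cmp_nine 5 (by norm_num) (le_refl 5) 𝔓 M h𝔓 h2M W hΔ hW2 hirr)

/-- **[L1] for `p = 5`** -/
theorem mltt_L1_five [Fact (Nat.Prime 5)] : MltL1At' 5 :=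
  mltt_L1_of_two 5 (Or.inr rfl) mltt_mazurTwo_five

/-- **[L1] for `p = 3` from Mazur's principle at `q = 2`** -/
theorem mltt_L1_three [Fact (Nat.Prime 3)] (h2 : MltL1MazurTwo 3) : MltL1At' 3 :=
  mltt_L1_of_two 3 (Or.inl rfl) h2

end Fermat.Agent.MLT
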