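/-
MLT (project S59) / Top (lead): **Mazur's principle at `q = 2` for `p = 3` from its version with an auxiliary
prime**.

`mltt_mazurTwo_three : MltL1MazurTwoAux → MltL1MazurTwo 3` : choose a prime `r0 ≡ 2 mod 3`, `r0 ∤ 6 M Δ`, with
`3 ∤ a_{r0}(W)` (`mlttb_aux_exists`), raise the level `2 M` to `2 M r0` (`mltl1_raise`), lower `2` with the
auxiliary prime `r0` in the level (`MltL1MazurTwoAux`, helper4) and remove `r0` by (N)
(`mltl1_noNewThree`: no form which is new at `r0` can be congruent to `W` modulo `3`).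
-/
import Mathlib
import Fermat.Agent.Lib.MLT.L1.MazurAll
import Fermat.Agent.Lib.MLT.Contracts.L1Three
import Fermat.Agent.Lib.MLT.L1.NoNew.Main
import Fermat.Agent.Lib.MLT.Top.AuxExists

set_option autoImplicit false
set_option linter.unusedSectionVars false
set_option linter.unusedVariables false

open WeierstrassCurve

namespace Fermat.Agent.MLT

/-- **Mazur's principle at `q = 2` for `p = 3`** from its version with an auxiliary prime -/
theorem mltt_mazurTwo_three [Fact (Nat.Prime 3)] (hAux : MltL1MazurTwoAux) : MltL1MazurTwo 3 := by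
  intro W hΔ hss hirr M hM h2M hsqM hunr hres
  obtain ⟨r, hr, hrT, hr3, hrΔ, har⟩ :=
    mlttb_aux_exists W hΔ hss hirr (insert 2 (insert 3 M.primeFactors))
  have hr2 : r ≠ 2 := fun h => hrT (h ▸ Finset.mem_insert_self _ _)
  have hrM : ¬ r ∣ M := fun h =>
    hrT (Finset.mem_insert_of_mem (Finset.mem_insert_of_mem (Nat.mem_primeFactors.2 ⟨hr, h, hM.ne'⟩)))
  have hcopMr : Nat.Coprime M r := (Nat.Coprime.symm ((Nat.Prime.coprime_iff_not_dvd hr).2 hrM))
  have hsqMr : Squarefree (M * r) :=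
    (Nat.squarefree_mul hcopMr).2 ⟨hsqM, hr.squarefree⟩
  have h2Mr : ¬ 2 ∣ M * r := by
    rw [Nat.Prime.dvd_mul Nat.prime_two]
    rintro (h | h)
    · exact h2M h
    · exact hr2 ((Nat.prime_dvd_prime_iff_eq Nat.prime_two hr).1 h).symm
  have hcop2 : Nat.Coprime (M * r) 2 :=
    (Nat.Coprime.symm ((Nat.Prime.coprime_iff_not_dvd Nat.prime_two).2 h2Mr))
  have hsqMr2 : Squarefree (M * r * 2) :=
    (Nat.squarefree_mul hcop2).2 ⟨hsqMr, Nat.prime_two.squarefree⟩
  have hMr0 : 0 < M * r := Nat.mul_pos hM hr.pos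
  -- raise the level `M * 2` to `M * r * 2`
  have hres1 : W.IsResiduallyModularOfLevel 3 (M * r * 2) :=
    mltl1_raise W 3 (Nat.mul_pos hMr0 two_pos).ne' ⟨r, by ring⟩ hsqMr2 hres
  -- lower `2` with the auxiliary prime in the level
  have hres2 : W.IsResiduallyModularOfLevel 3 (M * r) :=
    hAux W hΔ hss hirr (M * r) r hMr0 h2Mr hsqMr hr hr3 (Dvd.intro_left M rfl) hunr hres1
  -- remove the auxiliary prime
  exact mltl1_noNewThree W hΔ hss hirr M r hM hsqMr hr hr3 hrM hrΔ har hres2

end Fermat.Agent.MLT
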