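/-
MLT (project S59) / Top (lead): **glue lemmas for `Top/Main.lean`**.

* `mltt_residual_bc_id` : base change of a residual representation along the identity;
* `mlttSigma W B`       : the auxiliary set `Σ_W` = the primes of `Δ_W` outside `S0`;
* `mltt_cond_of_tate`   : the Tate module of `W` is of type `D^X_{Σ_W}`;
* `mltt_factorization_level`, `mltt_level_cubefree`, `mltt_level_not_sq` : arithmetic of `N_Σ`.
-/
import Mathlib
import Fermat.Agent.Lib.MLT.Contracts.Top
import Fermat.Agent.Lib.MLT.Top.Induct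

set_option autoImplicit false
set_option linter.unusedSectionVars false
set_option linter.unusedVariables false
set_option linter.style.haveILetI false

open IsLocalRing Polynomial Fermat.Agent.TW Fermat.Agent.Ihara WeierstrassCurve
open scoped TensorProduct

namespace Fermat.Agent.MLT

local notation "Qb" => AlgebraicClosure ℚ
local notation "GQ" => (AlgebraicClosure ℚ ≃ₐ[ℚ] AlgebraicClosure ℚ)

/-- base change of a residual representation along the identity -/
theorem mltt_residual_bc_id {k : Type} [Field k] (ρ : ResidualGaloisRep k) (φ : k →+* k)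
    (hφ : ∀ x, φ x = x) : (ρ.baseChangeAlong φ).IsEquiv ρ := by
  have h : φ = RingHom.id k := RingHom.ext hφ
  subst h
  refine ⟨{ toLinearEquiv := TensorProduct.lid k ρ.V, map_apply := fun σ x => ?_ }⟩
  show TensorProduct.lid k ρ.V ((ρ.ρ σ).baseChange k x) = ρ.ρ σ (TensorProduct.lid k ρ.V x)
  induction x using TensorProduct.induction_on with
  | zero => simp
  | tmul a v => simp
  | add x y hx hy => simp only [map_add, hx, hy]

section

variable {𝒪 : Type} [CommRing 𝒪] [IsDomain 𝒪] [IsDiscreteValuationRing 𝒪] [CharZero 𝒪]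
  [IsAdicComplete (maximalIdeal 𝒪) 𝒪] [Finite (ResidueField 𝒪)]

/-- the residual representation of a deformation over `𝒪`, in the form used by `D.universal` -/
theorem mltt_residual_self (ρbar : ResidualGaloisRep (ResidueField 𝒪)) (ρ : GaloisRepAdic 𝒪)
    (h : ρ.residual.IsEquiv ρbar) :
    ρ.residual.IsEquiv (ρbar.baseChangeAlong (ResidueField.map (algebraMap 𝒪 𝒪))) := by
  obtain ⟨e⟩ := h
  obtain ⟨e'⟩ := mltt_residual_bc_id ρbar (ResidueField.map (algebraMap 𝒪 𝒪)) (fun x => by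
    obtain ⟨y, rfl⟩ := residue_surjective x
    rfl)
  exact ⟨e.trans e'.symm⟩

open Classical in
/-- **the auxiliary set `Σ_W`**: the primes dividing `Δ_W` outside `S0` -/
noncomputable def mlttSigma (W : WeierstrassCurve ℤ) (B : MltBase 𝒪) : Finset ℕ :=
  (W.Δ.natAbs.primeFactors).filter (fun q => q ∉ B.S0)

theorem mltt_mem_sigma {W : WeierstrassCurve ℤ} {B : MltBase 𝒪} (hΔ : W.Δ ≠ 0) {q : ℕ} :
    q ∈ mlttSigma W B ↔ q.Prime ∧ (q : ℤ) ∣ W.Δ ∧ q ∉ B.S0 := by
  classical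
  unfold mlttSigma
  rw [Finset.mem_filter, Nat.mem_primeFactors]
  constructor
  · rintro ⟨⟨hq, hd, -⟩, hS⟩
    exact ⟨hq, Int.natCast_dvd.mpr hd, hS⟩
  · rintro ⟨hq, hd, hS⟩
    exact ⟨⟨hq, Int.natCast_dvd.mp hd, Int.natAbs_ne_zero.mpr hΔ⟩, hS⟩

theorem mltt_sigma_isAux {W : WeierstrassCurve ℤ} {B : MltBase 𝒪} (hΔ : W.Δ ≠ 0) :
    B.IsAux (mlttSigma W B) := fun q hq =>
  ⟨((mltt_mem_sigma hΔ).1 hq).1, ((mltt_mem_sigma hΔ).1 hq).2.2⟩

/-- **the Tate module of `W` is of type `D^X_{Σ_W}`** -/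
theorem mltt_cond_of_tate (B : MltBase 𝒪) (hB : B.Valid) {p : ℕ} (hBp : B.p = p)
    (W : WeierstrassCurve ℤ) (hΔ : W.Δ ≠ 0)
    (hS0 : B.S0 = B.Smin ∪ B.cut) (hcut : ∀ c ∈ B.cut, c ≠ p → ¬ (c : ℤ) ∣ W.Δ)
    (hSmin : ∀ q ∈ B.Smin, q ≠ p → (q : ℤ) ∣ W.Δ)
    (hflat : B.flat = true → ¬ (p : ℤ) ∣ W.Δ) (hord : B.flat = false → (p : ℤ) ∣ W.Δ)
    (ρW : GaloisRepAdic 𝒪) (hT : MlttIsTate W p ρW) :
    B.cond (mlttSigma W B) ρW := by
  subst hBp
  refine ⟨⟨hT.det, ?_, ?_⟩, ?_⟩
  · unfold mltX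
    cases hfl : B.flat with
    | true => exact hT.flat (hflat hfl)
    | false => exact hT.ord (hord hfl)
  · intro q hq hqT
    rw [Finset.mem_union, not_or] at hqT
    obtain ⟨hqSmin, hqSig⟩ := hqT
    have hqp : q ≠ B.p := fun h => hqSmin (h ▸ hB.p_mem_Smin)
    by_cases hd : (q : ℤ) ∣ W.Δ
    · exfalso
      have hqS0 : q ∈ B.S0 := by
        by_contra h
        exact hqSig ((mltt_mem_sigma hΔ).2 ⟨hq, hd, h⟩)
      rw [hS0, Finset.mem_union] at hqS0
      rcases hqS0 with h | h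
      · exact hqSmin h
      · exact hcut q h hqp hd
    · exact hT.unram q hq hqp hd
  · intro q hqS hq hqp
    exact hT.unip q hq hqp (hSmin q hqS hqp)

/-- the `q`-adic valuation of the level `N_Σ` -/
theorem mltt_factorization_level (B : MltBase 𝒪) (hN0 : B.N0 ≠ 0) (Sig : Finset ℕ)
    (hSig : ∀ r ∈ Sig, r.Prime) (q : ℕ) (hq : q.Prime) :
    (B.level Sig).factorization q = B.N0.factorization q + (if q ∈ Sig then 2 else 0) := by
  classical
  unfold MltBase.level
  have hprod : (∏ r ∈ Sig, r ^ 2) ≠ 0 :=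
    Finset.prod_ne_zero_iff.mpr (fun r hr => pow_ne_zero 2 (hSig r hr).ne_zero)
  rw [Nat.factorization_mul hN0 hprod, Finsupp.add_apply, Nat.factorization_prod
    (fun r hr => pow_ne_zero 2 (hSig r hr).ne_zero), Finsupp.finsetSum_apply]
  congr 1
  have h1 : ∀ r ∈ Sig, (r ^ 2).factorization q = if r = q then 2 else 0 := by
    intro r hr
    rw [Nat.factorization_pow, Finsupp.smul_apply, (hSig r hr).factorization,
      Finsupp.single_apply, smul_eq_mul]
    split_ifs <;> simp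
  rw [Finset.sum_congr rfl h1, Finset.sum_ite_eq' Sig q]

/-- `N_Σ` is cube-free -/
theorem mltt_level_cubefree (B : MltBase 𝒪) (hB : B.Valid) (Sig : Finset ℕ) (hSig : B.IsAux Sig)
    (q : ℕ) (hq : q.Prime) : ¬ q ^ 3 ∣ B.level Sig := by
  have hN0 : B.N0 ≠ 0 := hB.N0_sqfree.ne_zero
  have hlev : B.level Sig ≠ 0 := B.level_ne_zero Sig hN0 (fun r hr => (hSig r hr).1)
  rw [hq.pow_dvd_iff_le_factorization hlev,
    mltt_factorization_level B hN0 Sig (fun r hr => (hSig r hr).1) q hq]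
  have h1 : B.N0.factorization q ≤ 1 := hB.N0_sqfree.natFactorization_le_one q
  by_cases hqS : q ∈ Sig
  · have h0 : B.N0.factorization q = 0 := by
      apply Nat.factorization_eq_zero_of_not_dvd
      intro hd
      exact (hSig q hqS).2 (hB.N0_sub q hq hd)
    rw [if_pos hqS, h0]
    omega
  · rw [if_neg hqS]
    omega

/-- `p² ∤ N_Σ` -/
theorem mltt_level_not_sq (B : MltBase 𝒪) (hB : B.Valid) (Sig : Finset ℕ) (hSig : B.IsAux Sig) :
    ¬ B.p ^ 2 ∣ B.level Sig := by
  have hN0 : B.N0 ≠ 0 := hB.N0_sqfree.ne_zero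
  have hlev : B.level Sig ≠ 0 := B.level_ne_zero Sig hN0 (fun r hr => (hSig r hr).1)
  rw [hB.prime.pow_dvd_iff_le_factorization hlev,
    mltt_factorization_level B hN0 Sig (fun r hr => (hSig r hr).1) B.p hB.prime]
  have h1 : B.N0.factorization B.p ≤ 1 := hB.N0_sqfree.natFactorization_le_one B.p
  have hpS : B.p ∉ Sig := fun h => (hSig B.p h).2 (hB.Smin_sub hB.p_mem_Smin)
  rw [if_neg hpS]
  omega

end

end Fermat.Agent.MLT
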