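/-
MLT (project S59) / Top (lead): **the point of `W`**.

From `R_Σ ≅ T_Σ` (the bijectivity clause of `MltRT B Σ`) and a deformation `ρ_W` of `ρbar` of type
`D^X_Σ` over `𝒪` with Frobenius characteristic polynomials `X² - a_ℓ X + ℓ` (`ℓ ∉ S_Σ`):
a ring homomorphism `χ : 𝕋(N_Σ, S_Σ) → 𝒪` with `χ T_ℓ = a_ℓ`.
-/
import Mathlib
import Fermat.Agent.Lib.Helper6.GaloisRepAdicLemmas
import Fermat.Agent.Lib.MLT.Min.RT

set_option autoImplicit false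
set_option linter.unusedSectionVars false
set_option linter.unusedVariables false
set_option linter.style.haveILetI false

open IsLocalRing Polynomial Fermat.Agent.TW Fermat.Agent.Ihara

namespace Fermat.Agent.MLT

local notation "Qbar" => AlgebraicClosure ℚ
local notation "GQ" => (AlgebraicClosure ℚ ≃ₐ[ℚ] AlgebraicClosure ℚ)

variable {𝒪 : Type} [CommRing 𝒪] [IsDomain 𝒪] [IsDiscreteValuationRing 𝒪] [CharZero 𝒪]
  [IsAdicComplete (maximalIdeal 𝒪) 𝒪] [Finite (ResidueField 𝒪)]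

/-- the linear coefficient of `X² - a X + b` -/
theorem mltt_coeff_one {R : Type*} [CommRing R] (a b : R) :
    (X ^ 2 - C a * X + C b : R[X]).coeff 1 = -a := by
  simp [coeff_X_pow, coeff_X, coeff_C]

/-- **the point of `W` on `T_Σ`** -/
theorem mltt_point (B : MltBase 𝒪) (Sig : Finset ℕ) [NeZero (B.level Sig)]
    (θ : CuspForm.heckeAlgebra (B.level Sig) 2 (↑(B.bad Sig) : Set ℕ) →+* ResidueField 𝒪)
    (D : GaloisRep.DeformationRingData 𝒪 B.ρbar (B.cond Sig))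
    (Hk : CuspForm.HeckeGaloisRepDatum (B.level Sig) (↑(B.bad Sig) : Set ℕ) 𝒪 θ (IhdT 𝒪 θ))
    (φ : D.R →ₐ[𝒪] IhdT 𝒪 θ) (hφ : IsLocalHom (φ : D.R →+* IhdT 𝒪 θ))
    (hcompat : (D.ρ.baseChangeAlong (φ : D.R →+* IhdT 𝒪 θ) hφ).IsEquiv Hk.ρ)
    (hbij : Function.Bijective φ)
    (ρW : GaloisRepAdic 𝒪) (hW : B.cond Sig ρW)
    (hres : ρW.residual.IsEquiv
      (B.ρbar.baseChangeAlong (ResidueField.map (algebraMap 𝒪 𝒪))))
    (a : ℕ → 𝒪)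
    (hfrobW : ∀ (ℓ : ℕ), ℓ.Prime → ¬ ℓ ∣ B.level Sig → ℓ ∉ (↑(B.bad Sig) : Set ℕ) →
      ∀ P : ValuationSubring Qbar, P.LiesOverPrime ℓ → ∀ σ : GQ, P.IsFrobeniusAt σ ℓ →
        LinearMap.charpoly (ρW.ρ σ) = X ^ 2 - C (a ℓ) * X + C ((ℓ : 𝒪))) :
    ∃ χ : CuspForm.heckeAlgebra (B.level Sig) 2 (↑(B.bad Sig) : Set ℕ) →+* 𝒪,
      ∀ (ℓ : ℕ) (hℓ : ℓ.Prime) (hℓN : ¬ ℓ ∣ B.level Sig) (hℓS : ℓ ∉ (↑(B.bad Sig) : Set ℕ)),
        χ (CuspForm.heckeAlgebra.T hℓ hℓN hℓS) = a ℓ := by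
  classical
  -- the point of `R_Σ`
  have hsurj : Function.Surjective (residue 𝒪 ∘ algebraMap 𝒪 𝒪) := by
    intro x
    obtain ⟨y, rfl⟩ := residue_surjective x
    exact ⟨y, rfl⟩
  obtain ⟨ψ, ⟨hψ, hψW⟩, -⟩ := D.universal 𝒪 hsurj ρW hW hres
  -- the inverse of `φ`
  set e : D.R ≃+* IhdT 𝒪 θ := RingEquiv.ofBijective (φ : D.R →+* IhdT 𝒪 θ) hbij with he
  refine ⟨((ψ : D.R →+* 𝒪).comp (e.symm : IhdT 𝒪 θ →+* D.R)).comp Hk.π, ?_⟩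
  intro ℓ hℓ hℓN hℓS
  obtain ⟨P, σ, hP, hσ⟩ := Fermat.Agent.Lib.Helper6.exists_frobenius ℓ hℓ
  -- the characteristic polynomials of `σ`
  have h1 := Hk.charpoly_frob ℓ hℓ hℓN hℓS P hP σ hσ
  have h2 := hfrobW ℓ hℓ hℓN hℓS P hP σ hσ
  have h3 : LinearMap.charpoly (Hk.ρ.ρ σ) =
      (LinearMap.charpoly (D.ρ.ρ σ)).map (φ : D.R →+* IhdT 𝒪 θ) := by
    rw [← Fermat.Agent.Lib.Helper6.charpoly_baseChangeAlong (φ : D.R →+* IhdT 𝒪 θ) hφ D.ρ σ]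
    obtain ⟨e1⟩ := hcompat
    exact Fermat.Agent.Lib.Helper6.charpoly_eq_of_galoisRepAdic_equiv e1 σ
  have h4 : LinearMap.charpoly (ρW.ρ σ) =
      (LinearMap.charpoly (D.ρ.ρ σ)).map (ψ : D.R →+* 𝒪) := by
    rw [← Fermat.Agent.Lib.Helper6.charpoly_baseChangeAlong (ψ : D.R →+* 𝒪) hψ D.ρ σ]
    obtain ⟨e2⟩ := hψW
    exact Fermat.Agent.Lib.Helper6.charpoly_eq_of_galoisRepAdic_equiv e2 σ
  -- compare the linear coefficients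
  set c : D.R := (LinearMap.charpoly (D.ρ.ρ σ)).coeff 1 with hc
  have h5 : (φ : D.R →+* IhdT 𝒪 θ) c = -Hk.π (CuspForm.heckeAlgebra.T hℓ hℓN hℓS) := by
    rw [hc, ← Polynomial.coeff_map, ← h3, h1, mltt_coeff_one]
  have h6 : (ψ : D.R →+* 𝒪) c = -a ℓ := by
    rw [hc, ← Polynomial.coeff_map, ← h4, h2, mltt_coeff_one]
  have h7 : e.symm (Hk.π (CuspForm.heckeAlgebra.T hℓ hℓN hℓS)) = -c := by
    rw [RingEquiv.symm_apply_eq, map_neg]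
    show _ = -((φ : D.R →+* IhdT 𝒪 θ) c)
    rw [h5, neg_neg]
  show (ψ : D.R →+* 𝒪) (e.symm (Hk.π (CuspForm.heckeAlgebra.T hℓ hℓN hℓS))) = a ℓ
  rw [h7, map_neg, h6, neg_neg]

end Fermat.Agent.MLT
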