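/-
MLT (project S59) / Top (lead): **from `R_Σ ≅ T_Σ` for a base datum of `W` to the modularity of `W`**.

`mltt_key` : `B` a valid base datum with `ρbar = W[p] ⊗ κ`, `S0 = Smin ∪ cut`, the cut primes `≠ p` good
for `W`, flat iff `W` is good at `p`; residual eigencharacters at every admissible level
(`MltcThetaAt`) and `R_Σ ≅ T_Σ` (`MlttBijAt`).  Then `W` is modular of exact conductor level: the Tate
module of `W` is a deformation of type `D_{Σ_W}`, hence a point of `R_{Σ_W} = T_{Σ_W}`.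
-/
import Mathlib
import Fermat.Agent.Lib.MLT.Top.Glue
import Fermat.Agent.Lib.MLT.Top.Point
import Fermat.Agent.Lib.MLT.Contracts.Step

set_option autoImplicit false
set_option linter.unusedSectionVars false
set_option linter.unusedVariables false
set_option linter.style.haveILetI false

open IsLocalRing Polynomial Fermat.Agent.TW Fermat.Agent.Ihara WeierstrassCurve
open scoped TensorProduct

namespace Fermat.Agent.MLT

local notation "Qb" => AlgebraicClosure ℚ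
local notation "GQ" => (AlgebraicClosure ℚ ≃ₐ[ℚ] AlgebraicClosure ℚ)

set_option maxSynthPendingDepth 3

/-- **from `R_Σ ≅ T_Σ` to modularity** -/
theorem mltt_key (hRing : MlttRingContract) (hCmp : MlttCompareContract) (hTate : MlttTateContract)
    (hMod : MltWlocModularContract)
    (p : ℕ) [Fact p.Prime] (hp : p = 3 ∨ p = 5)
    (W : WeierstrassCurve ℤ) (hΔ : W.Δ ≠ 0) (hW : W.IsSemistableModel)
    (hirr : W.ModRepIsIrreducible p)
    (𝒪 : Type) [CommRing 𝒪] [IsDomain 𝒪] [IsDiscreteValuationRing 𝒪] [CharZero 𝒪]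
    [IsAdicComplete (maximalIdeal 𝒪) 𝒪] [Finite (ResidueField 𝒪)]
    (B : MltBase 𝒪) (ι : ZMod p →+* ResidueField 𝒪)
    (hB : B.Valid) (hBp : B.p = p) (hBρ : B.ρbar = (mltrE W p hΔ).baseChangeAlong ι)
    (hS0 : B.S0 = B.Smin ∪ B.cut) (hcut : ∀ c ∈ B.cut, c ≠ p → ¬ (c : ℤ) ∣ W.Δ)
    (hflat : B.flat = true → ¬ (p : ℤ) ∣ W.Δ) (hord : B.flat = false → (p : ℤ) ∣ W.Δ)
    (hTheta : MltcThetaAt 𝒪 B) (hBij : MlttBijAt 𝒪 B) :
    Mlc1IsModularModelOfExactConductorLevel W := by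
  classical
  have hp2 : p ≠ 2 := by rcases hp with rfl | rfl <;> norm_num
  have hN0 : B.N0 ≠ 0 := hB.N0_sqfree.ne_zero
  have haux : B.IsAux (mlttSigma W B) := mltt_sigma_isAux hΔ
  haveI : NeZero (B.level (mlttSigma W B)) := mltt_neZero_level B hN0 haux
  -- `R_Σ ≅ T_Σ`
  obtain ⟨θ, hθ'⟩ := hTheta (mlttSigma W B) haux
  obtain ⟨D⟩ := hRing 𝒪 B hB hS0 (mlttSigma W B) haux
  obtain ⟨Hk, φ, hφ, hHk, hcompat, hsurj⟩ := hCmp 𝒪 B hB hS0 (mlttSigma W B) haux θ hθ' D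
  have hbij : Function.Bijective φ :=
    hBij hB (hBp ▸ hp) hS0 (mlttSigma W B) haux θ hθ' D Hk hHk φ hφ hcompat hsurj
  -- the point of `W`
  have hp𝒪 : (p : 𝒪) ∈ maximalIdeal 𝒪 := hBp ▸ hB.mem
  obtain ⟨ρW, hT, hresW⟩ := hTate p hp W hΔ hW 𝒪 hp𝒪 ι
  have hSmin : ∀ q ∈ B.Smin, q ≠ p → (q : ℤ) ∣ W.Δ := by
    intro q hq hqp
    have hqprime : q.Prime := hB.S0_prime q (hB.Smin_sub hq)
    have hram := (hB.Smin_iff q hqprime (hBp ▸ hqp)).1 hq
    by_contra hgood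
    apply hram
    rw [hBρ]
    letI : Algebra (ZMod p) (ResidueField 𝒪) := ι.toAlgebra
    exact mltr_unramified_of_good W p (ResidueField 𝒪) hΔ hqprime hqp hgood
  have hcond : B.cond (mlttSigma W B) ρW :=
    mltt_cond_of_tate B hB hBp W hΔ hS0 hcut hSmin hflat hord ρW hT
  have hres : ρW.residual.IsEquiv
      (B.ρbar.baseChangeAlong (ResidueField.map (algebraMap 𝒪 𝒪))) :=
    mltt_residual_self B.ρbar ρW (hBρ ▸ hresW)
  have hpbad : p ∈ B.bad (mlttSigma W B) := by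
    unfold MltBase.bad
    exact Finset.mem_union_left _ (hB.Smin_sub (hBp ▸ hB.p_mem_Smin))
  obtain ⟨χ, hχ⟩ := mltt_point B (mlttSigma W B) θ D Hk φ hφ hcompat hbij ρW hcond hres
    (fun ℓ => ((W.apOfModel ℓ : ℤ) : 𝒪)) (by
      intro ℓ hℓ hℓN hℓS P hP σ hσ
      have hℓp : ℓ ≠ p := fun h => hℓS (h ▸ hpbad)
      have hℓΔ : ¬ (ℓ : ℤ) ∣ W.Δ := by
        intro hd
        apply hℓS
        unfold MltBase.bad
        rw [Finset.coe_union, Set.mem_union]
        by_cases hS : ℓ ∈ B.S0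
        · exact Or.inl hS
        · exact Or.inr ((mltt_mem_sigma hΔ).2 ⟨hℓ, hd, hS⟩)
      exact hT.frob ℓ hℓ hℓp hℓΔ P hP σ hσ)
  -- modularity
  refine hMod p hp2 W hΔ hW hirr (B.level (mlttSigma W B)) (B.bad (mlttSigma W B))
    (fun q hq => mltt_level_cubefree B hB _ haux q hq)
    (hBp ▸ mltt_level_not_sq B hB _ haux) ?_ 𝒪 χ
    (fun ℓ hℓ hℓN hℓS _ => hχ ℓ hℓ hℓN hℓS)
  intro q hq hd
  right
  unfold MltBase.bad
  rw [Finset.mem_union]
  by_cases hS : q ∈ B.S0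
  · exact Or.inl hS
  · exact Or.inr ((mltt_mem_sigma hΔ).2 ⟨hq, hd, hS⟩)

end Fermat.Agent.MLT
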