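/-
MLT (project S59) / Top (lead, after helper9's h9-m1633): **removing the squares from the level, using [L2-JL] only
at RIGID levels and at `(p, q) = (3, 2)`**.

`MlttSqfree` : the abstract form of [L2] consumed by `Top/Level.lean`: from residual modularity of a level `M₀`
(`p² ∤ M₀`, cube-free away from `p`) residual modularity of a squarefree level `M` with `p ∣ M → p ∣ M₀`.
* `mltt_sqfree_of_L2 : MltL2Contract → MlttSqfree` (the old route);
* `mltt_sqfree_of_rigid : MltL2Geom → MltL2JLRigid → MltL2JLTwo → MlttSqfree` (helper9's `mltl2_level_sqfree`,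
  `Lib/MLT/L2/Level.lean`):
  (A) raise the level so that `4 ∥ M` (oldforms);
  (B) strip the odd `q` with `q² ∥ M`: `K = M / q²` has `4 ∣ K`, so [L2-JL] is needed at rigid levels only;
  (C) `4 R → 2 R`, `R` odd and squarefree: `MltL2Geom` alone if `p ≠ 3` (`p ∤ 2² - 1`), (γ) = `MltL2JLTwo` if `p = 3`.
-/
import Mathlib
import Fermat.Agent.Lib.MLT.Contracts.L2
import Fermat.Agent.Lib.MLT.L2.Level

set_option autoImplicit false
set_option linter.unusedSectionVars false
set_option linter.unusedVariables false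
set_option linter.style.haveILetI false

open WeierstrassCurve

namespace Fermat.Agent.MLT

/-- **the abstract form of [L2]**: a squarefree level from a cube-free one -/
def MlttSqfree : Prop :=
  ∀ (p : ℕ), p.Prime → p ≠ 2 →
    ∀ (W : WeierstrassCurve ℤ), W.Δ ≠ 0 → W.IsSemistableModel → W.ModRepIsIrreducible p →
      ∀ (M₀ : ℕ), 0 < M₀ → W.IsResiduallyModularOfLevel p M₀ → ¬ p ^ 2 ∣ M₀ →
        (∀ q : ℕ, q.Prime → q ≠ p → ¬ q ^ 3 ∣ M₀) →
        ∃ M : ℕ, (p ∣ M → p ∣ M₀) ∧ Squarefree M ∧ W.IsResiduallyModularOfLevel p M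

/-- the old route: from the full contract of [L2] -/
theorem mltt_sqfree_of_L2 (hL2 : MltL2Contract) : MlttSqfree := by
  intro p hp hp2 W hΔ hW hirr M₀
  induction M₀ using Nat.strong_induction_on with
  | _ M₀ ih =>
    intro hM₀pos hres hM₀p hM₀3
    by_cases hsq : Squarefree M₀
    · exact ⟨M₀, id, hsq, hres⟩
    · rw [Nat.squarefree_iff_prime_squarefree] at hsq
      push Not at hsq
      obtain ⟨q, hq, hqq⟩ := hsq
      have hq2 : q ^ 2 ∣ M₀ := by rwa [pow_two]
      have hqp : q ≠ p := by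
        rintro rfl
        exact hM₀p hq2
      have hqM : q ∣ M₀ := dvd_trans (dvd_pow_self q two_ne_zero) hq2
      have hres' := hL2 p hp hp2 W hΔ hW hirr M₀ q hM₀pos hq hqp hq2 (hM₀3 q hq hqp) hres
      have hdvd : M₀ / q ∣ M₀ := Nat.div_dvd_of_dvd hqM
      have hpos : 0 < M₀ / q := Nat.div_pos (Nat.le_of_dvd hM₀pos hqM) hq.pos
      have hlt : M₀ / q < M₀ := Nat.div_lt_self hM₀pos hq.one_lt
      obtain ⟨M, hM, hMsq, hMres⟩ := ih (M₀ / q) hlt hpos hres'
        (fun h => hM₀p (dvd_trans h hdvd))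
        (fun r hr hrp h => hM₀3 r hr hrp (dvd_trans h hdvd))
      exact ⟨M, fun h => dvd_trans (hM h) hdvd, hMsq, hMres⟩

/-- **removing the squares, with [L2-JL] at rigid levels and at `(p, q) = (3, 2)` only** -/
theorem mltt_sqfree_of_rigid (hgeom : MltL2Geom) (hRigid : MltL2JLRigid) (hTwo : MltL2JLTwo) :
    MlttSqfree := by
  intro p hp hp2 W hΔ hW hirr M₀ hM₀pos hres hM₀p hM₀3
  obtain ⟨M, hM, hMsq, hMres⟩ :=
    mltl2_level_sqfree hgeom hRigid hTwo hp hp2 W hΔ hW hirr M₀ hM₀pos hres hM₀p hM₀3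
  refine ⟨M, fun h => ?_, hMsq, hMres⟩
  rcases (Nat.Prime.dvd_mul hp).1 (h.trans hM) with h2 | h2
  · exact absurd ((Nat.prime_dvd_prime_iff_eq hp Nat.prime_two).1 h2) hp2
  · exact h2

end Fermat.Agent.MLT
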