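/-
MLT (project S59) / Top (lead): **normalisation of the level away from `p`**.

From residual modularity of a level `M₀` (`p² ∤ M₀`, cube-free away from `p`), the contracts [L2]
(in the abstract form `MlttSqfree` of `Top/Sqfree.lean`: a squarefree level `M` with `p ∣ M → p ∣ M₀`) and [L1] (S38: `q ∥ M`, `W[p]` unramified at `q` ⇒ `M / q`; in the primed form `MltL1At'`: `p` divides
the level only when `W[p]` is not finite at `p`) and [R]
(`W[p]` ramified at `q ≠ p` ⇒ `q ∣` every level): residual modularity of a squarefree level `M` (`p ∣ M → p ∣ M₀`)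
whose primes `q ≠ p` are exactly the primes where `W[p]` is ramified.
-/
import Mathlib
import Fermat.Agent.Lib.MLT.Contracts.L1
import Fermat.Agent.Lib.MLT.L1.DefsP
import Fermat.Agent.Lib.MLT.Top.Sqfree
import Fermat.Agent.Lib.MLT.Res.CongAll

set_option autoImplicit false
set_option linter.unusedSectionVars false
set_option linter.unusedVariables false
set_option linter.style.haveILetI false

open WeierstrassCurve

namespace Fermat.Agent.MLT

/-- **removing the unramified primes `q ≠ p`** ([L1] = S38) -/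
theorem mltt_level_min (p : ℕ) [Fact p.Prime] (hL1 : MltL1At' p)
    (W : WeierstrassCurve ℤ) (hΔ : W.Δ ≠ 0) (hW : W.IsSemistableModel)
    (hirr : W.ModRepIsIrreducible p) :
    ∀ (M₀ : ℕ), Squarefree M₀ → MltL1NotFiniteAt W p M₀ → W.IsResiduallyModularOfLevel p M₀ →
      ∃ M : ℕ, M ∣ M₀ ∧ Squarefree M ∧ W.IsResiduallyModularOfLevel p M ∧
        ∀ q : ℕ, q.Prime → q ≠ p → q ∣ M → ¬ (mltrE W p hΔ).IsUnramifiedAt q := by
  intro M₀
  induction M₀ using Nat.strong_induction_on with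
  | _ M₀ ih =>
    intro hsq hnf hres
    by_cases hall : ∀ q : ℕ, q.Prime → q ≠ p → q ∣ M₀ → ¬ (mltrE W p hΔ).IsUnramifiedAt q
    · exact ⟨M₀, dvd_rfl, hsq, hres, hall⟩
    · push Not at hall
      obtain ⟨q, hq, hqp, hqM, hunr⟩ := hall
      have hM₀pos : 0 < M₀ := Nat.pos_of_ne_zero hsq.ne_zero
      have hq2 : ¬ q ^ 2 ∣ M₀ := by
        intro h
        rw [pow_two] at h
        exact hq.not_isUnit (hsq q h)
      have hres' := hL1 W hΔ hW (mltr_card W p hΔ) (mltr_level W p hΔ) hirr M₀ q hq hqp hqM hq2 hsq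
        hnf hunr hres
      have hdvd : M₀ / q ∣ M₀ := Nat.div_dvd_of_dvd hqM
      have hlt : M₀ / q < M₀ := Nat.div_lt_self hM₀pos hq.one_lt
      obtain ⟨M, hM, hMsq, hMres, hMall⟩ := ih (M₀ / q) hlt (hsq.squarefree_of_dvd hdvd)
        (hnf.of_dvd hdvd) hres'
      exact ⟨M, dvd_trans hM hdvd, hMsq, hMres, hMall⟩

/-- **the level away from `p`**: squarefree, its primes `q ≠ p` are exactly the primes where
`W[p]` is ramified -/
theorem mltt_level (hSq : MlttSqfree) (p : ℕ) [Fact p.Prime] (hp2 : p ≠ 2) (hL1 : MltL1At' p)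
    (W : WeierstrassCurve ℤ) (hΔ : W.Δ ≠ 0) (hW : W.IsSemistableModel)
    (hirr : W.ModRepIsIrreducible p)
    (M₀ : ℕ) (hM₀pos : 0 < M₀) (hres₀ : W.IsResiduallyModularOfLevel p M₀)
    (hM₀ : ¬ p ^ 2 ∣ M₀) (hM₀3 : ∀ q : ℕ, q.Prime → q ≠ p → ¬ q ^ 3 ∣ M₀)
    (hnf : MltL1NotFiniteAt W p M₀) :
    ∃ M : ℕ, 0 < M ∧ (p ∣ M → p ∣ M₀) ∧ Squarefree M ∧ W.IsResiduallyModularOfLevel p M ∧
      ∀ q : ℕ, q.Prime → q ≠ p → (q ∣ M ↔ ¬ (mltrE W p hΔ).IsUnramifiedAt q) := by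
  have hp : p.Prime := Fact.out
  obtain ⟨M₁, hM₁, hM₁sq, hM₁res⟩ :=
    hSq p hp hp2 W hΔ hW hirr M₀ hM₀pos hres₀ hM₀ hM₀3
  obtain ⟨M, hM, hMsq, hMres, hMall⟩ :=
    mltt_level_min p hL1 W hΔ hW hirr M₁ hM₁sq (fun h => hnf (hM₁ h)) hM₁res
  have hMpos : 0 < M := Nat.pos_of_ne_zero hMsq.ne_zero
  refine ⟨M, hMpos, fun h => hM₁ (h.trans hM), hMsq, hMres,
    fun q hq hqp => ⟨hMall q hq hqp, fun hram => ?_⟩⟩
  haveI : NeZero M := ⟨hMpos.ne'⟩
  have hram' : ¬ (mltrRep W p (ZMod p) hΔ).IsUnramifiedAt q := by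
    intro h
    apply hram
    intro A hA σ hσ
    exact (Fermat.Agent.Ihara.ihr_baseChange_ρ_eq_one_iff (mltrE W p hΔ) (ZMod p) σ).1 (h A hA σ hσ)
  exact mltr_dvd_level_of_ramified W p hΔ hp2 hirr (ZMod p) hMres hq hqp hram'

end Fermat.Agent.MLT
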