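/-
MLT (project S59) / Top (lead): **the ring contract and the comparison contract**.

* `mltt_ringContract : MlttRingContract` : existence of the universal rings `R_Σ` (S53 through helper7's
  `mlto_nonempty_twRing`; "flat at `p`" is a deformation condition by helper8's `mltw_flat_isDefCond`,
  "cyclotomic determinant and ordinary at `p`" by helper7's `mlto_isDefCond_detOrd`);
* `mltt_compareContract : MlttCompareContract` : existence of `R_Σ ↠ T_Σ` (helper2's `mltm_compare`).
-/
import Mathlib
import Fermat.Agent.Lib.MLT.Contracts.Top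
import Fermat.Agent.Lib.MLT.Min.Compare
import Fermat.Agent.Lib.MLT.TWO.DefWrap
import Fermat.Agent.Lib.MLT.Wloc.DefFlat

set_option autoImplicit false
set_option linter.unusedSectionVars false
set_option linter.unusedVariables false
set_option linter.style.haveILetI false

open IsLocalRing Polynomial Fermat.Agent.TW Fermat.Agent.Ihara GaloisRep

namespace Fermat.Agent.MLT

set_option maxSynthPendingDepth 3

/-- "cyclotomic determinant and `X` at `p`" is a deformation condition, `X ∈ {flat, ordinary}` -/
theorem mltt_isDefCond_X (𝒪 : Type) [CommRing 𝒪] [IsLocalRing 𝒪] (p : ℕ) [hp : Fact p.Prime]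
    (hp2 : p ≠ 2) (flat : Bool) :
    IsDeformationCondition 𝒪 (fun _A _ _ _ ρ => ρ.DetIsCyclotomic p ∧ mltX p flat ρ) := by
  cases flat with
  | true => exact mlto_isDefCond_and (mlto_isDefCond_det 𝒪 hp.out) (mltw_flat_isDefCond 𝒪 p)
  | false =>
    have h3 : 3 ≤ p := by
      have := hp.out.two_le
      omega
    exact mlto_isDefCond_detOrd 𝒪 p h3

/-- **existence of the universal rings `R_Σ`** -/
theorem mltt_ringContract : MlttRingContract := by
  intro 𝒪 _ _ _ _ _ _ B hB hS0 Sig hSig
  haveI : Fact B.p.Prime := ⟨hB.prime⟩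
  refine mlto_nonempty_twRing 𝒪 (mltX B.p B.flat) B.p hB.odd hB.mem B.Smin (B.Smin ∪ Sig)
    (mltt_isDefCond_X 𝒪 B.p hB.odd B.flat) B.ρbar hB.absIrr ?_ ?_
  · -- `ρbar` is unramified outside `Smin ∪ Σ`
    intro q hq hqT
    by_contra hram
    apply hqT
    refine Finset.mem_union_left _ ?_
    by_cases hqp : q = B.p
    · rw [hqp]
      exact hB.p_mem_Smin
    · exact (hB.Smin_iff q hq hqp).2 hram
  · -- `ρbar` is of type `D_Σ`
    obtain ⟨⟨h1, h2, h3⟩, h4⟩ := hB.bar
    refine ⟨⟨h1, h2, ?_⟩, h4⟩
    intro q hq hqT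
    refine h3 q hq ?_
    intro h
    apply hqT
    rw [Finset.union_empty] at h
    exact Finset.mem_union_left _ h

/-- **existence of the comparison maps `R_Σ ↠ T_Σ`** -/
theorem mltt_compareContract : MlttCompareContract := by
  intro 𝒪 _ _ _ _ _ _ B hB hS0 Sig hSig _ θ hθ D
  exact mltm_compare B hB hS0 Sig hSig θ hθ D

end Fermat.Agent.MLT
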