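/-
MLT (project S59) / Top/Step (helper6): **`R_Σ ≅ T_Σ` for every admissible `Σ`** in the literal of
`Contracts/Top.lean`.

`mltt_bijAt` : for one base datum `B`, from
* `MltMinContract` (helper2: `R_∅ ≅ T_∅`, complete intersection, `H_∅` free),
* `MlttRingAt`, `MlttCompareAt` (existence of `R_Σ` and of `R_Σ ↠ T_Σ`),
* `MltcThetaAt`, `MltcEigenAt` (base contract: `θ_Σ` exists; an eigensystem occurs in `H_∅`),
* `MltcEigUpAt`, `MltcOmegaUpAt` (helper1: (E5a), (E5b)), `MltcMultOneAt` (helper3: (8)),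
the statement `MlttBijAt 𝒪 B`.  The Hecke action (HA) is helper2's `mltm_exists_act`; the growth of
`Φ` is helper7's `mlto_growth_generic` + rigidity; `c_q(a_q) ≠ 0` is (7).
-/
import Mathlib
import Fermat.Agent.Lib.MLT.Contracts.Top
import Fermat.Agent.Lib.MLT.Contracts.Min
import Fermat.Agent.Lib.MLT.Crit.StepMain

set_option autoImplicit false
set_option linter.unusedSectionVars false
set_option linter.unusedVariables false
set_option linter.style.haveILetI false

open IsLocalRing Fermat.Agent.TW Fermat.Agent.Ihara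

namespace Fermat.Agent.MLT

variable {𝒪 : Type} [CommRing 𝒪] [IsDomain 𝒪] [IsDiscreteValuationRing 𝒪] [CharZero 𝒪]
  [IsAdicComplete (maximalIdeal 𝒪) 𝒪] [Finite (ResidueField 𝒪)]

/-- **(HA)** is helper2's `mltm_exists_act` -/
theorem mltc_actAt (B : MltBase 𝒪) : MltcActAt 𝒪 B :=
  fun hB _ Sig hSig _ θ hθ => mltm_exists_act B hB Sig hSig θ hθ

/-- **`R_Σ ≅ T_Σ` for every admissible `Σ`**, one base datum -/
theorem mltt_bijAt (hMin : MltMinContract) (B : MltBase 𝒪) (hRing : MlttRingAt 𝒪 B)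
    (hCmp : MlttCompareAt 𝒪 B) (hTheta : MltcThetaAt 𝒪 B) (hEigen : MltcEigenAt 𝒪 B)
    (hUp : MltcEigUpAt 𝒪 B) (hMult : MltcMultOneAt 𝒪 B) (hOmega : MltcOmegaUpAt 𝒪 B) :
    MlttBijAt 𝒪 B := by
  intro hB hp hS0 Sig hSig _ θ hθ D Hk hHk φ hφ hcompat hsurj
  exact mltc_bij B hB hp hS0 (hMin 𝒪 B hB hp) (fun Sig hSig => hRing hB hS0 Sig hSig)
    (fun Sig hSig _ θ hθ D => hCmp hB hS0 Sig hSig θ hθ D) hTheta hEigen (mltc_actAt B) hUp hMult
    hOmega Sig hSig θ hθ D Hk hHk φ hφ hcompat hsurj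

/-- **`R_Σ ≅ T_Σ` for every admissible `Σ`**, from the contracts of the streams, for every base datum
which has residual eigencharacters at every level and an eigensystem at the minimal level -/
theorem mltt_bij_of_contracts (hMin : MltMinContract) (hRing : MlttRingContract)
    (hCmp : MlttCompareContract) (hUp : MltcEigUpContract) (hMult : MltcMultOneContract)
    (hOmega : MltcOmegaUpContract)
    (𝒪 : Type) [CommRing 𝒪] [IsDomain 𝒪] [IsDiscreteValuationRing 𝒪] [CharZero 𝒪]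
    [IsAdicComplete (maximalIdeal 𝒪) 𝒪] [Finite (ResidueField 𝒪)] (B : MltBase 𝒪)
    (hTheta : MltcThetaAt 𝒪 B) (hEigen : MltcEigenAt 𝒪 B) : MlttBijAt 𝒪 B :=
  mltt_bijAt hMin B (hRing 𝒪 B) (hCmp 𝒪 B) hTheta hEigen (hUp 𝒪 B) (hMult 𝒪 B) (hOmega 𝒪 B)

end Fermat.Agent.MLT
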