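/-
MLT (project S59) / Top (lead): **the residual eigencharacters from one eigensystem of the base level**.

* `mltt_level_neZero`      : `N_Σ ≠ 0` for an admissible `Σ` of a valid base datum;
* `mltt_eig_ne_bot_all`    : `X_∅(a) ≠ 0` ⇒ `X_Σ(a) ≠ 0` for every admissible `Σ` ((E5a) + induction on `Σ`);
* `mltt_eig_congr`         : an eigenvalue of a non-zero class of `H_Σ` is `≡ θ_Σ` modulo `𝔪`;
* `mltt_theta_of_eigen`    : `MltcThetaAt 𝒪 B` from `X_∅(a) ≠ 0` and (E5a).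
-/
import Mathlib
import Fermat.Agent.Lib.MLT.Contracts.Step
import Fermat.Agent.Lib.Ihara.Sc.Level

set_option autoImplicit false
set_option linter.style.haveILetI false
set_option linter.unusedSectionVars false
set_option linter.unusedVariables false

open IsLocalRing Fermat.Agent.TW Fermat.Agent.Ihara

namespace Fermat.Agent.MLT

set_option maxSynthPendingDepth 3

variable {𝒪 : Type} [CommRing 𝒪] [IsDomain 𝒪] [IsDiscreteValuationRing 𝒪] [CharZero 𝒪]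
  [IsAdicComplete (maximalIdeal 𝒪) 𝒪] [Finite (ResidueField 𝒪)]

/-- the level of an admissible `Σ` is non-zero -/
theorem mltt_level_ne_zero (B : MltBase 𝒪) (hB : B.Valid) (Sig : Finset ℕ) (hSig : B.IsAux Sig) :
    B.level Sig ≠ 0 := by
  refine B.level_ne_zero Sig ?_ (fun q hq => (hSig q hq).1)
  exact hB.N0_sqfree.ne_zero

/-- an eigenvalue of a non-zero class of the `θ`-part is congruent to `θ` -/
theorem mltt_eig_congr {N : ℕ} [NeZero N] (Ps : Set ℕ) (θ : ℕ → 𝒪) (x : Ih4H 𝒪 𝒪 N)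
    (hx : x ∈ ih4Part 𝒪 N Ps θ) (hx0 : x ≠ 0) (ℓ : ℕ) (hℓ : ℓ ∈ Ps) (c : 𝒪)
    (hc : ih4Op 𝒪 N ℓ x = c • x) : c - θ ℓ ∈ maximalIdeal 𝒪 := by
  by_contra hnot
  have hu : IsUnit (c - θ ℓ) := by
    by_contra h
    exact hnot ((mem_maximalIdeal _).2 h)
  have h1 := (ih4_mem_part (O := 𝒪)).1 hx ℓ hℓ
  rw [ih4p_mem_nil1] at h1
  -- `(T - θ)^n x = (c - θ)^n x`
  have hpow : ∀ n : ℕ, ((ih4Op 𝒪 N ℓ - algebraMap 𝒪 (Module.End 𝒪 (Ih4H 𝒪 𝒪 N)) (θ ℓ)) ^ n) x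
      = (c - θ ℓ) ^ n • x := by
    intro n
    induction n with
    | zero => simp
    | succ n ih =>
      have h2 : c • x - θ ℓ • x = (c - θ ℓ) • x := (sub_smul _ _ _).symm
      rw [pow_succ', Module.End.mul_apply, ih, map_smul, LinearMap.sub_apply,
        Module.algebraMap_end_apply, hc, h2, smul_smul, pow_succ]
  -- hence `x ∈ 𝔪^n H` for every `n`
  have hmem : ∀ n : ℕ, x ∈ (maximalIdeal 𝒪) ^ n • (⊤ : Submodule 𝒪 (Ih4H 𝒪 𝒪 N)) := by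
    intro n
    obtain ⟨m, hm⟩ := h1 n
    rw [hpow m] at hm
    have hum : IsUnit ((c - θ ℓ) ^ m) := hu.pow m
    obtain ⟨u, hu'⟩ := hum
    have : x = (↑u⁻¹ : 𝒪) • ((c - θ ℓ) ^ m • x) := by
      rw [← hu', smul_smul, Units.inv_mul, one_smul]
    rw [this]
    exact Submodule.smul_mem _ _ hm
  -- Krull
  have hbot : (⨅ n : ℕ, (maximalIdeal 𝒪) ^ n • (⊤ : Submodule 𝒪 (Ih4H 𝒪 𝒪 N))) = ⊥ :=
    Ideal.iInf_pow_smul_eq_bot_of_isLocalRing (maximalIdeal 𝒪) (maximalIdeal.isMaximal 𝒪).ne_top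
  have : x ∈ (⊥ : Submodule 𝒪 (Ih4H 𝒪 𝒪 N)) := by
    rw [← hbot, Submodule.mem_iInf]
    exact hmem
  exact hx0 ((Submodule.mem_bot 𝒪).1 this)

/-- **`X_∅(a) ≠ 0` ⇒ `X_Σ(a) ≠ 0` for every admissible `Σ`** -/
theorem mltt_eig_ne_bot_all (B : MltBase 𝒪) (hB : B.Valid) (hp : B.p = 3 ∨ B.p = 5)
    (hS0 : B.S0 = B.Smin ∪ B.cut) (hUp : MltcEigUpAt 𝒪 B) (a : ℕ → 𝒪)
    (ha : ∀ [NeZero (B.level ∅)], mltcEig B ∅ a ≠ ⊥) :
    ∀ Sig : Finset ℕ, B.IsAux Sig → ∀ [NeZero (B.level Sig)], mltcEig B Sig a ≠ ⊥ := by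
  classical
  intro Sig
  induction Sig using Finset.induction_on with
  | empty =>
    intro _ _
    exact ha
  | insert q Sig hq ih =>
    intro hSig inst
    have hSig' : B.IsAux Sig := fun r hr => hSig r (Finset.mem_insert_of_mem hr)
    haveI : NeZero (B.level Sig) := ⟨mltt_level_ne_zero B hB Sig hSig'⟩
    have h1 := ih hSig'
    have hq' := hSig q (Finset.mem_insert_self q Sig)
    have h2 := hUp hB hp hS0 Sig q hSig' hq'.1 hq'.2 hq a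
    have hpos : 0 < Module.finrank 𝒪 ↥(mltcEig B Sig a) := by
      have hnt : Nontrivial ↥(mltcEig B Sig a) := Submodule.nontrivial_iff_ne_bot.2 h1
      haveI := Fermat.Agent.T1.tdm_isTorsionFree_homG
        (G := CongruenceSubgroup.Gamma0 (B.level Sig)) 𝒪
      haveI : Module.IsTorsionFree 𝒪 (Ih4H 𝒪 𝒪 (B.level Sig)) := inferInstance
      exact Module.finrank_pos
    have hpos' : 0 < Module.finrank 𝒪 ↥(mltcEig B (insert q Sig) a) := lt_of_lt_of_le hpos h2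
    intro hbot
    rw [hbot, finrank_bot] at hpos'
    exact lt_irrefl _ hpos'

/-- **the residual eigencharacters of a valid base datum with an eigensystem at the base level** -/
theorem mltt_theta_of_eigen (B : MltBase 𝒪) (hB : B.Valid) (hp : B.p = 3 ∨ B.p = 5)
    (hS0 : B.S0 = B.Smin ∪ B.cut) (hUp : MltcEigUpAt 𝒪 B) (a : ℕ → 𝒪)
    (ha : ∀ [NeZero (B.level ∅)], mltcEig B ∅ a ≠ ⊥) : MltcThetaAt 𝒪 B := by
  classical
  intro Sig hSig inst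
  have h1 := mltt_eig_ne_bot_all B hB hp hS0 hUp a ha Sig hSig
  obtain ⟨x, hx, hx0⟩ := (Submodule.ne_bot_iff _).1 h1
  have hx0' : (x : Ih4H 𝒪 𝒪 (B.level Sig)) ≠ 0 := fun h => hx0 (Subtype.ext h)
  -- the primes of the level are bad
  have hNS : ∀ r : ℕ, r.Prime → r ∣ B.level Sig → r ∈ (↑(B.bad Sig) : Set ℕ) := by
    intro r hr hrN
    unfold MltBase.level at hrN
    rcases (Nat.Prime.dvd_mul hr).1 hrN with h | h
    · exact Finset.mem_coe.2 (Finset.mem_union_left _ (hB.N0_sub r hr h))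
    · obtain ⟨s, hs, hrs⟩ := (Prime.dvd_finsetProd_iff hr.prime _).1 h
      have h2 : r ∣ s := hr.dvd_of_dvd_pow hrs
      have h3 : r = s := (Nat.prime_dvd_prime_iff_eq hr (hSig s hs).1).1 h2
      exact Finset.mem_coe.2 (Finset.mem_union_right _ (h3 ▸ hs))
  obtain ⟨χ, hχ⟩ := ihsc_exists_char 𝒪 (B.level Sig) (↑(B.bad Sig) : Set ℕ) hNS
    (x : Ih4H 𝒪 𝒪 (B.level Sig)) hx0' a
    (fun ℓ hℓ hℓS => hx ℓ hℓ (fun h => hℓS (Finset.mem_coe.2 h)))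
  refine ⟨(residue 𝒪).comp χ, fun ℓ hℓ hℓN hℓS => ?_⟩
  rw [RingHom.comp_apply, hχ ℓ hℓ hℓN hℓS]
  -- `a ℓ ≡ t ℓ`
  have hℓbad : ℓ ∉ B.bad Sig := fun h => hℓS (Finset.mem_coe.2 h)
  have hℓPs : ℓ ∈ B.Ps Sig := Or.inl ⟨hℓ, hℓbad⟩
  have hℓSig : ℓ ∉ Sig := fun h => hℓbad (Finset.mem_union_right _ h)
  have hℓcut : ℓ ∉ B.cut := fun h => hℓbad (Finset.mem_union_left _ (hB.cut_sub ℓ h).2)
  have h2 := mltt_eig_congr (B.Ps Sig) (B.theta Sig) (x : Ih4H 𝒪 𝒪 (B.level Sig)) x.2 hx0' ℓ hℓPs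
    (a ℓ) (hx ℓ hℓ hℓbad)
  rw [B.theta_of_good Sig hℓSig hℓcut] at h2
  rw [← sub_eq_zero, ← map_sub]
  exact (residue_eq_zero_iff _).2 h2

end Fermat.Agent.MLT
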