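/-
MLT (project S59) / Top (lead): **S59 from the open contracts**.

`mltt_main` : the statement of S59 from
* `MltL2Contract`, `MltL1At' p` for `p ∈ {3, 5}` (level lowering away from `p`),
* `MlttToOrdContract` (the step at `p`, case (C'); helper6).
Everything else is proved: the base datum (`mlttb_base`), the minimal case (`mltm_minContract2_all`),
the numerical criterion (`mltc_bij`) with its inputs (E5a), (8), (E5b), the universal rings and the
comparison maps (`Top/Ring.lean`), the Tate module of `W` and the modularity of a point of `T_Σ`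
(`Wloc`), everything at `p` ([P]: `mltph_lowerAtP_weak`, `mltph_ord_contract`, `mltpg_resOrd`,
`mltfo_mltX_mult`, `mlto_firstOrderStrict`, `mltpg_localAtP`).

The three cases at `p`:
* (A)  good reduction: the flat problem at the level `M` prime to `p`;
* (C)  multiplicative reduction, `p ∤ v_p(Δ)`: the ordinary problem at the level `M` resp. `M p`
       (minimal in the sense of Taylor–Wiles since `ρbar|_{D_p}` is très ramifié);
* (C') multiplicative reduction, `p ∣ v_p(Δ)`: the flat problem at the level `M` prime to `p`, then the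
       step at `p` to the ordinary problem at the level `M p`.
-/
import Mathlib
import Fermat.Agent.Lib.MLT.Contracts.L1
import Fermat.Agent.Lib.MLT.Contracts.L2
import Fermat.Agent.Lib.MLT.Contracts.TopP
import Fermat.Agent.Lib.MLT.Contracts.PeuFlat
import Fermat.Agent.Lib.MLT.Top.Key
import Fermat.Agent.Lib.MLT.Top.Level
import Fermat.Agent.Lib.MLT.Top.Base
import Fermat.Agent.Lib.MLT.Top.Theta
import Fermat.Agent.Lib.MLT.Top.Ring
import Fermat.Agent.Lib.MLT.Top.Step
import Fermat.Agent.Lib.MLT.Min.MinOrd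
import Fermat.Agent.Lib.MLT.Eta.StepInputs
import Fermat.Agent.Lib.MLT.MO.Wire
import Fermat.Agent.Lib.MLT.Wloc.TopTate
import Fermat.Agent.Lib.MLT.Wloc.ModPoint
import Fermat.Agent.Lib.MLT.AtP.H.OrdContract
import Fermat.Agent.Lib.MLT.AtP.H.TorMain
import Fermat.Agent.Lib.MLT.AtP.H.LowerAtP3
import Fermat.Agent.Lib.MLT.VertP.Wire
import Fermat.Agent.Lib.MLT.AtPG.LocalAtP
import Fermat.Agent.Lib.MLT.AtPG.ResOrd
import Fermat.Agent.Lib.MLT.Ord.C.FirstOrder

set_option autoImplicit false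
set_option linter.unusedSectionVars false
set_option linter.unusedVariables false
set_option linter.style.haveILetI false

open IsLocalRing Polynomial Fermat.Agent.TW Fermat.Agent.Ihara WeierstrassCurve
open scoped TensorProduct

namespace Fermat.Agent.MLT

local notation "Qb" => AlgebraicClosure ℚ
local notation "GQ" => (AlgebraicClosure ℚ ≃ₐ[ℚ] AlgebraicClosure ℚ)

set_option maxSynthPendingDepth 3

/-- good reduction at `p` ⇒ `W[p]` is finite at `p` -/
theorem mltt_finite_of_good (W : WeierstrassCurve ℤ) {p : ℕ} (hp : p.Prime)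
    (hgood : ¬ (p : ℤ) ∣ W.Δ) : mlttFiniteAtP W p := by
  haveI : Fact p.Prime := ⟨hp⟩
  unfold mlttFiniteAtP
  have h1 : (W.map (Int.castRingHom ℚ)).Δ = ((W.Δ : ℤ) : ℚ) := by
    rw [WeierstrassCurve.map_Δ]
    rfl
  rw [h1, padicValRat.of_int, padicValInt.eq_zero_of_not_dvd hgood]
  exact dvd_zero _

/-- **[P] first**: if `W[p]` is finite at `p`, the prime `p` leaves the level -/
theorem mltt_remove_p (hP : MltpLowerAtPWeak) {p : ℕ} (hp : p = 3 ∨ p = 5) (hpp : p.Prime)
    (W : WeierstrassCurve ℤ) (hΔ : W.Δ ≠ 0) (hW : W.IsSemistableModel)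
    (hirr : W.ModRepIsIrreducible p) (M₀ : ℕ) (hM₀pos : 0 < M₀)
    (hres₀ : W.IsResiduallyModularOfLevel p M₀) (hM₀ : ¬ p ^ 2 ∣ M₀)
    (hM₀3 : ∀ q : ℕ, q.Prime → q ≠ p → ¬ q ^ 3 ∣ M₀) :
    ∃ M₁ : ℕ, 0 < M₁ ∧ W.IsResiduallyModularOfLevel p M₁ ∧ ¬ p ^ 2 ∣ M₁ ∧
      (∀ q : ℕ, q.Prime → q ≠ p → ¬ q ^ 3 ∣ M₁) ∧ (mlttFiniteAtP W p → ¬ p ∣ M₁) := by
  by_cases h : mlttFiniteAtP W p ∧ p ∣ M₀
  · obtain ⟨hfin, hpM⟩ := h
    obtain ⟨M₁, h1, h2, h3, h4⟩ := hP p hp W hΔ hW hirr hfin M₀ hM₀pos hpM hM₀ hM₀3 hres₀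
    exact ⟨M₁, h1, h4, fun h => h2 (dvd_trans (dvd_pow_self p two_ne_zero) h), h3, fun _ => h2⟩
  · exact ⟨M₀, hM₀pos, hres₀, hM₀, hM₀3, fun hfin hpd => h ⟨hfin, hpd⟩⟩

/-- an equivalence of residual representations is an equivalence of the attached adic ones -/
theorem mltt_ofResidual_isEquiv {k : Type} [Field k] {ρ₁ ρ₂ : ResidualGaloisRep k}
    (h : ρ₁.IsEquiv ρ₂) :
    (GaloisRepAdic.ofResidualGaloisRep ρ₁).IsEquiv (GaloisRepAdic.ofResidualGaloisRep ρ₂) := by
  obtain ⟨e⟩ := h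
  exact ⟨{ toLinearEquiv := e.toLinearEquiv, map_apply := e.map_apply }⟩

/-- the residual representation of a flat representation is flat -/
theorem mltt_isFlatAt_residual {𝒪 : Type} [CommRing 𝒪] [IsLocalRing 𝒪] (ρ : GaloisRepAdic 𝒪)
    {p : ℕ} (h : ρ.IsFlatAt p) : (GaloisRepAdic.ofResidualGaloisRep ρ.residual).IsFlatAt p :=
  isFlatAt_baseChangeAlong_of_surjective (residue 𝒪) inferInstance residue_surjective ρ h

/-- `W[p] ⊗ κ` is flat at a prime `p ∈ {3, 5}` of good reduction -/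
theorem mltt_resFlat_good (p : ℕ) [Fact p.Prime] (hp : p = 3 ∨ p = 5)
    (W : WeierstrassCurve ℤ) (hΔ : W.Δ ≠ 0) (hW : W.IsSemistableModel)
    (hgood : ¬ (p : ℤ) ∣ W.Δ)
    (𝒪 : Type) [CommRing 𝒪] [IsDomain 𝒪] [IsDiscreteValuationRing 𝒪] [CharZero 𝒪]
    [IsAdicComplete (maximalIdeal 𝒪) 𝒪] [Finite (ResidueField 𝒪)]
    (ι : ZMod p →+* ResidueField 𝒪) (hp𝒪 : (p : 𝒪) ∈ maximalIdeal 𝒪) :
    (GaloisRepAdic.ofResidualGaloisRep ((mltrE W p hΔ).baseChangeAlong ι)).IsFlatAt p := by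
  obtain ⟨ρW, hT, hresW⟩ := mltw_tateContract p hp W hΔ hW 𝒪 hp𝒪 ι
  exact isFlatAt_of_isEquiv (mltt_ofResidual_isEquiv hresW)
    (mltt_isFlatAt_residual ρW (hT.flat hgood))

/-- `W[p] ⊗ κ` is ordinary at an odd prime `p` of multiplicative reduction -/
theorem mltt_resOrd_mult (p : ℕ) [Fact p.Prime] (hp2 : p ≠ 2)
    (W : WeierstrassCurve ℤ) (hΔ : W.Δ ≠ 0) (hW : W.IsSemistableModel)
    (hbad : (p : ℤ) ∣ W.Δ) {k : Type} [Field k] (ι : ZMod p →+* k) :
    (GaloisRepAdic.ofResidualGaloisRep ((mltrE W p hΔ).baseChangeAlong ι)).IsOrdinaryAt p := by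
  letI : Algebra (ZMod p) k := ι.toAlgebra
  exact mltpg_resOrd W hΔ hp2 hW hbad (mltr_card W p hΔ) (mltr_level W p hΔ) k

section Run

variable {𝒪 : Type} [CommRing 𝒪] [IsDomain 𝒪] [IsDiscreteValuationRing 𝒪] [CharZero 𝒪]
  [IsAdicComplete (maximalIdeal 𝒪) 𝒪] [Finite (ResidueField 𝒪)]

/-- `R_Σ ≅ T_Σ` for a valid base datum with an eigensystem at the minimal level, from the minimal
case -/
theorem mltt_bij_of_min (B : MltBase 𝒪) (hB : B.Valid) (hp : B.p = 3 ∨ B.p = 5)
    (hS0 : B.S0 = B.Smin ∪ B.cut) (hMin : ∀ [NeZero (B.level ∅)], MltRT B ∅)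
    (hTheta : MltcThetaAt 𝒪 B) (a : ℕ → 𝒪) (ha : ∀ [NeZero (B.level ∅)], mltcEig B ∅ a ≠ ⊥) :
    MlttBijAt 𝒪 B := by
  intro _ _ _ Sig hSig _ θ hθ D Hk hHk φ hφ hcompat hsurj
  exact mltc_bij B hB hp hS0 hMin (fun Sig hSig => mltt_ringContract 𝒪 B hB hS0 Sig hSig)
    (fun Sig hSig _ θ hθ D => mltt_compareContract 𝒪 B hB hS0 Sig hSig θ hθ D) hTheta
    (fun {_} => ⟨a, ha⟩) (mltc_actAt B) (mlte_eigUpContract 𝒪 B) (mltmo_multOneContract 𝒪 B)
    (mlte_omegaUpContract 𝒪 B) Sig hSig θ hθ D Hk hHk φ hφ hcompat hsurj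

end Run

/-- **S59 from the open contracts** -/
theorem mltt_main (hL2 : MlttSqfree)
    (hL1 : ∀ (p : ℕ) [Fact p.Prime], p = 3 ∨ p = 5 → MltL1At' p) (hToOrd : MlttToOrdContract)
    (p : ℕ) (hp : p = 3 ∨ p = 5)
    (W : WeierstrassCurve ℤ) (hΔ : W.Δ ≠ 0) (hW : W.IsSemistableModel)
    (hirr : W.ModRepIsIrreducible p)
    (M₀ : ℕ) [NeZero M₀] (hres₀ : W.IsResiduallyModularOfLevel p M₀)
    (hM₀ : ¬ p ^ 2 ∣ M₀)
    (hM₀3 : ∀ q : ℕ, q.Prime → q ≠ p → ¬ q ^ 3 ∣ M₀) :
    Mlc1IsModularModelOfExactConductorLevel W := by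
  classical
  have hpp : p.Prime := by rcases hp with rfl | rfl <;> norm_num
  have hp2 : p ≠ 2 := by rcases hp with rfl | rfl <;> norm_num
  haveI : Fact p.Prime := ⟨hpp⟩
  have hP : MltpLowerAtPWeak := mltph_lowerAtP_weak mltph_lowerContract mltvp_inputs_three
  -- [P] first, then the level away from `p`
  obtain ⟨M₁, hM₁pos, hM₁res, hM₁p, hM₁3, hM₁fin⟩ :=
    mltt_remove_p hP hp hpp W hΔ hW hirr M₀ (Nat.pos_of_ne_zero (NeZero.ne M₀)) hres₀ hM₀ hM₀3
  obtain ⟨M, hMpos, hMdvd, hMsq, hMres, hMiff⟩ :=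
    mltt_level hL2 p hp2 (hL1 p hp) W hΔ hW hirr M₁ hM₁pos hM₁res hM₁p hM₁3
      (fun hpd hfin => hM₁fin hfin hpd)
  have hloc : p = 5 → MltrLocalAtP W p := fun _ =>
    mltpg_localAtP W hΔ hpp hp2 (fun h => hW p hpp h)
  -- the direct case: the problem `X` at the level `M'` is minimal
  have direct : ∀ (M' : ℕ) (flat : Bool), 0 < M' → Squarefree M' →
      (∀ q : ℕ, q.Prime → q ≠ p → (q ∣ M' ↔ ¬ (mltrE W p hΔ).IsUnramifiedAt q)) →
      (flat = true → ¬ p ∣ M' ∧ ¬ (p : ℤ) ∣ W.Δ ∧ W.IsResiduallyModularOfLevel p M') →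
      (flat = false → p ∣ M' ∧ (p : ℤ) ∣ W.Δ ∧
        ¬ (p : ℤ) ∣ padicValRat p (W.map (Int.castRingHom ℚ)).Δ ∧
        mltpIsOrdResiduallyModularOfLevel W p M') →
      Mlc1IsModularModelOfExactConductorLevel W := by
    intro M' flat hM'pos hM'sq hM'iff hfl hor
    refine mlttb_base p hp W hΔ hW hirr hloc M' flat hM'pos hM'sq hM'iff
      (fun h => ⟨(hfl h).1, (hfl h).2.2⟩) (fun h => ⟨(hor h).1, (hor h).2.2.2⟩) ?_ _ ?_
    · -- `ρbar` is of type `X` at `p`
      intro 𝒪 _ _ _ _ _ _ ι hp𝒪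
      cases flat with
      | true => exact mltt_resFlat_good p hp W hΔ hW (hfl rfl).2.1 𝒪 ι hp𝒪
      | false => exact mltt_resOrd_mult p hp2 W hΔ hW (hor rfl).2.1 ι
    · intro 𝒪 _ _ _ _ _ _ B ι hB hBp hBflat hBρ hS0 hcut heig
      have hp' : B.p = 3 ∨ B.p = 5 := hBp ▸ hp
      have hTheta : MltcThetaAt 𝒪 B :=
        mltt_theta_of_eigen B hB hp' hS0 (mlte_eigUpContract 𝒪 B) B.t heig
      have hstrict : B.flat = false → MltTWOOrdFirstOrderStrict B.p B.ρbar := by
        intro hf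
        have hf' : flat = false := hBflat ▸ hf
        rw [hBp, hBρ]
        letI : Algebra (ZMod p) (ResidueField 𝒪) := ι.toAlgebra
        exact mlto_firstOrderStrict p hp2 W hΔ hW hirr (hor hf').2.1 (hor hf').2.2.1
          (ResidueField 𝒪)
      have hMin : ∀ [NeZero (B.level ∅)], MltRT B ∅ :=
        mltm_minContract2_all 𝒪 B hB hp' hS0
          (fun Sig hSig => mltt_ringContract 𝒪 B hB hS0 Sig hSig) hstrict
      exact mltt_key mltt_ringContract mltt_compareContract mltw_tateContract mltw_modular p hp W hΔ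
        hW hirr 𝒪 B ι hB hBp hBρ hS0 hcut (fun h => (hfl (hBflat ▸ h)).2.1)
        (fun h => (hor (hBflat ▸ h)).2.1) hTheta
        (mltt_bij_of_min B hB hp' hS0 hMin hTheta B.t heig)
  -- the three cases at `p`
  by_cases hbad : (p : ℤ) ∣ W.Δ
  · by_cases hfin : mlttFiniteAtP W p
    · -- (C'): multiplicative, `W[p]` finite at `p`: the flat problem at the level `M`, then the step
      have hpM : ¬ p ∣ M := fun h => hM₁fin hfin (hMdvd h)
      refine mlttb_base p hp W hΔ hW hirr hloc M true hMpos hMsq hMiff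
        (fun _ => ⟨hpM, hMres⟩) (fun h => by cases h) ?_ _ ?_
      · intro 𝒪 _ _ _ _ _ _ ι hp𝒪
        exact mltfo_mltX_mult p hp2 W hΔ hW hbad hfin ι
      · intro 𝒪 _ _ _ _ _ _ B ι hB hBp hBflat hBρ hS0 hcut heig
        have hp' : B.p = 3 ∨ B.p = 5 := hBp ▸ hp
        have hMin : ∀ [NeZero (B.level ∅)], MltRT B ∅ :=
          mltm_minContract2_all 𝒪 B hB hp' hS0
            (fun Sig hSig => mltt_ringContract 𝒪 B hB hS0 Sig hSig)
            (fun hf => by rw [hBflat] at hf; cases hf)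
        have hbar : mltCond 𝒪 B.p false B.Smin ∅ (GaloisRepAdic.ofResidualGaloisRep B.ρbar) := by
          obtain ⟨⟨h1, h2, h3⟩, h4⟩ := hB.bar
          refine ⟨⟨h1, ?_, h3⟩, h4⟩
          show (GaloisRepAdic.ofResidualGaloisRep B.ρbar).IsOrdinaryAt B.p
          rw [hBp, hBρ]
          exact mltt_resOrd_mult p hp2 W hΔ hW hbad ι
        obtain ⟨lamp, hB', hTheta', hBij'⟩ := hToOrd 𝒪 B hB hBflat hp' hS0 hMin hbar B.t heig
        have hpSmin : B.p ∈ B.Smin := hB.p_mem_Smin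
        refine mltt_key mltt_ringContract mltt_compareContract mltw_tateContract mltw_modular p hp W
          hΔ hW hirr 𝒪 (B.toOrd lamp) ι hB' hBp hBρ ?_ ?_ (fun h => by cases h) (fun _ => hbad)
          hTheta' hBij'
        · show B.S0 = B.Smin ∪ insert B.p B.cut
          rw [hS0]
          ext c
          simp only [Finset.mem_union, Finset.mem_insert]
          constructor
          · rintro (h | h)
            · exact Or.inl h
            · exact Or.inr (Or.inr h)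
          · rintro (h | h | h)
            · exact Or.inl h
            · exact Or.inl (h ▸ hpSmin)
            · exact Or.inr h
        · intro c hc hcp
          have hc' : c ∈ insert B.p B.cut := hc
          rw [Finset.mem_insert] at hc'
          rcases hc' with h | h
          · exact absurd (h.trans hBp) hcp
          · exact hcut c h hcp
    · -- (C): multiplicative, `W[p]` not finite at `p`: the ordinary problem at `M` resp. `M p`
      have hord := mltph_ord_contract p hpp hp2 W hΔ hW hirr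
        (mltw_multOrdContract p hpp hp2 W hΔ hW hbad) M hMpos
        (fun h => hpp.one_lt.ne' (Nat.isUnit_iff.1 (hMsq p (by rwa [pow_two] at h)))) hMres
      by_cases hpM : p ∣ M
      · rw [if_pos hpM] at hord
        exact direct M false hMpos hMsq hMiff (fun h => by cases h)
          (fun _ => ⟨hpM, hbad, hfin, hord⟩)
      · rw [if_neg hpM] at hord
        have hcop : Nat.Coprime M p := (Nat.Prime.coprime_iff_not_dvd hpp).mpr hpM |>.symm
        refine direct (M * p) false (Nat.mul_pos hMpos hpp.pos)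
          ((Nat.squarefree_mul hcop).mpr ⟨hMsq, hpp.prime.squarefree⟩) ?_ (fun h => by cases h)
          (fun _ => ⟨Dvd.intro_left M rfl, hbad, hfin, hord⟩)
        intro q hq hqp
        rw [← hMiff q hq hqp]
        constructor
        · intro h
          rcases (Nat.Prime.dvd_mul hq).1 h with h | h
          · exact h
          · exact absurd ((Nat.prime_dvd_prime_iff_eq hq hpp).1 h) hqp
        · exact fun h => Dvd.dvd.mul_right h p
  · -- (A): good reduction: the flat problem at the level `M`, prime to `p`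
    have hpM : ¬ p ∣ M := fun h =>
      hM₁fin (mltt_finite_of_good W hpp hbad) (hMdvd h)
    exact direct M true hMpos hMsq hMiff (fun _ => ⟨hpM, hbad, hMres⟩) (fun h => by cases h)

end Fermat.Agent.MLT
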