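/-
MLT (project S59) / Top/StepP (helper6): **`R_Σ ≅ T_Σ` for the ORDINARY problem attached to a FLAT
base datum** (case (C'): `W` multiplicative at `p`, `W[p]` finite at `p`), in the literals of
`Contracts/Top.lean` and `Contracts/TopP.lean`.

`mltt_bij_toOrd` : for a valid FLAT base datum `B` (level `N0` prime to `p`) whose `ρbar` is of
ordinary type and an eigensystem `a` of the minimal level, there is a unit `lamp` such that the
ordinary datum `B.toOrd lamp` (level `N0 p`) is valid, has residual eigencharacters at every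
admissible level (`MltcThetaAt`, from `mltt_theta_of_eigen`) and `MlttBijAt 𝒪 (B.toOrd lamp)` holds.
Inputs:
* at the flat datum: `MltRT B ∅` (helper2), `MlttRingAt`, `MlttCompareAt`, (E5a);
* the step at `p` (`Contracts/StepP.lean`): (D-fl), (D-new), (G1a), (pΦ), (pE), (pΩ);
* at the ordinary data: the contracts of `Top/Step.lean` (`R_Σ`, `R_Σ ↠ T_Σ`, (E5a), (8), (E5b)).
`MltMinContract` is NOT used at the ordinary datum (the ordinary minimal problem of a `ρbar` which is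
finite at `p` is not minimal in the sense of Taylor–Wiles).

`mltt_toOrd_of_contracts` : `MlttToOrdContract` from these contracts.
-/
import Mathlib
import Fermat.Agent.Lib.MLT.Top.Step
import Fermat.Agent.Lib.MLT.Top.Theta
import Fermat.Agent.Lib.MLT.Crit.StepP
import Fermat.Agent.Lib.MLT.Contracts.TopP

set_option autoImplicit false
set_option linter.unusedSectionVars false
set_option linter.unusedVariables false
set_option linter.style.haveILetI false

open IsLocalRing Fermat.Agent.TW Fermat.Agent.Ihara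

namespace Fermat.Agent.MLT

section

variable {𝒪 : Type} [CommRing 𝒪] [IsDomain 𝒪] [IsDiscreteValuationRing 𝒪] [CharZero 𝒪]
  [IsAdicComplete (maximalIdeal 𝒪) 𝒪] [Finite (ResidueField 𝒪)]

/-- **`R_Σ ≅ T_Σ` for the ordinary problem attached to a flat base datum** -/
theorem mltt_bij_toOrd (B : MltBase 𝒪) (hB : B.Valid) (hfl : B.flat = true)
    (hp : B.p = 3 ∨ B.p = 5) (hS0 : B.S0 = B.Smin ∪ B.cut)
    (hMinB : ∀ [NeZero (B.level ∅)], MltRT B ∅)
    (hbar : mltCond 𝒪 B.p false B.Smin ∅ (GaloisRepAdic.ofResidualGaloisRep B.ρbar))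
    (a : ℕ → 𝒪) (ha : ∀ [NeZero (B.level ∅)], mltcEig B ∅ a ≠ ⊥)
    (hRing : MlttRingContract) (hCmp : MlttCompareContract)
    (hUp : MltcEigUpContract) (hMult : MltcMultOneContract) (hOmega : MltcOmegaUpContract)
    (hDfl : MltcFrobFlContract) (hDnew : MltcFrobNewContract) (hFO : MltcFlatOrdContract)
    (hPhiP : MltcPhiPContract) (hEigP : MltcEigPContract) (hOmegaP : MltcOmegaPContract) :
    ∃ lamp : 𝒪, (B.toOrd lamp).Valid ∧ MltcThetaAt 𝒪 (B.toOrd lamp)
      ∧ MlttBijAt 𝒪 (B.toOrd lamp) := by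
  classical
  have hSig : B.IsAux ∅ := mltc_isAux_empty B
  have hTheta : MltcThetaAt 𝒪 B := mltt_theta_of_eigen B hB hp hS0 (hUp 𝒪 B) a ha
  obtain ⟨lamp, hB', ha', d, hd0, hInv'⟩ := mltc_inv_toOrd_eig B hB hfl hp hS0 hMinB
    (hRing 𝒪 B hB hS0 ∅ hSig) (fun θ hθ D => hCmp 𝒪 B hB hS0 ∅ hSig θ hθ D)
    (hTheta ∅ hSig) a ha (fun _ => hbar) hDfl hDnew (hFO 𝒪 B)
    (fun lamp => hPhiP 𝒪 B lamp) (fun lamp => hEigP 𝒪 B lamp) (fun lamp => hOmegaP 𝒪 B lamp)
    (fun lamp => mltc_actAt (B.toOrd lamp))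
  have hS0' : (B.toOrd lamp).S0 = (B.toOrd lamp).Smin ∪ (B.toOrd lamp).cut :=
    mltc_toOrd_S0 B lamp hB hS0
  have hTheta' : MltcThetaAt 𝒪 (B.toOrd lamp) :=
    mltt_theta_of_eigen (B.toOrd lamp) hB' hp hS0' (hUp 𝒪 (B.toOrd lamp)) a ha'
  refine ⟨lamp, hB', hTheta', ?_⟩
  intro hB'' hp' hS0'' Sig hSig' _ θ hθ D Hk hHk φ hφ hcompat hsurj
  have key := mltc_inv_all (B.toOrd lamp) hB' hp' hS0'' a d hd0 hInv'
    (fun Sig hSig => hRing 𝒪 (B.toOrd lamp) hB' hS0'' Sig hSig)
    (fun Sig hSig _ θ hθ D => hCmp 𝒪 (B.toOrd lamp) hB' hS0'' Sig hSig θ hθ D)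
    hTheta' (mltc_actAt (B.toOrd lamp)) (hUp 𝒪 (B.toOrd lamp))
    (hMult 𝒪 (B.toOrd lamp)) (hOmega 𝒪 (B.toOrd lamp))
  exact (key Sig hSig' θ hθ D Hk hHk φ hφ hcompat hsurj).1

end

/-- **the step at `p` (`MlttToOrdContract`) from the contracts of the streams** -/
theorem mltt_toOrd_of_contracts (hRing : MlttRingContract) (hCmp : MlttCompareContract)
    (hUp : MltcEigUpContract) (hMult : MltcMultOneContract) (hOmega : MltcOmegaUpContract)
    (hDfl : MltcFrobFlContract) (hDnew : MltcFrobNewContract) (hFO : MltcFlatOrdContract)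
    (hPhiP : MltcPhiPContract) (hEigP : MltcEigPContract) (hOmegaP : MltcOmegaPContract) :
    MlttToOrdContract := by
  intro 𝒪 _ _ _ _ _ _ B hB hfl hp hS0 hMin hbar a ha
  exact mltt_bij_toOrd B hB hfl hp hS0 hMin hbar a ha hRing hCmp hUp hMult hOmega hDfl hDnew hFO
    hPhiP hEigP hOmegaP

end Fermat.Agent.MLT
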