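/-
MLT (project S59) / Top/ToOrd (helper6): **the step at `p` closed**: `MlttToOrdContract`
(`Contracts/TopP.lean`, lead) from the contracts proved by the streams:

* `mltt_ringContract`, `mltt_compareContract`  (lead, `Top/Ring.lean`);
* `mlte_eigUpContract`, `mlte_omegaUpContract`  (helper1, `Eta/StepInputs.lean`);
* `mltmo_multOneContract`                       (helper3, `MO/Wire.lean`);
* `mltc_frobFlContract`, `mltc_frobNewContract` (helper6 + helper1, `Crit/FrobMain.lean`);
* `mltfo_flatOrdContract`                       (helper8, `Contracts/FlatOrd.lean`);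
* `mlto_phiPContract`                           (helper7, `TWO/KnStepP.lean`);
* `mlte_eigPContract`, `mlte_omegaPContract`    (helper1, `Eta/StepPInputs.lean`).
-/
import Mathlib
import Fermat.Agent.Lib.MLT.Top.StepP
import Fermat.Agent.Lib.MLT.Top.Ring
import Fermat.Agent.Lib.MLT.Eta.StepInputs
import Fermat.Agent.Lib.MLT.Eta.StepPInputs
import Fermat.Agent.Lib.MLT.MO.Wire
import Fermat.Agent.Lib.MLT.Contracts.FlatOrd
import Fermat.Agent.Lib.MLT.TWO.KnStepP
import Fermat.Agent.Lib.MLT.Crit.FrobMain

set_option autoImplicit false

namespace Fermat.Agent.MLT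

/-- **the step at `p`** (case (C'): `W` multiplicative at `p`, `W[p]` finite at `p`) -/
theorem mltt_toOrdContract : MlttToOrdContract :=
  mltt_toOrd_of_contracts mltt_ringContract mltt_compareContract mlte_eigUpContract
    mltmo_multOneContract mlte_omegaUpContract mltc_frobFlContract mltc_frobNewContract
    mltfo_flatOrdContract mlto_phiPContract mlte_eigPContract mlte_omegaPContract

end Fermat.Agent.MLT
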