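/-
MLT (project S59) / Top (lead): **S59 from the open inputs**.

* `mltt_final`  : the statement of S59 from `MlttSqfree` (abstract [L2]), `MltL1MazurTwo 3`, `MlttToOrdContract`;
* `mltt_final'` : the same with `MltL1MazurTwoAux` (Mazur's principle at `q = 2`, `p = 3`, with an auxiliary prime
                  `r0 ≡ 2 mod 3` in the level, helper4; the auxiliary prime is removed by (N) = `mltl1_noNewThree`,
                  `Top/L1Three.lean`);
* **`mltt_final3`** : the statement of S59 from the THREE inputs which are still open: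
    - `MltL2JLRigid` ([L2-JL] at the rigid levels `4 ∣ K ∨ 9 ∣ K`; helper9's team, `Contracts/L2JL.lean`),
    - `MltL2JLTwo`   ([L2-JL] at `p = 3`, `q = 2`, `K` odd squarefree; `Contracts/L2JLTwo.lean`),
    - `MltL1MazurTwoAux` (helper4, `Contracts/L1Three.lean`);
  closed here: `MltL2Geom` (helper1, `mltj1_geom`), `MlttToOrdContract` (helper6, `mltt_toOrdContract`),
  the level normalisation `mltt_sqfree_of_rigid` (helper9's `mltl2_level_sqfree`).
-/
import Mathlib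
import Fermat.Agent.Lib.MLT.Top.Main
import Fermat.Agent.Lib.MLT.Top.L1
import Fermat.Agent.Lib.MLT.Top.L1Three
import Fermat.Agent.Lib.MLT.Top.Sqfree
import Fermat.Agent.Lib.MLT.Top.ToOrd
import Fermat.Agent.Lib.MLT.L2.P1.Geom

set_option autoImplicit false
set_option linter.unusedSectionVars false
set_option linter.unusedVariables false

open WeierstrassCurve

namespace Fermat.Agent.MLT

/-- **[L1] for `p ∈ {3, 5}`** from Mazur's principle at `q = 2` for `p = 3` -/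
theorem mltt_L1_all (h2 : ∀ [Fact (Nat.Prime 3)], MltL1MazurTwo 3) :
    ∀ (p : ℕ) [Fact p.Prime], p = 3 ∨ p = 5 → MltL1At' p := by
  intro p inst hp
  rcases hp with rfl | rfl
  · exact mltt_L1_three h2
  · exact mltt_L1_five

/-- **S59 from the three abstract inputs** -/
theorem mltt_final (hL2 : MlttSqfree) (h2 : ∀ [Fact (Nat.Prime 3)], MltL1MazurTwo 3)
    (hToOrd : MlttToOrdContract)
    (p : ℕ) (hp : p = 3 ∨ p = 5)
    (W : WeierstrassCurve ℤ) (hΔ : W.Δ ≠ 0) (hW : W.IsSemistableModel)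
    (hirr : W.ModRepIsIrreducible p)
    (M₀ : ℕ) [NeZero M₀] (hres₀ : W.IsResiduallyModularOfLevel p M₀)
    (hM₀ : ¬ p ^ 2 ∣ M₀)
    (hM₀3 : ∀ q : ℕ, q.Prime → q ≠ p → ¬ q ^ 3 ∣ M₀) :
    Mlc1IsModularModelOfExactConductorLevel W :=
  mltt_main hL2 (mltt_L1_all h2) hToOrd p hp W hΔ hW hirr M₀ hres₀ hM₀ hM₀3

/-- **S59 from the three abstract inputs**, with Mazur's principle at `q = 2`, `p = 3` in the version with an
auxiliary prime -/
theorem mltt_final' (hL2 : MlttSqfree) (hAux : MltL1MazurTwoAux)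
    (hToOrd : MlttToOrdContract)
    (p : ℕ) (hp : p = 3 ∨ p = 5)
    (W : WeierstrassCurve ℤ) (hΔ : W.Δ ≠ 0) (hW : W.IsSemistableModel)
    (hirr : W.ModRepIsIrreducible p)
    (M₀ : ℕ) [NeZero M₀] (hres₀ : W.IsResiduallyModularOfLevel p M₀)
    (hM₀ : ¬ p ^ 2 ∣ M₀)
    (hM₀3 : ∀ q : ℕ, q.Prime → q ≠ p → ¬ q ^ 3 ∣ M₀) :
    Mlc1IsModularModelOfExactConductorLevel W :=
  mltt_final hL2 (mltt_mazurTwo_three hAux) hToOrd p hp W hΔ hW hirr M₀ hres₀ hM₀ hM₀3

/-- **S59 from the three inputs which are still open** -/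
theorem mltt_final3 (hRigid : MltL2JLRigid) (hTwo : MltL2JLTwo) (hAux : MltL1MazurTwoAux)
    (p : ℕ) (hp : p = 3 ∨ p = 5)
    (W : WeierstrassCurve ℤ) (hΔ : W.Δ ≠ 0) (hW : W.IsSemistableModel)
    (hirr : W.ModRepIsIrreducible p)
    (M₀ : ℕ) [NeZero M₀] (hres₀ : W.IsResiduallyModularOfLevel p M₀)
    (hM₀ : ¬ p ^ 2 ∣ M₀)
    (hM₀3 : ∀ q : ℕ, q.Prime → q ≠ p → ¬ q ^ 3 ∣ M₀) :
    Mlc1IsModularModelOfExactConductorLevel W :=
  mltt_final' (mltt_sqfree_of_rigid mltj1_geom hRigid hTwo) hAux mltt_toOrdContract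
    p hp W hΔ hW hirr M₀ hres₀ hM₀ hM₀3

end Fermat.Agent.MLT
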