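/-
MLT (project S59) / Top (lead): **the two [L2-JL] inputs from the three statements which are still open**
(the Hecke-equivariance of the slope map `Mltj8HeckeAt` (helper2), the rigid (G-out) `MltjGeomOut`, and the two-level
(G-out) `MltjGeomOutTwo`), and **S59 from them**.

* `mltt_rigid_of` : `MltL2JLRigid` from `Mltj8HeckeAt` (all rigid levels) and `MltjGeomOut`;
* `mltt_two_of`   : `MltL2JLTwo` from `Mltj8HeckeAt` and `MltjGeomOutTwo`;
* `mltt_final_of` : the statement of S59 from the three.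
-/
import Mathlib
import Fermat.Agent.Lib.MLT.Top.Final
import Fermat.Agent.Lib.MLT.L1.Three.Final
import Fermat.Agent.Lib.MLT.L2.Assembly
import Fermat.Agent.Lib.MLT.L2.AssemblyTwo
import Fermat.Agent.Lib.MLT.L2.Kill.JLK
import Fermat.Agent.Lib.MLT.L2.Kill.JLKTwo
import Fermat.Agent.Lib.MLT.L2.P6.Main
import Fermat.Agent.Lib.MLT.L2.P7.BrSS
import Fermat.Agent.Lib.MLT.L2.P8.Slope
import Fermat.Agent.Lib.MLT.L2.P9.Main

set_option autoImplicit false
set_option linter.unusedSectionVars false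
set_option linter.unusedVariables false

open WeierstrassCurve

namespace Fermat.Agent.MLT

/-- **[L2-JL] at the rigid levels** from the Hecke-equivariance of the slope map and the rigid (G-out) -/
theorem mltt_rigid_of
    (hhecke : ∀ (𝔓 : Fermat.Agent.TW.FFPlace) (K : ℕ) [NeZero K] (hK : ¬ 𝔓.p ∣ K)
      (h49 : 4 ∣ K ∨ 9 ∣ K), Mltj8HeckeAt 𝔓 K hK h49)
    (hG : MltjGeomOut) : MltL2JLRigid :=
  mltj_JL_rigid mltj7_brSS
    (mltj_JLK_of_slope (mltj8_slopeEx mltj6_charI mltj6_charII mltj6_princAt hhecke) mltj7_brSS) hG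

/-- **[L2-JL] at `p = 3`, `q = 2`, `K₀` odd squarefree** from the Hecke-equivariance of the slope map and the
two-level (G-out) -/
theorem mltt_two_of
    (hhecke : ∀ (𝔓 : Fermat.Agent.TW.FFPlace) (K : ℕ) [NeZero K] (hK : ¬ 𝔓.p ∣ K)
      (h49 : 4 ∣ K ∨ 9 ∣ K), Mltj8HeckeAt 𝔓 K hK h49)
    (hG2 : MltjGeomOutTwo) : MltL2JLTwo :=
  mltj_JL_two mltj7_brSS (mltj_JLKTwo_of_slope (mltj9_slopeTwoEx hhecke) mltj7_brSS) hG2

/-- **S59 from the three open statements** -/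
theorem mltt_final_of
    (hhecke : ∀ (𝔓 : Fermat.Agent.TW.FFPlace) (K : ℕ) [NeZero K] (hK : ¬ 𝔓.p ∣ K)
      (h49 : 4 ∣ K ∨ 9 ∣ K), Mltj8HeckeAt 𝔓 K hK h49)
    (hG : MltjGeomOut) (hG2 : MltjGeomOutTwo)
    (p : ℕ) (hp : p = 3 ∨ p = 5)
    (W : WeierstrassCurve ℤ) (hΔ : W.Δ ≠ 0) (hW : W.IsSemistableModel)
    (hirr : W.ModRepIsIrreducible p)
    (M₀ : ℕ) [NeZero M₀] (hres₀ : W.IsResiduallyModularOfLevel p M₀)
    (hM₀ : ¬ p ^ 2 ∣ M₀)
    (hM₀3 : ∀ q : ℕ, q.Prime → q ≠ p → ¬ q ^ 3 ∣ M₀) :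
    Mlc1IsModularModelOfExactConductorLevel W :=
  mltt_final3 (mltt_rigid_of hhecke hG) (mltt_two_of hhecke hG2) mltl1_mazurTwoAux
    p hp W hΔ hW hirr M₀ hres₀ hM₀ hM₀3

end Fermat.Agent.MLT
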