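/-
MLT (project S59) / Top (lead): **the closed inputs**.

* `mltt_hecke_all`   : the Hecke-equivariance of the slope map at all rigid levels (helper2 + helper8, `mltjw_heckeAll`);
* `mltt_rigid`       : `MltL2JLRigid`, unconditional (rigid (G-out): helper4's `mltjr_geomOut_main` = Theorem R (helper5)
                       + (d) (helper7) + (BR-SS) (helper2) + the rigid assembly);
* `mltt_two_of_geomOutTwo` : `MltL2JLTwo` from the two-level (G-out);
* `mltt_final_of_geomOutTwo` : the statement of S59 from the two-level (G-out) `MltjGeomOutTwo`.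
-/
import Mathlib
import Fermat.Agent.Lib.MLT.Top.Inputs
import Fermat.Agent.Lib.MLT.L2.SlopeMain
import Fermat.Agent.Lib.MLT.L2.GOut.RigidMain

set_option autoImplicit false
set_option linter.unusedSectionVars false
set_option linter.unusedVariables false

open WeierstrassCurve

namespace Fermat.Agent.MLT

/-- the Hecke-equivariance of the slope map at all rigid levels -/
theorem mltt_hecke_all (𝔓 : Fermat.Agent.TW.FFPlace) (K : ℕ) [NeZero K] (hK : ¬ 𝔓.p ∣ K)
    (h49 : 4 ∣ K ∨ 9 ∣ K) : Mltj8HeckeAt 𝔓 K hK h49 :=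
  mltjw_heckeAll 𝔓 K hK h49

/-- **[L2-JL] at the rigid levels**, unconditional -/
theorem mltt_rigid : MltL2JLRigid :=
  mltt_rigid_of mltt_hecke_all mltjr_geomOut_main

/-- **[L2-JL] at `p = 3`, `q = 2`, `K₀` odd squarefree** from the two-level (G-out) -/
theorem mltt_two_of_geomOutTwo (hG2 : MltjGeomOutTwo) : MltL2JLTwo :=
  mltt_two_of mltt_hecke_all hG2

/-- **S59 from the two-level (G-out)** -/
theorem mltt_final_of_geomOutTwo (hG2 : MltjGeomOutTwo)
    (p : ℕ) (hp : p = 3 ∨ p = 5)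
    (W : WeierstrassCurve ℤ) (hΔ : W.Δ ≠ 0) (hW : W.IsSemistableModel)
    (hirr : W.ModRepIsIrreducible p)
    (M₀ : ℕ) [NeZero M₀] (hres₀ : W.IsResiduallyModularOfLevel p M₀)
    (hM₀ : ¬ p ^ 2 ∣ M₀)
    (hM₀3 : ∀ q : ℕ, q.Prime → q ≠ p → ¬ q ^ 3 ∣ M₀) :
    Mlc1IsModularModelOfExactConductorLevel W :=
  mltt_final_of mltt_hecke_all mltjr_geomOut_main hG2 p hp W hΔ hW hirr M₀ hres₀ hM₀ hM₀3

end Fermat.Agent.MLT
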