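/-
MLT (project S59) / Top (lead): **the two-level (G-out) closed, and the statement of S59**.

* `mltt_geomOutTwo` : `MltjGeomOutTwo`, unconditional: helper1's assembly `mltjt_geomOutTwo` applied to
    (S₀) = helper3's `mltj_stripTwo` fed with (STRIP) `mltj4_stripAt` (helper5), (S₀-γ) `mltc_charRedAt` (helper6),
    (S₀-β) `mltsb_charValAt` (helper8) + (d') `mltc_extThroughAt` (helper6), (S₀-α) `mltc_unitOfLocAt` (helper6),
    (CRT) `mltc_crtAt` (helper6), saturation `mltj_satAt` (lead),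
    and Theorem R `mltj4_theoremRAt_main` (helper5);
* `mltt_two`        : `MltL2JLTwo`, unconditional;
* `mltt_S59`        : the statement of S59.
-/
import Mathlib
import Fermat.Agent.Lib.MLT.Top.Closed
import Fermat.Agent.Lib.MLT.L2.Two.GOutTwo
import Fermat.Agent.Lib.MLT.L2.Two.StripTwo
import Fermat.Agent.Lib.MLT.L2.Two.StripBeta
import Fermat.Agent.Lib.MLT.L2.Two.ExtThrough
import Fermat.Agent.Lib.MLT.L2.Two.CharRedAt
import Fermat.Agent.Lib.MLT.L2.Two.UnitOfLoc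
import Fermat.Agent.Lib.MLT.L2.Two.Crt
import Fermat.Agent.Lib.MLT.L2.Two.SatMain
import Fermat.Agent.Lib.MLT.L2.P4.TheoremRFinal
import Fermat.Agent.Lib.MLT.L2.P4.StripAt

set_option autoImplicit false
set_option linter.unusedSectionVars false
set_option linter.unusedVariables false

open WeierstrassCurve

namespace Fermat.Agent.MLT

/-- **the two-level (G-out)**, unconditional -/
theorem mltt_geomOutTwo : MltjGeomOutTwo :=
  mltjt_geomOutTwo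
    (fun 𝔓 K₀ _ hK₀ hK ζ hζ hpq hq2 hsq =>
      mltj_stripTwo 𝔓 K₀ 9 hK₀ hK hζ (Or.inr ⟨K₀, mul_comm _ _⟩) 3 (by norm_num) hpq hq2
        (mltj4_stripAt 𝔓 (K₀ * 9) hK hζ (Or.inr ⟨K₀, mul_comm _ _⟩) 3 (by norm_num))
        (mltc_charRedAt 𝔓 K₀ 9 hK₀ hK hζ 3 (by norm_num) hpq)
        (mltsb_charValAt 𝔓 K₀ 9 hK₀ hK hζ 3 (mltc_extThroughAt 𝔓 K₀ 9 hK hζ))
        (mltc_unitOfLocAt 𝔓 (K₀ * 9) hK hζ (Or.inr ⟨K₀, mul_comm _ _⟩) 3 (by norm_num) hpq)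
        (mltc_crtAt 𝔓 (K₀ * 9) hK hζ (Or.inr ⟨K₀, mul_comm _ _⟩) 3 (by norm_num) hpq)
        (mltj_satAt 𝔓 K₀ 9 hK₀ hK hζ (Or.inr ⟨K₀, mul_comm _ _⟩)))
    (fun W _ _ _ 𝔓 K _ hK ζ hζ h49 hpq _ => mltj4_theoremRAt_main 𝔓 K hK hζ h49 3 (by norm_num) hpq W)

/-- **[L2-JL] at `p = 3`, `q = 2`, `K₀` odd squarefree**, unconditional -/
theorem mltt_two : MltL2JLTwo :=
  mltt_two_of_geomOutTwo mltt_geomOutTwo

/-- **the statement of S59** -/
theorem mltt_S59 (p : ℕ) (hp : p = 3 ∨ p = 5)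
    (W : WeierstrassCurve ℤ) (hΔ : W.Δ ≠ 0) (hW : W.IsSemistableModel)
    (hirr : W.ModRepIsIrreducible p)
    (M₀ : ℕ) [NeZero M₀] (hres₀ : W.IsResiduallyModularOfLevel p M₀)
    (hM₀ : ¬ p ^ 2 ∣ M₀)
    (hM₀3 : ∀ q : ℕ, q.Prime → q ≠ p → ¬ q ^ 3 ∣ M₀) :
    Mlc1IsModularModelOfExactConductorLevel W :=
  mltt_final_of_geomOutTwo mltt_geomOutTwo p hp W hΔ hW hirr M₀ hres₀ hM₀ hM₀3

end Fermat.Agent.MLT
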