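/-
MLT (project S59) / Top (lead): **the induction on `Σ`**: `MltRT B ∅` and the step `MltStepShape B`
give `MltRT B Σ` for every admissible auxiliary set `Σ`.
-/
import Mathlib
import Fermat.Agent.Lib.MLT.Min.RT

set_option autoImplicit false
set_option linter.unusedSectionVars false
set_option linter.unusedVariables false

open IsLocalRing Fermat.Agent.TW Fermat.Agent.Ihara

namespace Fermat.Agent.MLT

variable {𝒪 : Type} [CommRing 𝒪] [IsDomain 𝒪] [IsDiscreteValuationRing 𝒪] [CharZero 𝒪]
  [IsAdicComplete (maximalIdeal 𝒪) 𝒪] [Finite (ResidueField 𝒪)]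

theorem mltt_neZero_level (B : MltBase 𝒪) (hN0 : B.N0 ≠ 0) {Sig : Finset ℕ} (hSig : B.IsAux Sig) :
    NeZero (B.level Sig) :=
  ⟨B.level_ne_zero Sig hN0 (fun q hq => (hSig q hq).1)⟩

/-- **the induction on `Σ`** -/
theorem mltt_induct (B : MltBase 𝒪) (hN0 : B.N0 ≠ 0)
    (h0 : ∀ [NeZero (B.level ∅)], MltRT B ∅) (hstep : MltStepShape B) :
    ∀ (Sig : Finset ℕ), B.IsAux Sig → ∀ [NeZero (B.level Sig)], MltRT B Sig := by
  classical
  intro Sig
  induction Sig using Finset.induction_on with
  | empty =>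
    intro _ _
    exact h0
  | insert q Sig hq ih =>
    intro hSig _
    have hSig' : B.IsAux Sig := fun r hr => hSig r (Finset.mem_insert_of_mem hr)
    haveI := mltt_neZero_level B hN0 hSig'
    obtain ⟨hqp, hqS⟩ := hSig q (Finset.mem_insert_self q Sig)
    exact hstep Sig q hSig' hqp hqS hq (ih hSig')

end Fermat.Agent.MLT
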